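import Fermat.Agent.LT.PlaceMatching.Proj

/-!
# The fibre sums of the twisted terms

For test kernels on `L` whose components at the three places over each moved place are given
kernels over `K`, the sum of the twisted kernel over a fibre of the projection is the kernel of
the product of the three families at the norm.
-/

set_option autoImplicit false

noncomputable section

open IsDedekindDomain NumberField Matrix
open scoped ENNReal

namespace Fermat.Agent.LT.PlaceMatching

open Places Matching CubicDescent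
open Fermat.Agent.LT.Geometric (IsCubic)

universe u u'

variable {K : Type u} {L : Type u'} [Field K] [NumberField K] [Field L] [NumberField L]
  {ι : K →+* L} {σ : L ≃+* L} {I : Ideal (𝓞 L)} {J : Ideal (𝓞 K)}

theorem smul_mk_one_of_intGroup {F : Type*} [Field F] [NumberField F] {I : Ideal (𝓞 F)}
    {v : FinPlace F} (h : locIdeal I v = ⊤) {g : GL (Fin 2) (v.adicCompletion F)}
    (hg : g ∈ intGroup v) : g • (QuotientGroup.mk 1 : LocCosets I v) = QuotientGroup.mk 1 := by
  rw [MulAction.Quotient.smul_mk, smul_eq_mul, mul_one]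
  exact QuotientGroup.eq.mpr (by rw [mul_one]; exact inv_mem (intGroup_le_locLevel h hg))

theorem cast_mk_one {F : Type*} [Field F] [NumberField F] {I : Ideal (𝓞 F)} {v v' : FinPlace F}
    (e : v = v') :
    cast (congrArg (fun u => LocCosets I u) e) (QuotientGroup.mk 1 : LocCosets I v) =
      QuotientGroup.mk 1 := by
  subst e; rfl

/-- Kernels on `L` given, over moved places, by three families on `K`. -/
structure Compatible (hm : LevelsMatch ι σ I J) (hc : IsCubic ι σ) (s : PlaceSection ι)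
    (k : Fin 3 → KerFam J) (kL : KerFam I) : Prop where
  moved : ∀ v i, s.Moved σ v → ∀ a b,
    (kL.ker (s.pl σ v i)).toFun (baseLoc hm (s.pl_over hc v i) a)
      (baseLoc hm (s.pl_over hc v i) b) = ((k i).ker v).toFun a b
  fixed : ∀ v, ¬ s.Moved σ v → kL.ker (s.sec v) = 1
  fixedK : ∀ v i, ¬ s.Moved σ v → (k i).ker v = 1

/-- The absolute values of compatible kernels are compatible. -/
theorem Compatible.abs {hm : LevelsMatch ι σ I J} {hc : IsCubic ι σ} {s : PlaceSection ι}
    {k : Fin 3 → KerFam J} {kL : KerFam I} (h : Compatible hm hc s k kL) :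
    Compatible hm hc s (fun i => (k i).abs) kL.abs where
  moved v i hv a b := by
    show (‖_‖ : ℂ) = (‖_‖ : ℂ)
    rw [h.moved v i hv]
  fixed v hv := by rw [KerFam.abs_ker, h.fixed v hv, LocKer.abs_one]
  fixedK v i hv := by rw [KerFam.abs_ker, h.fixedK v i hv, LocKer.abs_one]

variable {hI : ∃ N : ℕ, 0 < N ∧ (N : 𝓞 L) ∈ I} {hJ : ∃ N : ℕ, 0 < N ∧ (N : 𝓞 K) ∈ J}
  {hm : LevelsMatch ι σ I J} {hc : IsCubic ι σ} {s : PlaceSection ι}
  {x : GL (Fin 2) L} {m : GL (Fin 2) K}

/-- Cosets of `L` with prescribed components at all places over every place. -/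
theorem exists_glue (t : ∀ v i, LocCosets I (s.pl σ v i))
    (ht : ∀ v, ¬ s.Moved σ v → ∀ i, HEq (t v i) (t v 0))
    (hfin : {v | ∃ i, t v i ≠ (QuotientGroup.mk 1 : LocCosets I (s.pl σ v i))}.Finite)
    (hc : IsCubic ι σ) :
    ∃ c : KerFam.Cst hI, ∀ v i, comp (s.pl σ v i) c = t v i := by
  let idx : FinPlace L → Fin 3 := fun w => (s.exists_pl_eq hc w).choose
  have hidx : ∀ w, s.pl σ (comapPlace ι w) (idx w) = w := fun w =>
    (s.exists_pl_eq hc w).choose_spec
  let X : ∀ w, LocCosets I w := fun w => hidx w ▸ t (comapPlace ι w) (idx w)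
  have hX : ∀ v i, X (s.pl σ v i) = t v i := fun v i => by
    refine eq_of_heq ((eqRec_heq _ _).trans ?_)
    have aux : ∀ v' i', v' = v → s.pl σ v' i' = s.pl σ v i → HEq (t v' i') (t v i) := by
      rintro v' i' rfl e
      by_cases hv : s.Moved σ v'
      · rw [s.pl_injective hc hv e]
      · exact (ht v' hv i').trans (ht v' hv i).symm
    exact aux _ _ (s.pl_over hc v i) (hidx _)
  obtain ⟨c, hcomp⟩ := exists_comp (hI := hI) X
    ((Set.Finite.image (fun p : FinPlace K × Fin 3 => s.pl σ p.1 p.2)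
      (hfin.prod Set.finite_univ)).subset fun w hw => by
        obtain ⟨i, hi⟩ := s.exists_pl_eq hc w
        refine ⟨(comapPlace ι w, i), ⟨⟨i, fun h => hw ?_⟩, trivial⟩, hi⟩
        have := hX (comapPlace ι w) i
        rw [h] at this
        exact hi ▸ this)
  exact ⟨c, fun v i => (hcomp _).trans (hX v i)⟩

namespace Transfer

variable (T : Transfer hm hc s x m)

variable (hI) in
/-- The twisted image `δ σ c`. -/
abbrev twist (hm : LevelsMatch ι σ I J) (hc : IsCubic ι σ) (x : GL (Fin 2) L)
    (c : KerFam.Cst hI) : KerFam.Cst hI :=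
  glIncl L x • galFin σ (Level.ofIdeal L I hI) (hm.stable hc) c

omit T in
/-- The components of a twisted coset. -/
theorem comp_twist {w w' : FinPlace L} (h : comapPlace (σ : L →+* L) w = w')
    (c : KerFam.Cst hI) :
    comp w (twist hI hm hc x c) = glPlace w (glIncl L x) • isoLoc hm hc h (comp w' c) := by
  rw [twist, comp_smul, comp_galFin hm hc h]

/-- `c` has coordinates `(d, b₁, b₂)` over `K`. -/
structure Coords (c : KerFam.Cst hI) (d b₁ b₂ : KerFam.Cst hJ) : Prop where
  zero : ∀ v, baseLoc hm (s.over v) (comp v d) = T.y v • comp (s.sec v) c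
  one : ∀ v, s.Moved σ v → comp (s.pl σ v 1) c =
    baseLoc hm (s.pl_over hc v 1) ((s.repK hc x v 0)⁻¹ • comp v b₁)
  two : ∀ v, s.Moved σ v → comp (s.pl σ v 2) c =
    baseLoc hm (s.pl_over hc v 2) ((s.repK hc x v 0 * s.repK hc x v 1)⁻¹ • comp v b₂)

variable {T}

theorem Coords.proj_eq {c : KerFam.Cst hI} {d b₁ b₂ : KerFam.Cst hJ}
    (h : T.Coords c d b₁ b₂) : T.proj hJ c = d :=
  coset_ext fun v => (T.comp_proj v c).trans (T.projLoc_eq (h.zero v))

/-- A coset over `L` is determined by its coordinates. -/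
theorem Coords.unique {c c' : KerFam.Cst hI} {d b₁ b₂ : KerFam.Cst hJ}
    (h : T.Coords c d b₁ b₂) (h' : T.Coords c' d b₁ b₂) : c = c' := by
  refine coset_ext fun w => ?_
  have h0 : ∀ v, comp (s.sec v) c = comp (s.sec v) c' := fun v =>
    MulAction.injective (T.y v) ((h.zero v).symm.trans (h'.zero v))
  obtain ⟨i, hi⟩ := s.exists_pl_eq hc w
  generalize hv : comapPlace ι w = v at hi
  subst hi
  by_cases hmv : s.Moved σ v
  · fin_cases i
    · exact h0 v
    · exact (h.one v hmv).trans (h'.one v hmv).symm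
    · exact (h.two v hmv).trans (h'.two v hmv).symm
  · rw [s.pl_of_fixed hmv]
    exact h0 v

variable (T)

/-- Every triple of cosets over `K` is the coordinates of a coset over `L`. -/
theorem exists_coords (d b₁ b₂ : KerFam.Cst hJ) :
    ∃ c : KerFam.Cst hI, T.Coords c d b₁ b₂ := by
  classical
  let t : ∀ v i, LocCosets I (s.pl σ v i) := fun v i =>
    if h : s.Moved σ v then baseLoc hm (s.pl_over hc v i)
      (![comp v d, (s.repK hc x v 0)⁻¹ • comp v b₁,
        (s.repK hc x v 0 * s.repK hc x v 1)⁻¹ • comp v b₂] i)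
    else cast (congrArg (fun u => LocCosets I u) (s.pl_of_fixed h i).symm)
      ((T.y v)⁻¹ • baseLoc hm (s.over v) (comp v d))
  obtain ⟨c, hcomp⟩ := exists_glue (hI := hI) (s := s) t
    (fun v hv i => by
      simp only [t, dif_neg hv]
      exact (cast_heq _ _).trans (cast_heq _ _).symm)
    (by
      refine ((((T.finite'.union (finite_le J hJ)).union (finite_comp_ne_one d)).union
        (finite_comp_ne_one b₁)).union (finite_comp_ne_one b₂) |>.union
          (s.finite_repK hc x)).subset fun v hv => ?_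
      by_contra h
      simp only [Set.mem_union, Set.mem_ofPred_eq, not_or, not_not, not_exists] at h
      obtain ⟨⟨⟨⟨⟨hy, hJv⟩, hd⟩, h1⟩, h2⟩, hrep⟩ := h
      obtain ⟨i, hi⟩ := hv
      refine hi ?_
      by_cases hmv : s.Moved σ v
      · simp only [t, dif_pos hmv, hd, h1, h2]
        have e1 := smul_mk_one_of_intGroup hJv (inv_mem (hrep 0))
        have e2 := smul_mk_one_of_intGroup hJv (inv_mem (mul_mem (hrep 0) (hrep 1)))
        fin_cases i <;> simp only [Fin.isValue, Fin.zero_eta, Fin.mk_one, Fin.reduceFinMk,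
          Matrix.cons_val_zero, Matrix.cons_val_one, Matrix.cons_val, e1, e2, baseLoc_mk, map_one]
      · simp only [t, dif_neg hmv, hy, hd, baseLoc_mk, map_one, inv_one, one_smul]
        exact cast_mk_one (s.pl_of_fixed hmv i).symm)
    hc
  refine ⟨c, fun v => ?_, fun v hv => ?_, fun v hv => ?_⟩
  · have h0 := hcomp v 0
    by_cases hmv : s.Moved σ v
    · simp only [t, dif_pos hmv] at h0
      rw [show comp (s.sec v) c = _ from h0, T.y_moved v hmv, one_smul]
      rfl
    · simp only [t, dif_neg hmv] at h0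
      rw [show comp (s.sec v) c = _ from h0]
      exact (smul_inv_smul (T.y v) _).symm
  · have h1 := hcomp v 1
    simp only [t, dif_pos hv] at h1
    exact h1
  · have h2 := hcomp v 2
    simp only [t, dif_pos hv] at h2
    exact h2

variable {T} {k : Fin 3 → KerFam J} {kL : KerFam I}

/-- The twisted kernel in coordinates. -/
theorem Coords.term_eq {c : KerFam.Cst hI} {d b₁ b₂ : KerFam.Cst hJ}
    (h : T.Coords c d b₁ b₂) (hk : Compatible hm hc s k kL)
    (hN : twistedNorm (glMap σ) x 3 = baseUnit ι m)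
    (hfix : ∀ v, ¬ s.Moved σ v → comp v b₁ = comp v d ∧ comp v b₂ = comp v d ∧
      glPlace v (glIncl K m) • comp v d = comp v d) :
    kL.prod hI c (twist hI hm hc x c) =
      (k 0).prod hJ d b₁ * (k 1).prod hJ b₁ b₂ * (k 2).prod hJ b₂ (glIncl K m • d) := by
  classical
  set F : Finset (FinPlace K) := (((kL.finite_ne_one c (twist hI hm hc x c)).image
    (comapPlace ι)).union (((k 0).finite_ne_one d b₁).union (((k 1).finite_ne_one b₁ b₂).union
      ((k 2).finite_ne_one b₂ (glIncl K m • d))))).toFinset with hFdef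
  have hF : ∀ v, v ∈ F ↔ v ∈ comapPlace ι '' (Function.mulSupport fun w =>
        (kL.ker w).toFun (comp w c) (comp w (twist hI hm hc x c))) ∨
      v ∈ (Function.mulSupport fun v => ((k 0).ker v).toFun (comp v d) (comp v b₁)) ∨
      v ∈ (Function.mulSupport fun v => ((k 1).ker v).toFun (comp v b₁) (comp v b₂)) ∨
      v ∈ (Function.mulSupport fun v =>
        ((k 2).ker v).toFun (comp v b₂) (comp v (glIncl K m • d))) := fun v => by
    rw [hFdef, Set.Finite.mem_toFinset]
    simp only [Set.mem_union]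
  have hwo : ∀ w ∉ F.biUnion fun v => Finset.univ.image (s.pl σ v),
      (kL.ker w).toFun (comp w c) (comp w (twist hI hm hc x c)) = 1 := fun w hw => by
    by_contra hne
    refine hw (Finset.mem_biUnion.mpr ⟨comapPlace ι w, (hF _).mpr (Or.inl ⟨w, hne, rfl⟩), ?_⟩)
    obtain ⟨i, hi⟩ := s.exists_pl_eq hc w
    exact Finset.mem_image.mpr ⟨i, Finset.mem_univ _, hi⟩
  have h0 : ∀ v ∉ F, ((k 0).ker v).toFun (comp v d) (comp v b₁) = 1 := fun v hv =>
    by_contra fun hne => hv ((hF v).mpr (Or.inr (Or.inl hne)))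
  have h1 : ∀ v ∉ F, ((k 1).ker v).toFun (comp v b₁) (comp v b₂) = 1 := fun v hv =>
    by_contra fun hne => hv ((hF v).mpr (Or.inr (Or.inr (Or.inl hne))))
  have h2 : ∀ v ∉ F, ((k 2).ker v).toFun (comp v b₂) (comp v (glIncl K m • d)) = 1 := fun v hv =>
    by_contra fun hne => hv ((hF v).mpr (Or.inr (Or.inr (Or.inr hne))))
  rw [KerFam.prod_eq_finset kL c _ hwo, KerFam.prod_eq_finset (k 0) d b₁ h0,
    KerFam.prod_eq_finset (k 1) b₁ b₂ h1, KerFam.prod_eq_finset (k 2) b₂ _ h2,
    ← Finset.prod_mul_distrib, ← Finset.prod_mul_distrib, Finset.prod_biUnion]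
  · refine Finset.prod_congr rfl fun v _ => ?_
    by_cases hv : s.Moved σ v
    · rw [Finset.prod_image fun i _ j _ e => s.pl_injective hc hv e, Fin.prod_univ_three]
      have e0 : comp (s.pl σ v 0) c = baseLoc hm (s.pl_over hc v 0) (comp v d) := by
        have := h.zero v
        rw [T.y_moved v hv, one_smul] at this
        exact this.symm
      have et : ∀ (i : Fin 3) (a : LocCosets J v),
          comp (s.pl σ v (i + 1)) c = baseLoc hm (s.pl_over hc v (i + 1)) a →
          comp (s.pl σ v i) (twist hI hm hc x c) =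
            baseLoc hm (s.pl_over hc v i) (s.repK hc x v i • a) := fun i a ha => by
        rw [comp_twist (s.pl_succ hc v i), ha,
          isoLoc_baseLoc hm hc (s.pl_succ hc v i) (s.pl_over hc v i), baseLoc_smul,
          s.baseUnit_repK hc hv]
      rw [et 0 _ (h.one v hv), et 1 _ (h.two v hv), et 2 _ e0, e0, h.one v hv, h.two v hv,
        hk.moved v 0 hv, hk.moved v 1 hv, hk.moved v 2 hv, comp_smul, smul_inv_smul]
      refine congrArg₂ (· * ·) (congrArg₂ (· * ·) rfl ?_) ?_
      · rw [← ((k 1).ker v).smul' (s.repK hc x v 0), smul_inv_smul, smul_smul, smul_smul,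
          mul_inv_cancel, one_smul]
      · rw [← ((k 2).ker v).smul' (s.repK hc x v 0 * s.repK hc x v 1), smul_inv_smul, smul_smul,
          mul_assoc, s.repK_prod hc hN hv]
    · obtain ⟨hb₁, hb₂, hmd⟩ := hfix v hv
      have himg : Finset.univ.image (s.pl σ v) = {s.sec v} := by
        ext w
        simp only [Finset.mem_image, Finset.mem_univ, true_and, Finset.mem_singleton,
          s.pl_of_fixed hv]
        exact ⟨fun ⟨_, e⟩ => e.symm, fun e => ⟨0, e.symm⟩⟩
      rw [himg, Finset.prod_singleton, hk.fixed v hv, hk.fixedK v 0 hv, hk.fixedK v 1 hv,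
        hk.fixedK v 2 hv, hb₁, hb₂, comp_smul v (glIncl K m) d, hmd, comp_twist (not_not.mp hv)]
      have hx := (T.isTransfer v (not_not.mp hv) (comp (s.sec v) c)).mpr ⟨_, hmd, h.zero v⟩
      rw [hx, LocKer.one_same, LocKer.one_same, mul_one, mul_one]
  · intro v _ v' _ hne
    refine Finset.disjoint_left.mpr fun w hw hw' => hne ?_
    obtain ⟨i, -, rfl⟩ := Finset.mem_image.mp hw
    obtain ⟨j, -, hj⟩ := Finset.mem_image.mp hw'
    rw [← s.pl_over hc v i, ← hj, s.pl_over hc v' j]

/-- A nonzero twisted kernel forces the fixed places to be fixed. -/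
theorem onSupport_of_ne_zero (hk : Compatible hm hc s k kL) {c : KerFam.Cst hI}
    (h : kL.prod hI c (twist hI hm hc x c) ≠ 0) :
    OnSupport (hm := hm) (hc := hc) (s := s) (x := x) c := fun v hw => by
  have h1 := (KerFam.prod_ne_zero_iff kL c _).mp h (s.sec v)
  rw [hk.fixed v (not_not.mpr hw), comp_twist hw] at h1
  exact (LocKer.eq_of_one_ne_zero h1).symm

/-- Every coset on the support has coordinates. -/
theorem exists_coordsOf (T : Transfer hm hc s x m) {c : KerFam.Cst hI}
    (hs : OnSupport (hm := hm) (hc := hc) (s := s) (x := x) c) :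
    ∃ b₁ b₂ : KerFam.Cst hJ, T.Coords c (T.proj hJ c) b₁ b₂ ∧
      ∀ v, ¬ s.Moved σ v → comp v b₁ = T.projLoc v c ∧ comp v b₂ = T.projLoc v c ∧
        glPlace v (glIncl K m) • T.projLoc v c = T.projLoc v c := by
  classical
  choose a ha using fun (v : FinPlace K) (h : s.Moved σ v) (i : Fin 3) =>
    baseLoc_surjective hm hc (s.moved_pl hc h i) (s.pl_over hc v i) (comp (s.pl σ v i) c)
  let g₁ : ∀ v, LocCosets J v := fun v =>
    if h : s.Moved σ v then s.repK hc x v 0 • a v h 1 else T.projLoc v c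
  let g₂ : ∀ v, LocCosets J v := fun v =>
    if h : s.Moved σ v then (s.repK hc x v 0 * s.repK hc x v 1) • a v h 2 else T.projLoc v c
  have hfin : {v | g₁ v ≠ (QuotientGroup.mk 1 : LocCosets J v) ∨
      g₂ v ≠ (QuotientGroup.mk 1 : LocCosets J v)}.Finite := by
    refine ((((T.finite_projLoc c).union (finite_le J hJ)).union (s.finite_repK hc x)).union
      ((finite_comp_ne_one c).image (comapPlace ι))).subset fun v hv => ?_
    by_contra h
    simp only [Set.mem_union, Set.mem_ofPred_eq, Set.mem_image, not_or, not_not, not_exists,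
      not_and] at h
    obtain ⟨⟨⟨hp, hJv⟩, hrep⟩, hw⟩ := h
    by_cases hmv : s.Moved σ v
    · have hai : ∀ i, a v hmv i = QuotientGroup.mk 1 := fun i =>
        baseLoc_injective hm hc (s.pl_over hc v i) (by
          rw [ha, baseLoc_mk, map_one]
          by_contra hne
          exact hw _ hne (s.pl_over hc v i))
      simp only [g₁, g₂, dif_pos hmv, Set.mem_ofPred_eq, hai,
        smul_mk_one_of_intGroup hJv (hrep 0),
        smul_mk_one_of_intGroup hJv (mul_mem (hrep 0) (hrep 1))] at hv
      exact hv.elim (fun e => e rfl) fun e => e rfl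
    · simp only [g₁, g₂, dif_neg hmv, Set.mem_ofPred_eq, hp, ne_eq, not_true_eq_false,
        or_self] at hv
  obtain ⟨b₁, hb₁⟩ := exists_comp (hI := hJ) g₁ (hfin.subset fun v hv => Or.inl hv)
  obtain ⟨b₂, hb₂⟩ := exists_comp (hI := hJ) g₂ (hfin.subset fun v hv => Or.inr hv)
  refine ⟨b₁, b₂, ⟨fun v => ?_, fun v hv => ?_, fun v hv => ?_⟩, fun v hv => ?_⟩
  · rw [T.comp_proj, T.baseLoc_projLoc (T.hasLift_of_onSupport hs v)]
  · rw [hb₁]
    simp only [g₁, dif_pos hv, inv_smul_smul, ha]
  · rw [hb₂]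
    simp only [g₂, dif_pos hv, inv_smul_smul, ha]
  · rw [hb₁, hb₂]
    simp only [g₁, g₂, dif_neg hv, true_and]
    obtain ⟨z, hz, hzc⟩ := (T.isTransfer v (not_not.mp hv) _).mp (hs v (not_not.mp hv))
    rw [T.projLoc_eq hzc]
    exact hz

variable (T)

/-- **The fibre sums.** -/
theorem hasSum_fibre (hk : Compatible hm hc s k kL)
    (hN : twistedNorm (glMap σ) x 3 = baseUnit ι m) (d : KerFam.Cst hJ) :
    HasSum (fun c : {c : KerFam.Cst hI // T.proj hJ c = d} =>
        (kL.hecke hI).kernel c.1 (twist hI hm hc x c.1))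
      (((k 0).hecke hJ * (k 1).hecke hJ * (k 2).hecke hJ).kernel d (glIncl K m • d)) := by
  classical
  choose lift hlift using fun p : KerFam.Cst hJ × KerFam.Cst hJ =>
    T.exists_coords (hI := hI) d p.1 p.2
  set g : KerFam.Cst hJ × KerFam.Cst hJ → ℂ := fun p =>
    (k 0).prod hJ d p.1 * (k 1).prod hJ p.1 p.2 * (k 2).prod hJ p.2 (glIncl K m • d) with hg
  set P : Finset (KerFam.Cst hJ × KerFam.Cst hJ) :=
    (((k 0).hecke hJ).row d).biUnion fun b₁ =>
      (((k 1).hecke hJ).row b₁).image fun b₂ => (b₁, b₂) with hP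
  have hval : ((k 0).hecke hJ * (k 1).hecke hJ * (k 2).hecke hJ).kernel d (glIncl K m • d) =
      ∑ p ∈ P, g p := by
    rw [mul_assoc, HeckeFn.kernel_mul, HeckeFn.act_eq_sum, hP,
      Finset.sum_biUnion fun b _ b' _ hbb => Finset.disjoint_left.mpr fun p h1 h2 => by
        obtain ⟨_, -, rfl⟩ := Finset.mem_image.mp h1
        obtain ⟨_, -, e⟩ := Finset.mem_image.mp h2
        exact hbb (congrArg Prod.fst e).symm]
    refine Finset.sum_congr rfl fun b₁ _ => ?_
    rw [HeckeFn.kernel_mul, HeckeFn.act_eq_sum, Finset.mul_sum,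
      Finset.sum_image fun a _ b _ e => congrArg Prod.snd e]
    refine Finset.sum_congr rfl fun b₂ _ => ?_
    simp only [hg, KerFam.hecke_kernel, mul_assoc]
  have hfix : ∀ p, g p ≠ 0 → ∀ v, ¬ s.Moved σ v → comp v p.1 = comp v d ∧
      comp v p.2 = comp v d ∧ glPlace v (glIncl K m) • comp v d = comp v d := by
    intro p hp v hv
    simp only [hg, ne_eq, mul_eq_zero, not_or] at hp
    have h0 := (KerFam.prod_ne_zero_iff _ _ _).mp hp.1.1 v
    have h1 := (KerFam.prod_ne_zero_iff _ _ _).mp hp.1.2 v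
    have h2 := (KerFam.prod_ne_zero_iff _ _ _).mp hp.2 v
    rw [hk.fixedK v _ hv] at h0 h1 h2
    have e0 := LocKer.eq_of_one_ne_zero h0
    have e1 := LocKer.eq_of_one_ne_zero h1
    have e2 := LocKer.eq_of_one_ne_zero h2
    rw [comp_smul] at e2
    exact ⟨e0.symm, (e0.trans e1).symm, ((e0.trans e1).trans e2).symm⟩
  have hproj : ∀ p, T.proj hJ (lift p) = d := fun p => (hlift p).proj_eq
  have hinj : ∀ p, g p ≠ 0 → ∀ q, g q ≠ 0 → lift p = lift q → p = q := by
    intro p hp q hq e
    have key : ∀ v, comp v p.1 = comp v q.1 ∧ comp v p.2 = comp v q.2 := fun v => by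
      by_cases hv : s.Moved σ v
      · have h1 := (hlift p).one v hv
        have h2 := (hlift p).two v hv
        rw [e, (hlift q).one v hv] at h1
        rw [e, (hlift q).two v hv] at h2
        exact ⟨(MulAction.injective _ (baseLoc_injective hm hc _ h1)).symm,
          (MulAction.injective _ (baseLoc_injective hm hc _ h2)).symm⟩
      · obtain ⟨a1, a2, -⟩ := hfix p hp v hv
        obtain ⟨c1, c2, -⟩ := hfix q hq v hv
        exact ⟨a1.trans c1.symm, a2.trans c2.symm⟩
    exact Prod.ext (coset_ext fun v => (key v).1) (coset_ext fun v => (key v).2)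
  rw [hval, ← Finset.sum_filter_ne_zero]
  set P' := P.filter fun p => g p ≠ 0 with hP'
  have hmem : ∀ p ∈ P', g p ≠ 0 := fun p hp => (Finset.mem_filter.mp hp).2
  have hsum : ∑ p ∈ P', g p = ∑ c ∈ P'.image
      (fun p => (⟨lift p, hproj p⟩ : {c : KerFam.Cst hI // T.proj hJ c = d})),
      (kL.hecke hI).kernel c.1 (twist hI hm hc x c.1) := by
    rw [Finset.sum_image fun p hp q hq e =>
      hinj p (hmem p hp) q (hmem q hq) (congrArg Subtype.val e)]
    refine Finset.sum_congr rfl fun p hp => ?_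
    rw [KerFam.hecke_kernel, (hlift p).term_eq hk hN (hfix p (hmem p hp))]
  rw [hsum]
  refine hasSum_sum_of_ne_finset_zero fun ⟨c, hcd⟩ hc' => ?_
  by_contra hne
  rw [KerFam.hecke_kernel] at hne
  obtain ⟨b₁, b₂, hco, hf⟩ := exists_coordsOf (hJ := hJ) T (onSupport_of_ne_zero hk hne)
  rw [hcd] at hco
  have hf' : ∀ v, ¬ s.Moved σ v → comp v b₁ = comp v d ∧ comp v b₂ = comp v d ∧
      glPlace v (glIncl K m) • comp v d = comp v d := fun v hv => by
    rw [← hcd, T.comp_proj]; exact hf v hv
  have hgp : g (b₁, b₂) ≠ 0 := by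
    rwa [hco.term_eq hk hN hf'] at hne
  have hgp' := hgp
  simp only [hg, ne_eq, mul_eq_zero, not_or] at hgp'
  refine hc' (Finset.mem_image.mpr ⟨(b₁, b₂), Finset.mem_filter.mpr ⟨?_, hgp⟩, Subtype.ext
    ((hlift (b₁, b₂)).unique hco)⟩)
  refine Finset.mem_biUnion.mpr ⟨b₁, HeckeFn.mem_row.mpr ?_, Finset.mem_image.mpr
    ⟨b₂, HeckeFn.mem_row.mpr ?_, rfl⟩⟩
  · rw [KerFam.hecke_kernel]; exact hgp'.1.1
  · rw [KerFam.hecke_kernel]; exact hgp'.1.2

/-- The majorant: the absolute families. -/
theorem enorm_fibre (hk : Compatible hm hc s k kL)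
    (hN : twistedNorm (glMap σ) x 3 = baseUnit ι m) (d : KerFam.Cst hJ) :
    ∑' c : {c : KerFam.Cst hI // T.proj hJ c = d},
        ‖(kL.hecke hI).kernel c.1 (twist hI hm hc x c.1)‖ₑ =
      ‖((k 0).abs.hecke hJ * (k 1).abs.hecke hJ * (k 2).abs.hecke hJ).kernel d
        (glIncl K m • d)‖ₑ := by
  have h := T.hasSum_fibre (hI := hI) hk.abs hN d
  simp only [KerFam.hecke_abs_kernel] at h
  have hr := Complex.hasSum_re h
  simp only [Complex.ofReal_re] at hr
  set S := ((k 0).abs.hecke hJ * (k 1).abs.hecke hJ * (k 2).abs.hecke hJ).kernel d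
    (glIncl K m • d) with hS
  have hre : S = (S.re : ℂ) := h.unique (Complex.hasSum_ofReal.mpr hr)
  have h0 : 0 ≤ S.re := hr.nonneg fun c => norm_nonneg _
  rw [hre, ← ofReal_norm, Complex.norm_real, Real.norm_of_nonneg h0]
  simp only [← ofReal_norm]
  rw [← ENNReal.ofReal_tsum_of_nonneg (fun c => norm_nonneg _) hr.summable, hr.tsum_eq]

/-- The product of the absolute families is nonzero at the projection of the support. -/
theorem majorant_ne_zero (hk : Compatible hm hc s k kL)
    (hN : twistedNorm (glMap σ) x 3 = baseUnit ι m) {c : KerFam.Cst hI}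
    (h : (kL.hecke hI).kernel c (twist hI hm hc x c) ≠ 0) :
    ((k 0).abs.hecke hJ * (k 1).abs.hecke hJ * (k 2).abs.hecke hJ).kernel (T.proj hJ c)
      (glIncl K m • T.proj hJ c) ≠ 0 := fun h0 => by
  have e := T.enorm_fibre (hI := hI) hk hN (T.proj hJ c)
  rw [h0, enorm_zero, ENNReal.tsum_eq_zero] at e
  exact h (by simpa using e ⟨c, rfl⟩)

end Transfer

end Fermat.Agent.LT.PlaceMatching

end
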