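import Fermat.Agent.LT.PlaceMatching.Cosets
import Fermat.Agent.LT.HeckeAlg.Support

/-!
# Hecke functions with local factors

A family of invariant kernels on the local coset spaces, trivial at almost every place, gives a
Hecke function of the level of an ideal; products are computed place by place.
-/

set_option autoImplicit false

noncomputable section

open IsDedekindDomain NumberField

namespace Fermat.Agent.LT.PlaceMatching

open Places

universe u

variable {F : Type u} [Field F] [NumberField F] {I : Ideal (𝓞 F)}

/-! ### Local kernels -/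

/-- An invariant kernel with finite rows on a local coset space. -/
@[ext]
structure LocKer (I : Ideal (𝓞 F)) (v : FinPlace F) where
  /-- The kernel. -/
  toFun : LocCosets I v → LocCosets I v → ℂ
  smul' : ∀ (g : GL (Fin 2) (v.adicCompletion F)) a b, toFun (g • a) (g • b) = toFun a b
  finite' : ∀ a, {b | toFun a b ≠ 0}.Finite

namespace LocKer

variable {v : FinPlace F}

/-- The cosets paired with `a`. -/
def row (k : LocKer I v) (a : LocCosets I v) : Finset (LocCosets I v) := (k.finite' a).toFinset

/-- The row of `a` is the support of the kernel at `a`. -/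
theorem mem_row {k : LocKer I v} {a b : LocCosets I v} : b ∈ k.row a ↔ k.toFun a b ≠ 0 := by
  simp [row]

open Classical in
/-- The identity kernel. -/
instance instOne : One (LocKer I v) :=
  ⟨{toFun := fun a b => if a = b then 1 else 0
    smul' := fun g _a _b => if_congr (MulAction.injective g).eq_iff rfl rfl
    finite' := fun a => (Set.finite_singleton a).subset fun _b hb =>
      by_contra fun h => hb (if_neg (Ne.symm h)) }⟩

/-- The identity kernel is one on the diagonal. -/
theorem one_same (a : LocCosets I v) : (1 : LocKer I v).toFun a a = 1 := by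
  classical exact if_pos rfl

/-- The identity kernel vanishes off the diagonal. -/
theorem one_ne {a b : LocCosets I v} (h : a ≠ b) : (1 : LocKer I v).toFun a b = 0 := by
  classical exact if_neg h

/-- The identity kernel is supported on the diagonal. -/
theorem eq_of_one_ne_zero {a b : LocCosets I v} (h : (1 : LocKer I v).toFun a b ≠ 0) : a = b :=
  by_contra fun e => h (one_ne e)

/-- The composition of two kernels. -/
instance instMul : Mul (LocKer I v) :=
  ⟨fun k l =>
  { toFun := fun a c => ∑ b ∈ k.row a, k.toFun a b * l.toFun b c
    smul' := fun g a c => by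
      classical
      have e : k.row (g • a) = (k.row a).image (g • ·) := by
        ext b
        rw [mem_row, Finset.mem_image]
        constructor
        · intro h
          refine ⟨g⁻¹ • b, mem_row.mpr ?_, smul_inv_smul g b⟩
          rwa [← k.smul' g, smul_inv_smul]
        · rintro ⟨b, hb, rfl⟩
          rwa [k.smul', ← mem_row]
      rw [e, Finset.sum_image fun x _ y _ h => MulAction.injective g h]
      simp only [k.smul', l.smul']
    finite' := fun a => by
      refine ((k.row a).finite_toSet.biUnion fun b _ => l.finite' b).subset fun c hc => ?_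
      obtain ⟨b, hb, hne⟩ := Finset.exists_ne_zero_of_sum_ne_zero hc
      exact Set.mem_biUnion hb (right_ne_zero_of_mul hne) }⟩

/-- The product of kernels is their convolution. -/
theorem mul_toFun (k l : LocKer I v) (a c : LocCosets I v) :
    (k * l).toFun a c = ∑ b ∈ k.row a, k.toFun a b * l.toFun b c := rfl

/-- The absolute value of a kernel. -/
def abs (k : LocKer I v) : LocKer I v where
  toFun a b := (‖k.toFun a b‖ : ℂ)
  smul' g a b := by rw [k.smul']
  finite' a := (k.finite' a).subset fun b hb h => hb (by simp [h])

/-- The identity kernel is its own absolute value. -/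
theorem abs_one : (1 : LocKer I v).abs = 1 := by
  ext a b
  by_cases h : a = b
  · subst h; simp [abs, one_same]
  · simp [abs, one_ne h]

end LocKer

/-! ### Families -/

variable (I) in
/-- Local kernels at all places, almost all trivial. -/
@[ext]
structure KerFam where
  /-- The local kernels. -/
  ker : ∀ v : FinPlace F, LocKer I v
  finite' : {v | ker v ≠ 1}.Finite

namespace KerFam

/-- The family of identity kernels. -/
instance instOne : One (KerFam I) := ⟨⟨fun _ => 1, by simp⟩⟩

/-- The components of the identity family. -/
@[simp] theorem one_ker (v : FinPlace F) : (1 : KerFam I).ker v = 1 := rfl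

/-- The identity kernel is idempotent. -/
theorem one_mul_one {v : FinPlace F} : (1 : LocKer I v) * 1 = 1 := by
  classical
  ext a c
  have e : (1 : LocKer I v).row a = {a} := by
    ext b
    rw [LocKer.mem_row, Finset.mem_singleton]
    exact ⟨fun h => (LocKer.eq_of_one_ne_zero h).symm, by rintro rfl; simp [LocKer.one_same]⟩
  rw [LocKer.mul_toFun, e, Finset.sum_singleton, LocKer.one_same, one_mul]

/-- The pointwise product. -/
instance instMul : Mul (KerFam I) :=
  ⟨fun k l => ⟨fun v => k.ker v * l.ker v, (k.finite'.union l.finite').subset fun v hv => by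
    by_contra h
    simp only [Set.mem_union, not_or] at h
    refine hv ?_
    rw [not_not.mp h.1, not_not.mp h.2, one_mul_one]⟩⟩

/-- Families multiply place by place. -/
@[simp] theorem mul_ker (k l : KerFam I) (v : FinPlace F) :
    (k * l).ker v = k.ker v * l.ker v := rfl

/-- The absolute values. -/
def abs (k : KerFam I) : KerFam I :=
  ⟨fun v => (k.ker v).abs, k.finite'.subset fun v hv h => hv (by rw [h, LocKer.abs_one])⟩

/-- Absolute values are taken place by place. -/
@[simp] theorem abs_ker (k : KerFam I) (v : FinPlace F) : k.abs.ker v = (k.ker v).abs := rfl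

variable {hI : ∃ N : ℕ, 0 < N ∧ (N : 𝓞 F) ∈ I}

/-- The cosets of the level of `I`. -/
abbrev Cst (hI : ∃ N : ℕ, 0 < N ∧ (N : 𝓞 F) ∈ I) : Type _ :=
  GLFin F ⧸ (Level.ofIdeal F I hI).toSubgroup

/-- Almost all factors of the product kernel are one. -/
theorem finite_ne_one (k : KerFam I) (c c' : Cst hI) :
    (Function.mulSupport fun v => (k.ker v).toFun (comp v c) (comp v c')).Finite := by
  refine ((k.finite'.union (finite_comp_ne_one c)).union (finite_comp_ne_one c')).subset
    fun v hv => ?_
  by_contra h
  simp only [Set.mem_union, Set.mem_ofPred_eq, not_or, not_not] at h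
  refine hv ?_
  show (k.ker v).toFun (comp v c) (comp v c') = 1
  rw [h.1.1, h.1.2, h.2, LocKer.one_same]

variable (hI) in
/-- The product of the local kernels. -/
def prod (k : KerFam I) (c c' : Cst hI) : ℂ := ∏ᶠ v, (k.ker v).toFun (comp v c) (comp v c')

/-- The product kernel as a finite product. -/
theorem prod_eq_finset (k : KerFam I) (c c' : Cst hI) {s : Finset (FinPlace F)}
    (hs : ∀ v ∉ s, (k.ker v).toFun (comp v c) (comp v c') = 1) :
    k.prod hI c c' = ∏ v ∈ s, (k.ker v).toFun (comp v c) (comp v c') :=
  finprod_eq_prod_of_mulSupport_subset _ fun v hv => by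
    by_contra h
    exact hv (hs v (Finset.mem_coe.not.mp h))

/-- The product kernel vanishes only if a local kernel does. -/
theorem prod_ne_zero_iff (k : KerFam I) (c c' : Cst hI) :
    k.prod hI c c' ≠ 0 ↔ ∀ v, (k.ker v).toFun (comp v c) (comp v c') ≠ 0 := by
  classical
  constructor
  · intro h v hv
    refine h ?_
    rw [prod_eq_finset k c c' (s := insert v (k.finite_ne_one c c').toFinset) fun u hu => by
      simp only [Finset.mem_insert, Set.Finite.mem_toFinset, Function.mem_mulSupport, not_or,
        not_not] at hu
      exact hu.2]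
    exact Finset.prod_eq_zero (Finset.mem_insert_self _ _) hv
  · intro h
    rw [prod_eq_finset k c c' (s := (k.finite_ne_one c c').toFinset) fun u hu => by
      simpa using hu]
    exact Finset.prod_ne_zero_iff.mpr fun v _ => h v

theorem prod_smul (k : KerFam I) (g : GLFin F) (c c' : Cst hI) :
    k.prod hI (g • c) (g • c') = k.prod hI c c' :=
  finprod_congr fun v => by rw [comp_smul, comp_smul, LocKer.smul']

/-- A row is determined by the components at finitely many places. -/
theorem finite_prod_row (k : KerFam I) (c : Cst hI) : {c' | k.prod hI c c' ≠ 0}.Finite := by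
  have : Finite {v // k.ker v ≠ 1} := k.finite'.to_subtype
  refine Set.Finite.of_finite_image (f := fun c' (v : {v // k.ker v ≠ 1}) => comp v.1 c')
    ((Set.Finite.pi (t := fun v : {v // k.ker v ≠ 1} => {b | (k.ker v.1).toFun (comp v.1 c) b ≠ 0})
      fun v => (k.ker v.1).finite' _).subset ?_) fun c₁ h₁ c₂ h₂ he => coset_ext fun v => ?_
  · rintro _ ⟨c', hc', rfl⟩ v -
    exact (prod_ne_zero_iff k c c').mp hc' v.1
  · by_cases hv : k.ker v = 1
    · have e₁ := (prod_ne_zero_iff k c c₁).mp h₁ v
      have e₂ := (prod_ne_zero_iff k c c₂).mp h₂ v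
      rw [hv] at e₁ e₂
      rw [← LocKer.eq_of_one_ne_zero e₁, ← LocKer.eq_of_one_ne_zero e₂]
    · exact congrFun he ⟨v, hv⟩

variable (hI) in
/-- The Hecke function of a family. -/
def hecke (k : KerFam I) : HeckeFn (Level.ofIdeal F I hI) where
  toFun g := k.prod hI (QuotientGroup.mk 1) (QuotientGroup.mk g)
  left_inv' u g hu := by
    have h1 : u • (QuotientGroup.mk 1 : Cst hI) = QuotientGroup.mk 1 := by
      rw [MulAction.Quotient.smul_mk, smul_eq_mul, mul_one]
      exact QuotientGroup.eq.mpr (by simpa using hu)
    show k.prod hI (QuotientGroup.mk 1) (QuotientGroup.mk (u * g)) = _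
    conv_lhs => rw [← h1]
    rw [← smul_eq_mul, ← MulAction.Quotient.smul_mk, prod_smul]
  right_inv' g u hu := by
    have : (QuotientGroup.mk (g * u) : Cst hI) = QuotientGroup.mk g :=
      QuotientGroup.eq.mpr (by simpa using hu)
    simp only [this]
  finite_support := (k.finite_prod_row (QuotientGroup.mk 1)).subset (by
    rintro _ ⟨g, hg, rfl⟩
    exact hg)

/-- The kernel of the Hecke function of a family is the product kernel. -/
theorem hecke_kernel (k : KerFam I) (c c' : Cst hI) : (k.hecke hI).kernel c c' = k.prod hI c c' := by
  induction c using QuotientGroup.induction_on with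
  | _ a =>
    induction c' using QuotientGroup.induction_on with
    | _ b =>
      rw [HeckeFn.kernel_mk]
      show k.prod hI (QuotientGroup.mk 1) (QuotientGroup.mk (a⁻¹ * b)) = _
      rw [← prod_smul k a, MulAction.Quotient.smul_mk, MulAction.Quotient.smul_mk, smul_eq_mul,
        smul_eq_mul, mul_one, mul_inv_cancel_left]

/-- The identity family gives the unit Hecke function. -/
theorem hecke_one : (1 : KerFam I).hecke hI = 1 := by
  refine HeckeFn.ext_kernel fun a b => ?_
  rw [hecke_kernel, HeckeFn.kernel_one]
  split_ifs with h
  · subst h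
    exact finprod_eq_one_of_forall_eq_one fun v => by simp [LocKer.one_same]
  · by_contra hne
    exact h (coset_ext fun v => LocKer.eq_of_one_ne_zero ((prod_ne_zero_iff 1 a b).mp hne v))

/-- **Products are computed place by place.** -/
theorem hecke_mul (k l : KerFam I) : (k * l).hecke hI = k.hecke hI * l.hecke hI := by
  classical
  refine HeckeFn.ext_kernel fun a c => ?_
  rw [HeckeFn.kernel_mul, HeckeFn.act_eq_sum, hecke_kernel]
  simp only [hecke_kernel]
  set s : Finset (FinPlace F) := (k.finite'.union (l.finite'.union
    ((finite_comp_ne_one a).union (finite_comp_ne_one c)))).toFinset with hsdef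
  have hout : ∀ v ∉ s, k.ker v = 1 ∧ l.ker v = 1 ∧ comp v a = comp v c := fun v hv => by
    simp only [hsdef, Set.Finite.mem_toFinset, Set.mem_union, Set.mem_ofPred_eq, not_or, not_not]
      at hv
    exact ⟨hv.1, hv.2.1, hv.2.2.1.trans hv.2.2.2.symm⟩
  rw [prod_eq_finset (k * l) a c (s := s) fun v hv => by
    obtain ⟨hk, hl, he⟩ := hout v hv
    rw [mul_ker, hk, hl, he, one_mul_one, LocKer.one_same]]
  simp only [mul_ker, LocKer.mul_toFun, Finset.prod_sum]
  choose cst hcst using fun p : ∀ v ∈ s, LocCosets I v =>
    exists_comp (hI := hI) (fun v => if h : v ∈ s then p v h else comp v a)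
      ((s.finite_toSet.union (finite_comp_ne_one a)).subset fun v hv => by
        by_contra h
        simp only [Set.mem_union, Finset.mem_coe, Set.mem_ofPred_eq, not_or, not_not] at h
        exact hv (by rw [dif_neg h.1, h.2]))
  symm
  refine Finset.sum_bij' (fun b _ v _ => comp v b) (fun p _ => cst p) ?_ ?_ ?_ ?_ ?_
  · intro b hb
    rw [HeckeFn.mem_row, hecke_kernel, prod_ne_zero_iff] at hb
    exact Finset.mem_pi.mpr fun v _ => LocKer.mem_row.mpr (hb v)
  · intro p hp
    rw [HeckeFn.mem_row, hecke_kernel, prod_ne_zero_iff]
    intro v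
    rw [hcst]
    by_cases hv : v ∈ s
    · rw [dif_pos hv]
      exact LocKer.mem_row.mp (Finset.mem_pi.mp hp v hv)
    · rw [dif_neg hv, (hout v hv).1, LocKer.one_same]
      exact one_ne_zero
  · intro b hb
    refine coset_ext fun v => ?_
    rw [hcst]
    by_cases hv : v ∈ s
    · rw [dif_pos hv]
    · rw [dif_neg hv]
      rw [HeckeFn.mem_row, hecke_kernel, prod_ne_zero_iff] at hb
      have h := hb v
      rw [(hout v hv).1] at h
      exact LocKer.eq_of_one_ne_zero h
  · intro p _
    funext v hv
    rw [hcst, dif_pos hv]
  · intro b hb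
    rw [HeckeFn.mem_row, hecke_kernel, prod_ne_zero_iff] at hb
    have hb' : ∀ v ∉ s, comp v a = comp v b := fun v hv => by
      have h := hb v
      rw [(hout v hv).1] at h
      exact LocKer.eq_of_one_ne_zero h
    rw [prod_eq_finset k a b (s := s) fun v hv => by
        rw [(hout v hv).1, hb' v hv, LocKer.one_same],
      prod_eq_finset l b c (s := s) fun v hv => by
        rw [(hout v hv).2.1, ← hb' v hv, (hout v hv).2.2, LocKer.one_same],
      ← Finset.prod_mul_distrib]
    exact (Finset.prod_attach s
      fun v => (k.ker v).toFun (comp v a) (comp v b) * (l.ker v).toFun (comp v b) (comp v c)).symm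

/-- The Hecke function of the absolute family has the absolute value as kernel. -/
theorem hecke_abs_kernel (k : KerFam I) (c c' : Cst hI) :
    (k.abs.hecke hI).kernel c c' = (‖(k.hecke hI).kernel c c'‖ : ℂ) := by
  rw [hecke_kernel, hecke_kernel,
    prod_eq_finset k.abs c c' (s := (k.finite_ne_one c c').toFinset) fun v hv => by
      have h : (k.ker v).toFun (comp v c) (comp v c') = 1 := by simpa using hv
      simp [LocKer.abs, h],
    prod_eq_finset k c c' (s := (k.finite_ne_one c c').toFinset) fun v hv => by simpa using hv,
    norm_prod, Complex.ofReal_prod]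
  rfl

end KerFam

end Fermat.Agent.LT.PlaceMatching

end
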