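import Fermat.Agent.LT.PlaceMatching.Local

/-!
# The places over a place, chosen base points

A section of the places of `L` over those of `K` gives the three places `pl v i` over every `v`;
at a moved place the local components of a rational matrix multiply to those of its norm.
-/

set_option autoImplicit false

noncomputable section

open IsDedekindDomain NumberField Matrix

namespace Fermat.Agent.LT.PlaceMatching

open Places Matching CubicDescent
open Fermat.Agent.LT.Geometric (IsCubic)

universe u u'

variable {K : Type u} {L : Type u'} [Field K] [NumberField K] [Field L] [NumberField L]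

/-- A choice of a place of `L` over every place of `K`. -/
structure PlaceSection (ι : K →+* L) where
  /-- The chosen place. -/
  sec : FinPlace K → FinPlace L
  over : ∀ v, comapPlace ι (sec v) = v

omit [NumberField L] in
/-- Every place of `K` lies below a place of `L`. -/
theorem exists_placeAbove (ι : K →+* L) (v : FinPlace K) : ∃ w, comapPlace ι w = v := by
  let := ι.toAlgebra
  obtain ⟨Q, -, hQ, hc⟩ := Ideal.exists_ideal_over_prime_of_isIntegral (S := 𝓞 L) v.asIdeal ⊥
    (by simp)
  have hbot : Q ≠ ⊥ := by
    rintro rfl
    refine v.ne_bot ?_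
    rw [← hc]
    exact Ideal.comap_bot_of_injective _
      (FaithfulSMul.algebraMap_injective (𝓞 K) (𝓞 L))
  refine ⟨⟨Q, hQ, hbot⟩, HeightOneSpectrum.ext ?_⟩
  refine Eq.trans ?_ hc
  ext o
  rw [mem_comapPlace, Ideal.mem_comap]
  exact Iff.of_eq (congrArg (· ∈ Q) (RingOfIntegers.ext rfl))

/-- Some section. -/
def someSection (ι : K →+* L) : PlaceSection ι where
  sec v := (exists_placeAbove ι v).choose
  over v := (exists_placeAbove ι v).choose_spec

/-- The rational matrix at a place above. -/
theorem glPlace_glIncl_baseUnit {ι : K →+* L} {v : FinPlace K} {w : FinPlace L}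
    (h : comapPlace ι w = v) (m : GL (Fin 2) K) :
    glPlace w (glIncl L (baseUnit ι m)) = baseUnit (placeMap ι h) (glPlace v (glIncl K m)) :=
  Units.ext (Matrix.ext fun i j => by
    show toPlace w (finIncl L (ι (m.val i j))) = placeMap ι h (toPlace v (finIncl K (m.val i j)))
    rw [toPlace_finIncl, toPlace_finIncl, placeMap_algebraMap])

/-- The components of a conjugate rational matrix. -/
theorem glPlace_glIncl_glMap {σ : L ≃+* L} {w w' : FinPlace L}
    (h : comapPlace (σ : L →+* L) w = w') (x : GL (Fin 2) L) :
    glPlace w (glIncl L (glMap σ x)) =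
      baseUnit (placeIso σ h).toRingHom (glPlace w' (glIncl L x)) := by
  rw [← glPlace_glFinMap h]
  rw [glFinMap_glIncl]
  rfl

namespace PlaceSection

variable {ι : K →+* L} (σ : L ≃+* L) (s : PlaceSection ι)

omit [NumberField L] in
/-- The section is injective. -/
theorem sec_injective : Function.Injective s.sec := fun a b h => by
  rw [← s.over a, h, s.over]

/-- The place over `v` is moved by `σ`. -/
def Moved (v : FinPlace K) : Prop := comapPlace (σ : L →+* L) (s.sec v) ≠ s.sec v

/-- The places over `v`. -/
def pl (v : FinPlace K) : Fin 3 → FinPlace L :=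
  ![s.sec v, comapPlace (σ : L →+* L) (s.sec v),
    comapPlace (σ : L →+* L) (comapPlace (σ : L →+* L) (s.sec v))]

/-- The first of the three places is the chosen one. -/
@[simp] theorem pl_zero (v : FinPlace K) : s.pl σ v 0 = s.sec v := rfl

variable {σ}

/-- At a fixed place the three places coincide. -/
theorem pl_of_fixed {v : FinPlace K} (h : ¬ s.Moved σ v) (i : Fin 3) : s.pl σ v i = s.sec v := by
  rw [Moved, not_not] at h
  fin_cases i <;> simp [pl, h]

variable (hc : IsCubic ι σ)
include hc

/-- `σ` permutes the three places cyclically. -/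
theorem pl_succ (v : FinPlace K) (i : Fin 3) :
    comapPlace (σ : L →+* L) (s.pl σ v i) = s.pl σ v (i + 1) := by
  fin_cases i
  · rfl
  · rfl
  · exact comapPlace_three hc.pow _

/-- The three places lie over `v`. -/
theorem pl_over (v : FinPlace K) (i : Fin 3) : comapPlace ι (s.pl σ v i) = v := by
  fin_cases i
  · exact s.over v
  · exact (comapPlace_base hc.fixed _).trans (s.over v)
  · exact ((comapPlace_base hc.fixed _).trans (comapPlace_base hc.fixed _)).trans (s.over v)

/-- Every place is one of the three over the place below it. -/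
theorem exists_pl_eq (w : FinPlace L) : ∃ i, s.pl σ (comapPlace ι w) i = w := by
  rcases eq_of_comapPlace_eq hc.fixed hc.pow (s.over (comapPlace ι w)) with h | h | h
  · exact ⟨0, h.symm⟩
  · exact ⟨1, h.symm⟩
  · exact ⟨2, h.symm⟩

/-- At a moved place the three places are distinct. -/
theorem pl_injective {v : FinPlace K} (h : s.Moved σ v) : Function.Injective (s.pl σ v) := by
  have hinj : Function.Injective (comapPlace (σ : L →+* L)) := (placeEquiv σ).injective
  have h2 : comapPlace (σ : L →+* L) (comapPlace (σ : L →+* L) (s.sec v)) ≠ s.sec v := fun e =>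
    h (by
      have := congrArg (comapPlace (σ : L →+* L)) e
      rw [comapPlace_three hc.pow] at this
      exact this.symm)
  intro i j hij
  fin_cases i <;> fin_cases j <;> simp [pl] at hij ⊢
  · exact h hij.symm
  · exact h2 hij.symm
  · exact h hij
  · exact h (hinj hij).symm
  · exact h2 hij
  · exact h (hinj hij)

/-- Each of the three places over a moved place is moved. -/
theorem moved_pl {v : FinPlace K} (h : s.Moved σ v) (i : Fin 3) :
    comapPlace (σ : L →+* L) (s.pl σ v i) ≠ s.pl σ v i := by
  rw [s.pl_succ hc]
  intro e
  have := pl_injective s hc h e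
  fin_cases i <;> simp_all

/-- The components over `K` of a rational matrix of `L` at the places over a moved place. -/
theorem exists_repK {v : FinPlace K} (h : s.Moved σ v) (x : GL (Fin 2) L) (i : Fin 3) :
    ∃ g : GL (Fin 2) (v.adicCompletion K),
      baseUnit (placeMap ι (s.pl_over hc v i)) g = glPlace (s.pl σ v i) (glIncl L x) := by
  let e := RingEquiv.ofBijective (placeMap ι (s.pl_over hc v i))
    (placeMap_bijective_of_moved hc (s.moved_pl hc h i) (s.pl_over hc v i))
  exact ⟨baseUnit e.symm.toRingHom _, Units.ext (Matrix.ext fun a b => e.apply_symm_apply _)⟩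

/-- The component over `K` at a place over a moved place (`1` at fixed places). -/
def repK (x : GL (Fin 2) L) (v : FinPlace K) (i : Fin 3) : GL (Fin 2) (v.adicCompletion K) :=
  haveI := Classical.propDecidable (s.Moved σ v)
  if h : s.Moved σ v then (s.exists_repK hc h x i).choose else 1

/-- `repK` gives the components of `x` at the places over a moved place. -/
theorem baseUnit_repK {v : FinPlace K} (h : s.Moved σ v) (x : GL (Fin 2) L) (i : Fin 3) :
    baseUnit (placeMap ι (s.pl_over hc v i)) (s.repK hc x v i) =
      glPlace (s.pl σ v i) (glIncl L x) := by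
  rw [repK, dif_pos h]
  exact (s.exists_repK hc h x i).choose_spec

/-- `repK` is integral at almost all places. -/
theorem finite_repK (x : GL (Fin 2) L) :
    {v | ∃ i, s.repK hc x v i ∉ intGroup v}.Finite := by
  refine ((finite_not_intGroup (glIncl L x)).image (comapPlace ι)).subset fun v hv => ?_
  obtain ⟨i, hi⟩ := hv
  refine ⟨s.pl σ v i, fun hint => hi ?_, s.pl_over hc v i⟩
  by_cases h : s.Moved σ v
  · refine mem_intGroup_of_map (s.pl_over hc v i) ?_
    rwa [s.baseUnit_repK hc h]
  · rw [repK, dif_neg h]
    exact one_mem _

/-- The three components multiply to that of the norm. -/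
theorem repK_prod {x : GL (Fin 2) L} {m : GL (Fin 2) K}
    (hN : twistedNorm (glMap σ) x 3 = baseUnit ι m) {v : FinPlace K} (h : s.Moved σ v) :
    s.repK hc x v 0 * (s.repK hc x v 1 * s.repK hc x v 2) = glPlace v (glIncl K m) := by
  refine baseUnit_injective (placeMap ι (s.pl_over hc v 0)) ?_
  have key : ∀ i, baseUnit (placeIso σ (s.pl_succ hc v i)).toRingHom
      (baseUnit (placeMap ι (s.pl_over hc v (i + 1))) (s.repK hc x v (i + 1))) =
      baseUnit (placeMap ι (s.pl_over hc v i)) (s.repK hc x v (i + 1)) := fun i =>
    Units.ext (Matrix.ext fun a b =>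
      placeIso_placeMap hc (s.pl_succ hc v i) (s.pl_over hc v i) (s.pl_over hc v (i + 1)) _)
  rw [← glPlace_glIncl_baseUnit, ← hN, map_mul, map_mul]
  simp only [twistedNorm, map_mul, map_one, mul_one]
  rw [s.baseUnit_repK hc h, glPlace_glIncl_glMap (s.pl_succ hc v 0),
    glPlace_glIncl_glMap (s.pl_succ hc v 0), glPlace_glIncl_glMap (s.pl_succ hc v (0 + 1)),
    ← s.baseUnit_repK hc h x (0 + 1), ← s.baseUnit_repK hc h x (0 + 1 + 1)]
  congr 2
  · exact (key 0).symm
  · rw [key (0 + 1)]
    refine Units.ext (Matrix.ext fun a b => ?_)
    exact (placeIso_placeMap hc (s.pl_succ hc v 0) (s.pl_over hc v 0) (s.pl_over hc v 1) _).symm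

end PlaceSection

end Fermat.Agent.LT.PlaceMatching

end
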