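import Fermat.Agent.LT.Geometric.NormalForm

/-!
# Normalised representatives as matrices

A normalised `δ` over `γ` has a representative with norm exactly rational. Either it is a scalar or
a scalar multiple of the norm, or everything commuting with `γ` in `PGL₂(K)` commutes with the
norm in `GL₂(K)`.
-/

set_option autoImplicit false

noncomputable section

open Matrix

namespace Fermat.Agent.LT.PlaceMatching

open CubicDescent Matching
open Fermat.Agent.LT.Geometric

/-- The commutant of a matrix conjugate to a companion matrix. -/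
theorem exists_eq_add_smul {R : Type*} [CommRing R] {M C X : Matrix (Fin 2) (Fin 2) R}
    (P : GL (Fin 2) R) {t d : R} (hC : C = !![0, -d; 1, t]) (hP : M * P.val = P.val * C)
    (hX : M * X = X * M) : ∃ p q : R, X = p • (1 : Matrix (Fin 2) (Fin 2) R) + q • M := by
  set Y := (P⁻¹).val * X * P.val with hY
  have hMC : C = (P⁻¹).val * M * P.val := by
    rw [mul_assoc, hP, Units.inv_mul_cancel_left]
  have hYC : C * Y = Y * C := by
    rw [hY, hMC]
    simp only [mul_assoc, Units.mul_inv_cancel_left]
    rw [← mul_assoc M, hX, mul_assoc]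
  have h1 := congrFun (congrFun hYC 0) 0
  have h2 := congrFun (congrFun hYC 1) 0
  simp [hC, Matrix.mul_apply, Fin.sum_univ_two] at h1 h2
  have hYe : Y = Y 0 0 • (1 : Matrix (Fin 2) (Fin 2) R) + Y 1 0 • C := by
    ext i j
    fin_cases i <;> fin_cases j <;> simp [hC]
    · exact h1.symm.trans (by ring)
    · linear_combination -h2
  refine ⟨Y 0 0, Y 1 0, ?_⟩
  have hXY : X = P.val * Y * (P⁻¹).val := by
    rw [hY]; simp [mul_assoc]
  rw [hXY]
  conv_lhs => rw [hYe]
  rw [mul_add, add_mul, mul_smul_comm, mul_smul_comm, smul_mul_assoc, smul_mul_assoc, mul_one,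
    Units.mul_inv, ← hP]
  simp

variable {K L : Type*} [Field K] [NumberField K] [Field L] [NumberField L] {ι : K →+* L}
  {σ : L ≃+* L}

omit [NumberField K] in
/-- Over a field, the commutant of a nonscalar matrix is spanned by `1` and itself. -/
theorem exists_eq_add_smul_field {M X : Matrix (Fin 2) (Fin 2) K} (hM : ∀ a : K, M ≠ a • 1)
    (hX : M * X = X * M) : ∃ p q : K, X = p • (1 : Matrix (Fin 2) (Fin 2) K) + q • M := by
  obtain ⟨P, hP, hPe⟩ := exists_conj_companionTwo M hM
  obtain ⟨P, rfl⟩ := (Matrix.isUnit_iff_isUnit_det P).mpr (isUnit_iff_ne_zero.mpr hP)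
  exact exists_eq_add_smul P rfl hPe hX

omit [NumberField K] [NumberField L] in
/-- A non-scalar matrix stays non-scalar over an extension field. -/
theorem map_ne_scalar {F : Type*} [Field F] (f : K →+* F) {M : Matrix (Fin 2) (Fin 2) K}
    (hM : ∀ a : K, M ≠ a • 1) : ∀ b : F, M.map f ≠ b • 1 := fun b hb => by
  have h01 := congrFun (congrFun hb 0) 1
  have h10 := congrFun (congrFun hb 1) 0
  have h00 := congrFun (congrFun hb 0) 0
  have h11 := congrFun (congrFun hb 1) 1
  simp at h01 h10 h00 h11
  refine hM (M 0 0) ?_
  ext i j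
  fin_cases i <;> fin_cases j <;> simp [h01, h10]
  exact f.injective (h11.trans h00.symm)

variable (h : IsCubic ι σ)
include h

omit [NumberField K] in
/-- A representative with exactly rational norm. -/
theorem exists_rep {δ : Twisted (pglAut σ)} {γ : PGLIndex K} (hn : δ.norm = pglBase ι γ) :
    ∃ (x : GL (Fin 2) L) (m : GL (Fin 2) K), twistedNorm (glMap σ) x 3 = baseUnit ι m ∧
      QuotientGroup.mk x = δ.val ∧ QuotientGroup.mk m = γ := by
  obtain ⟨x, hx⟩ := QuotientGroup.mk_surjective δ.val
  obtain ⟨m, rfl⟩ := QuotientGroup.mk_surjective γ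
  rw [show δ = Twisted.mk (pglAut σ) (QuotientGroup.mk x) from Twisted.ext hx.symm, norm_mk,
    pglBase_mk, eq_comm, pgl_mk_eq_iff] at hn
  obtain ⟨c, hc⟩ := hn
  have hfix := scalar_fixed_of_norm h.pow (glMap_baseUnit h.fixed m) hc
  obtain ⟨a, ha⟩ := (h.fixed _).mp hfix
  have ha0 : a ≠ 0 := by
    rintro rfl
    exact c.ne_zero (by rw [← ha, map_zero])
  refine ⟨x, scalarGlobal K (Units.mk0 a ha0) * m, ?_, hx, ?_⟩
  · rw [hc, map_mul]
    congr 1
    refine Units.ext (Matrix.ext fun i j => ?_)
    by_cases hij : i = j <;> simp [hij, scalarUnit, scalarGlobal, ← ha]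
  · rw [QuotientGroup.eq, _root_.mul_inv_rev]
    refine ⟨(Units.mk0 a ha0)⁻¹, ?_⟩
    have hcomm : Commute (scalarGlobal K (Units.mk0 a ha0)) m :=
      Units.ext (Matrix.scalar_commute (a : K) (fun r => mul_comm _ r) m.val).eq
    rw [map_inv, mul_assoc, hcomm.inv_left.eq, inv_mul_cancel_left]

omit h in
/-- A rational matrix commuting with `γ` up to scalars. -/
theorem exists_smul_of_commute {F : Type*} [Field F] [NumberField F] {z m : GL (Fin 2) F}
    (hz : Commute (QuotientGroup.mk z : PGLIndex F) (QuotientGroup.mk m)) :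
    ∃ c : F, m.val * z.val = c • (z.val * m.val) := by
  rw [Commute, SemiconjBy, ← QuotientGroup.mk_mul, ← QuotientGroup.mk_mul, pgl_mk_eq_iff] at hz
  obtain ⟨c, hc⟩ := hz
  refine ⟨c, ?_⟩
  rw [← Units.val_mul, ← Units.val_mul, hc, Units.val_mul]
  ext i j
  fin_cases i <;> fin_cases j <;> simp [scalarUnit, Matrix.mul_apply, Fin.sum_univ_two]

omit h in
/-- With trace, a nonscalar matrix commutes with what commutes with it up to scalars. -/
theorem mul_comm_of_trace_ne_zero {F : Type*} [Field F] [NumberField F] {z m : GL (Fin 2) F}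
    (ht : m.val.trace ≠ 0)
    (hz : Commute (QuotientGroup.mk z : PGLIndex F) (QuotientGroup.mk m)) :
    m.val * z.val = z.val * m.val := by
  obtain ⟨c, hc⟩ := exists_smul_of_commute hz
  have h1 := congrArg (fun A => ((z⁻¹).val * A).trace) hc
  simp only [mul_smul_comm, Units.inv_mul_cancel_left, Matrix.trace_smul, smul_eq_mul] at h1
  rw [← mul_assoc, Matrix.trace_units_conj'] at h1
  rw [hc, (mul_eq_right₀ ht).mp h1.symm, one_smul]

/-- The special representatives: a scalar, or a scalar times the norm. -/
def IsSpecial (_h : IsCubic ι σ) (x : GL (Fin 2) L) (m : GL (Fin 2) K) : Prop :=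
  ∃ a : L, x.val = a • 1 ∨ x.val = a • (baseUnit ι m).val

/-- **The two kinds of normalised representatives.** -/
theorem special_or_generic {δ : Twisted (pglAut σ)} {γ : PGLIndex K} (hn : IsNormalised ι δ γ)
    {x : GL (Fin 2) L} {m : GL (Fin 2) K} (hx : QuotientGroup.mk x = δ.val)
    (hm : QuotientGroup.mk m = γ) :
    IsSpecial h x m ∨ ((∀ a : K, m.val ≠ a • 1) ∧
      (baseUnit ι m).val * x.val = x.val * (baseUnit ι m).val ∧
      ∀ z : GL (Fin 2) K, Commute (QuotientGroup.mk z : PGLIndex K) (QuotientGroup.mk m) →
        m.val * z.val = z.val * m.val) := by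
  subst hm
  have hcomm : ∀ g : GL (Fin 2) L,
      Commute (QuotientGroup.mk g : PGLIndex L) (QuotientGroup.mk (baseUnit ι m)) →
      Commute (QuotientGroup.mk g : PGLIndex L) (QuotientGroup.mk x) := fun g hg => by
    rw [hx]; exact hn.commute _ hg
  have hself : Commute (QuotientGroup.mk (baseUnit ι m) : PGLIndex L) (QuotientGroup.mk x) :=
    hcomm _ (Commute.refl _)
  set M := (baseUnit ι m).val with hM
  have hMmap : M = m.val.map ι := rfl
  by_cases hs : ∃ a : K, m.val = a • 1
  · -- `γ = 1`: `δ` is central
    obtain ⟨a, ha⟩ := hs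
    left
    have hall : ∀ g : GL (Fin 2) L, g.val.trace ≠ 0 → g.val * x.val = x.val * g.val := by
      intro g hg
      refine mul_comm_of_trace_ne_zero hg (hcomm g ?_).symm
      show _ = _
      rw [← QuotientGroup.mk_mul, ← QuotientGroup.mk_mul]
      refine congrArg _ (Units.ext ?_)
      rw [Units.val_mul, Units.val_mul, ← hM, hMmap, ha,
        show (a • (1 : Matrix (Fin 2) (Fin 2) K)).map ι = ι a • (1 : Matrix (Fin 2) (Fin 2) L) by
          ext i j; fin_cases i <;> fin_cases j <;> simp,
        mul_smul_comm, smul_mul_assoc, mul_one, one_mul]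
    obtain ⟨u, hu⟩ : ∃ u : GL (Fin 2) L, u.val = !![1, 1; 0, 1] :=
      ⟨Matrix.GeneralLinearGroup.mkOfDetNeZero !![1, 1; 0, 1] (by simp), rfl⟩
    obtain ⟨l, hl⟩ : ∃ l : GL (Fin 2) L, l.val = !![1, 0; 1, 1] :=
      ⟨Matrix.GeneralLinearGroup.mkOfDetNeZero !![1, 0; 1, 1] (by simp), rfl⟩
    have e1 := hall u (by rw [hu]; simp [Matrix.trace_fin_two])
    have e2 := hall l (by rw [hl]; simp [Matrix.trace_fin_two])
    rw [hu] at e1
    rw [hl] at e2
    have a1 := congrFun (congrFun e1 0) 0
    have a2 := congrFun (congrFun e1 0) 1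
    have b1 := congrFun (congrFun e2 0) 0
    simp [Matrix.mul_apply, Fin.sum_univ_two] at a1 a2 b1
    refine ⟨x.val 0 0, Or.inl ?_⟩
    ext i j
    fin_cases i <;> fin_cases j <;> simp [a1, b1]
    linear_combination a2
  · simp only [not_exists] at hs
    by_cases ht : m.val.trace = 0
    · -- trace zero: `δ` is `1` or `γ`
      left
      have htM : M.trace = 0 := by
        have := congrArg ι ht
        simpa [hMmap, Matrix.trace_fin_two] using this
      obtain ⟨P, hP, hPe⟩ := exists_conj_companionTwo m.val hs
      obtain ⟨P, rfl⟩ := (Matrix.isUnit_iff_isUnit_det P).mpr (isUnit_iff_ne_zero.mpr hP)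
      -- an element `p + m` with trace
      obtain ⟨p, hp0, hpd⟩ : ∃ p : L, p ≠ 0 ∧ (p • (1 : Matrix (Fin 2) (Fin 2) L) + M).det ≠ 0 := by
        have hdet : ∀ p : L, (p • (1 : Matrix (Fin 2) (Fin 2) L) + M).det = p ^ 2 + M.det := by
          intro p
          rw [Matrix.trace_fin_two] at htM
          simp [Matrix.det_fin_two]
          linear_combination p * htM
        by_cases h1 : (1 : L) + M.det = 0
        · refine ⟨2, two_ne_zero, fun h2 => ?_⟩
          rw [hdet] at h2
          have : (3 : L) = 0 := by linear_combination h2 - h1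
          norm_num at this
        · exact ⟨1, one_ne_zero, by rw [hdet, one_pow]; exact h1⟩
      set g : GL (Fin 2) L := Matrix.GeneralLinearGroup.mkOfDetNeZero _ hpd with hg
      have hgval : g.val = p • (1 : Matrix (Fin 2) (Fin 2) L) + M := rfl
      have hgx : g.val * x.val = x.val * g.val := by
        refine mul_comm_of_trace_ne_zero ?_ (hcomm g ?_).symm
        · rw [hgval, Matrix.trace_add, Matrix.trace_smul, htM, add_zero]
          simp [hp0]
        · show _ = _
          rw [← QuotientGroup.mk_mul, ← QuotientGroup.mk_mul]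
          refine congrArg _ (Units.ext ?_)
          rw [Units.val_mul, Units.val_mul, hgval, ← hM, add_mul, mul_add, smul_mul_assoc,
            mul_smul_comm, one_mul, mul_one]
      have hxM : M * x.val = x.val * M := by
        rw [hgval, add_mul, mul_add, smul_mul_assoc, mul_smul_comm, one_mul, mul_one] at hgx
        exact add_left_cancel hgx
      obtain ⟨a, b, hab⟩ := exists_eq_add_smul_field (M := M) (map_ne_scalar ι hs) hxM
      -- a rational element anticommuting with `m`
      set z0 : GL (Fin 2) K := Matrix.GeneralLinearGroup.mkOfDetNeZero !![1, 0; 0, -1] (by simp)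
        with hz0
      set z := P * z0 * P⁻¹ with hz
      have hanti : m.val * z.val = -(z.val * m.val) := by
        have hc : companionTwo m.val.trace m.val.det * z0.val =
            -(z0.val * companionTwo m.val.trace m.val.det) := by
          ext i j
          fin_cases i <;> fin_cases j <;>
            simp [hz0, companionTwo, Matrix.mul_apply, Fin.sum_univ_two, ht]
        have hm' : m.val = P.val * companionTwo m.val.trace m.val.det * (P⁻¹).val := by
          rw [← hPe, Units.mul_inv_cancel_right]
        rw [hz, Units.val_mul, Units.val_mul]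
        conv_lhs => rw [hm']
        conv_rhs => rw [hm']
        simp only [mul_assoc, Units.inv_mul_cancel_left]
        rw [← mul_assoc (companionTwo _ _), hc]
        simp [mul_assoc]
      have hantiL : M * (baseUnit ι z).val = -((baseUnit ι z).val * M) := by
        have := congrArg (fun A : Matrix (Fin 2) (Fin 2) K => ι.mapMatrix A) hanti
        simp only [map_mul, map_neg] at this
        exact this
      obtain ⟨c, hc⟩ := exists_smul_of_commute (hcomm (baseUnit ι z) (by
        show _ = _
        rw [← QuotientGroup.mk_mul, ← QuotientGroup.mk_mul, eq_comm, pgl_mk_eq_iff]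
        refine ⟨-1, Units.ext ?_⟩
        rw [Units.val_mul, Units.val_mul, Units.val_mul, ← hM, hantiL]
        ext i j
        fin_cases i <;> fin_cases j <;> simp [scalarUnit, Matrix.mul_apply, Fin.sum_univ_two]))
      rw [hab] at hc
      have hzu := (baseUnit ι z).isUnit
      -- `a + b M = c (a - b M)` on cancelling `z`
      have e : a • (1 : Matrix (Fin 2) (Fin 2) L) + b • M = (c * a) • 1 - (c * b) • M := by
        refine hzu.mul_right_cancel ?_
        rw [hc, mul_add, mul_smul_comm, mul_smul_comm, mul_one, sub_mul, smul_mul_assoc,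
          smul_mul_assoc, one_mul, hantiL, smul_add, smul_smul, smul_smul, smul_neg,
          sub_neg_eq_add]
      have hns := map_ne_scalar ι hs
      have hb' : b + c * b = 0 ∧ a = c * a := by
        have e' : (b + c * b) • M = (c * a - a) • (1 : Matrix (Fin 2) (Fin 2) L) := by
          rw [add_smul, sub_smul]
          linear_combination (norm := module) e
        have hb0 : b + c * b = 0 := by
          by_contra hne
          refine hns ((b + c * b)⁻¹ * (c * a - a)) ?_
          rw [← hMmap, mul_smul, ← e', smul_smul, inv_mul_cancel₀ hne, one_smul]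
        refine ⟨hb0, ?_⟩
        rw [hb0, zero_smul] at e'
        have h00 := congrFun (congrFun e' 0) 0
        simp at h00
        linear_combination h00
      by_cases ha : a = 0
      · exact ⟨b, Or.inr (by rw [hab, ha, zero_smul, zero_add])⟩
      · have hc1 : c = 1 := (mul_eq_right₀ ha).mp hb'.2.symm
        have hb : b = 0 := by
          rw [hc1, one_mul] at hb'
          linear_combination (1 / 2 : L) * hb'.1
        exact ⟨a, Or.inl (by rw [hab, hb, zero_smul, add_zero])⟩
    · right
      refine ⟨hs, ?_, fun z hz => mul_comm_of_trace_ne_zero ht hz⟩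
      refine mul_comm_of_trace_ne_zero (z := x) (m := baseUnit ι m) (fun h0 => ht ?_) hself.symm
      refine ι.injective ?_
      rw [map_zero, ← h0]
      simp [Matrix.trace_fin_two]

end Fermat.Agent.LT.PlaceMatching

end
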