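import Fermat.Agent.LT.PlaceMatching.Frame
import Fermat.Agent.LT.PlaceMatching.Commutant

/-!
# The translations at all places

For a normalised representative there is at every place `v` an element `y v` commuting with the
centraliser of `γ`, trivial almost everywhere and at moved places, identifying at fixed places the
twisted fixed cosets of `x` with the fixed cosets of `m`.
-/

set_option autoImplicit false

noncomputable section

open IsDedekindDomain NumberField Matrix

namespace Fermat.Agent.LT.PlaceMatching

open Places Matching CubicDescent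
open Fermat.Agent.LT.Geometric (IsCubic IsNormalised pglBase)

universe u u'

variable {K : Type u} {L : Type u'} [Field K] [NumberField K] [Field L] [NumberField L]
  {ι : K →+* L} {σ : L ≃+* L} {I : Ideal (𝓞 L)} {J : Ideal (𝓞 K)}

/-- The translations at all places. -/
structure Transfer (hm : LevelsMatch ι σ I J) (hc : IsCubic ι σ) (s : PlaceSection ι)
    (x : GL (Fin 2) L) (m : GL (Fin 2) K) where
  /-- The translation at `v`, at the chosen place above. -/
  y : ∀ v, GL (Fin 2) ((s.sec v).adicCompletion L)
  y_moved : ∀ v, s.Moved σ v → y v = 1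
  finite' : {v | y v ≠ 1}.Finite
  isTransfer : ∀ (v : FinPlace K) (hw : comapPlace (σ : L →+* L) (s.sec v) = s.sec v),
    IsTransfer hm hc hw (s.over v) (glPlace (s.sec v) (glIncl L x)) (glPlace v (glIncl K m)) (y v)
  commute : ∀ (v : FinPlace K) (z : GL (Fin 2) K),
    Commute (QuotientGroup.mk z : PGLIndex K) (QuotientGroup.mk m) →
      Commute (y v) (baseUnit (placeMap ι (s.over v)) (glPlace v (glIncl K z)))

variable {x : GL (Fin 2) L} {m : GL (Fin 2) K}

theorem glPlace_twistedNorm {w : FinPlace L} (hw : comapPlace (σ : L →+* L) w = w)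
    (x : GL (Fin 2) L) :
    twistedNorm (glMap (placeIso σ hw)) (glPlace w (glIncl L x)) 3 =
      glPlace w (glIncl L (twistedNorm (glMap σ) x 3)) := by
  simp only [twistedNorm, map_mul, map_one, mul_one, glPlace_glIncl_glMap hw]
  rfl

theorem valued_glIncl_det {w : FinPlace L} (x : GL (Fin 2) L) :
    (glPlace w (glIncl L x)).val.det = algebraMap L (w.adicCompletion L) x.val.det := by
  rw [show (glPlace w (glIncl L x)).val = x.val.map (algebraMap L (w.adicCompletion L)) from
    Matrix.ext fun i j => toPlace_finIncl w (x.val i j)]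
  exact (RingHom.map_det _ _).symm

theorem finite_valued_ne_one {a : L} (ha : a ≠ 0) :
    {w : FinPlace L | Valued.v (algebraMap L (w.adicCompletion L) a) ≠ 1}.Finite := by
  refine (finite_placeVal_units (Units.map (finIncl L).toMonoidHom (Units.mk0 a ha))).subset
    fun w hw => ?_
  show placeVal w (finIncl L a) ≠ 1
  rwa [placeVal, toPlace_finIncl]

variable (hm : LevelsMatch ι σ I J) (hc : IsCubic ι σ) (s : PlaceSection ι)
  (hI : ∃ N : ℕ, 0 < N ∧ (N : 𝓞 L) ∈ I)
  (hN : twistedNorm (glMap σ) x 3 = baseUnit ι m)

include hm hc hI hN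

omit hI hm hc in
/-- At a fixed place the norm of `x` is `m`. -/
theorem local_norm_eq {v : FinPlace K} {w : FinPlace L} (hv : comapPlace ι w = v)
    (hw : comapPlace (σ : L →+* L) w = w) :
    twistedNorm (glMap (placeIso σ hw)) (glPlace w (glIncl L x)) 3 =
      scalarUnit 1 * baseUnit (placeMap ι hv) (glPlace v (glIncl K m)) := by
  rw [glPlace_twistedNorm, hN, map_one, one_mul, glPlace_glIncl_baseUnit hv]

/-- Special representatives need no translation. -/
def transferOfSpecial (h : IsSpecial hc x m) : Transfer hm hc s x m where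
  y _ := 1
  y_moved _ _ := rfl
  finite' := by simp
  isTransfer v hw := by
    refine isTransfer_one hm hc hw (s.over v) (c := 1) (local_norm_eq hN (s.over v) hw)
      fun z hz => ?_
    obtain ⟨a, ha | ha⟩ := h
    · have ha0 : a ≠ 0 := by
        rintro rfl
        exact x.ne_zero (by rw [ha, zero_smul])
      rw [show glPlace (s.sec v) (glIncl L x) = scalarUnit (Units.mk0
        (algebraMap L ((s.sec v).adicCompletion L) a) ((map_ne_zero _).mpr ha0)) from
          Units.ext (Matrix.ext fun i j => by
            show toPlace (s.sec v) (finIncl L (x.val i j)) = _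
            rw [toPlace_finIncl, ha]
            by_cases hij : i = j <;> simp [hij, scalarUnit]), Matching.scalarUnit_smul]
    · have ha0 : a ≠ 0 := by
        rintro rfl
        exact x.ne_zero (by rw [ha, zero_smul])
      rw [show glPlace (s.sec v) (glIncl L x) = scalarUnit (Units.mk0
        (algebraMap L ((s.sec v).adicCompletion L) a) ((map_ne_zero _).mpr ha0)) *
          baseUnit (placeMap ι (s.over v)) (glPlace v (glIncl K m)) from
          Units.ext (Matrix.ext fun i j => by
            rw [← glPlace_glIncl_baseUnit (s.over v)]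
            show toPlace (s.sec v) (finIncl L (x.val i j)) = _
            rw [toPlace_finIncl, ha, Units.val_mul]
            simp only [scalarUnit, Units.coe_map, RingHom.toMonoidHom_eq_coe, MonoidHom.coe_coe,
              Matrix.scalar_apply, Matrix.diagonal_mul, Matrix.smul_apply, smul_eq_mul, map_mul,
              Units.val_mk0]
            congr 1
            exact (toPlace_finIncl _ _).symm), mul_smul, Matching.scalarUnit_smul]
      exact hz
  commute _ _ _ := Commute.one_left _

omit hN in
/-- Almost everywhere a generic representative needs no translation. -/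
theorem finite_not_isTransfer_one {p q : L}
    (hpq : x.val = p • (1 : Matrix (Fin 2) (Fin 2) L) + q • (baseUnit ι m).val)
    (hN : twistedNorm (glMap σ) x 3 = baseUnit ι m) :
    {v : FinPlace K | ∃ hw : comapPlace (σ : L →+* L) (s.sec v) = s.sec v,
      ¬ IsTransfer hm hc hw (s.over v) (glPlace (s.sec v) (glIncl L x))
        (glPlace v (glIncl K m)) 1}.Finite := by
  refine ((((((finite_le I hI).union (finite_placeVal (finIncl L p))).union
    (finite_placeVal (finIncl L q))).union
    (finite_valued_ne_one (a := x.val.det)
      ((Matrix.isUnit_iff_isUnit_det _).mp x.isUnit).ne_zero)).union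
    (finite_valued_ne_one (a := (baseUnit ι m).val.det)
      ((Matrix.isUnit_iff_isUnit_det _).mp (baseUnit ι m).isUnit).ne_zero)).preimage
      s.sec_injective.injOn).subset fun v hv => ?_
  obtain ⟨hw, hnot⟩ := hv
  by_contra hout
  simp only [Set.mem_preimage, Set.mem_union, Set.mem_ofPred_eq, not_or, not_not, not_lt] at hout
  obtain ⟨⟨⟨⟨htop, hp⟩, hq⟩, hdx⟩, hdm⟩ := hout
  refine hnot (isTransfer_one hm hc hw (s.over v) (c := 1)
    (local_norm_eq hN (s.over v) hw) fun z hz => ?_)
  refine smul_eq_of_integral (s.over v) htop (p := toPlace (s.sec v) (finIncl L p))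
    (q := toPlace (s.sec v) (finIncl L q)) ?_ hp hq ?_ ?_ z hz
  · rw [← glPlace_glIncl_baseUnit (s.over v)]
    refine Matrix.ext fun i j => ?_
    show toPlace (s.sec v) (finIncl L (x.val i j)) = _
    rw [hpq, Matrix.add_apply, Matrix.smul_apply, Matrix.smul_apply, smul_eq_mul, smul_eq_mul,
      map_add, map_add, map_mul, map_mul, map_mul, map_mul, Matrix.add_apply, Matrix.smul_apply,
      Matrix.smul_apply, smul_eq_mul, smul_eq_mul]
    congr 2
    by_cases hij : i = j <;> simp [hij, Matrix.one_apply]
  · rw [valued_glIncl_det]; exact hdx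
  · rw [← glPlace_glIncl_baseUnit (s.over v), valued_glIncl_det]; exact hdm

/-- **The translations exist.** -/
theorem exists_transferData {δ : Geometric.Twisted (Geometric.pglAut σ)} {γ : PGLIndex K}
    (hn : IsNormalised ι δ γ) (hx : QuotientGroup.mk x = δ.val) (hγ : QuotientGroup.mk m = γ) :
    Nonempty (Transfer hm hc s x m) := by
  classical
  rcases special_or_generic hc hn hx hγ with h | ⟨hns, hxm, hcomm⟩
  · exact ⟨transferOfSpecial hm hc s hN h⟩
  obtain ⟨p, q, hpq⟩ := exists_eq_add_smul_field (map_ne_scalar ι hns) hxm
  have hex : ∀ v, ∀ hw : comapPlace (σ : L →+* L) (s.sec v) = s.sec v, ∃ y,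
      Commute y (baseUnit (placeMap ι (s.over v)) (glPlace v (glIncl K m))) ∧
      IsTransfer hm hc hw (s.over v) (glPlace (s.sec v) (glIncl L x)) (glPlace v (glIncl K m)) y :=
    fun v hw => exists_isTransfer hm hc hw (s.over v) (c := 1) (by rw [Units.val_one, map_one])
      (local_norm_eq hN (s.over v) hw)
  let y : ∀ v, GL (Fin 2) ((s.sec v).adicCompletion L) := fun v =>
    if hw : comapPlace (σ : L →+* L) (s.sec v) = s.sec v then
      if IsTransfer hm hc hw (s.over v) (glPlace (s.sec v) (glIncl L x))
        (glPlace v (glIncl K m)) 1 then 1 else (hex v hw).choose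
    else 1
  refine ⟨⟨y, fun v hv => dif_neg hv, ?_, fun v hw => ?_, fun v z hz => ?_⟩⟩
  · refine (finite_not_isTransfer_one hm hc s hI hpq hN).subset fun v hv => ?_
    by_cases hw : comapPlace (σ : L →+* L) (s.sec v) = s.sec v
    · exact ⟨hw, fun h1 => hv (by simp only [y, dif_pos hw, if_pos h1])⟩
    · exact absurd (dif_neg hw) hv
  · simp only [y, dif_pos hw]
    split_ifs with h1
    · exact h1
    · exact (hex v hw).choose_spec.2
  · simp only [y]
    split_ifs with hw h1
    · exact Commute.one_left _
    · set M := baseUnit (placeMap ι (s.over v)) (glPlace v (glIncl K m)) with hM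
      set Z := baseUnit (placeMap ι (s.over v)) (glPlace v (glIncl K z)) with hZ
      have hZM : M * Z = Z * M := by
        rw [hM, hZ, ← map_mul, ← map_mul, ← map_mul, ← map_mul,
          show m * z = z * m from Units.ext (hcomm z hz), map_mul (glIncl K), map_mul (glPlace v)]
      refine Units.ext (Geometric.commute_of_commute_nonscalar (A := M.val) ?_
        (congrArg Units.val (hex v hw).choose_spec.1.eq.symm) (congrArg Units.val hZM))
      rintro ⟨a, ha⟩
      refine map_ne_scalar ((algebraMap L ((s.sec v).adicCompletion L)).comp ι) hns a ?_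
      rw [← ha, hM, ← glPlace_glIncl_baseUnit (s.over v)]
      exact Matrix.ext fun i j => (toPlace_finIncl _ _).symm
    · exact Commute.one_left _

end Fermat.Agent.LT.PlaceMatching

end
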