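import Fermat.Agent.LT.PlaceMatching.CubicNorm
import Fermat.Agent.LT.PlaceMatching.Transfer
import Fermat.Agent.LT.PlaceMatching.Fibre

/-!
# Classes which are no norms

If the product kernel over `K` does not vanish at `(d, γ d)` then `γ` is a norm everywhere locally,
hence the norm of an adelic element of its commutant, hence, by the Hasse norm theorem, the norm
of a twisted element.
-/

set_option autoImplicit false

noncomputable section

open IsDedekindDomain NumberField Matrix

namespace Fermat.Agent.LT.PlaceMatching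

open Places Matching CubicDescent
open Fermat.Agent.LT.Geometric (IsCubic Twisted pglAut pglBase)

universe u u'

variable {K : Type u} {L : Type u'} [Field K] [NumberField K] [Field L] [NumberField L]
  {ι : K →+* L} {σ : L ≃+* L} {I : Ideal (𝓞 L)} {J : Ideal (𝓞 K)}
  {hI : ∃ N : ℕ, 0 < N ∧ (N : 𝓞 L) ∈ I} {hJ : ∃ N : ℕ, 0 < N ∧ (N : 𝓞 K) ∈ J}
  {hm : LevelsMatch ι σ I J} {hc : IsCubic ι σ} {s : PlaceSection ι} {m : GL (Fin 2) K}

/-- A nonzero kernel gives fixed cosets at the fixed places. -/
theorem exists_fixed_of_ne_zero {k : Fin 3 → KerFam J} {kL : KerFam I}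
    (hk : Compatible hm hc s k kL) {d : KerFam.Cst hJ}
    (h : ((k 0).hecke hJ * (k 1).hecke hJ * (k 2).hecke hJ).kernel d (glIncl K m • d) ≠ 0)
    (v : FinPlace K) (hv : ¬ s.Moved σ v) :
    glPlace v (glIncl K m) • comp v d = comp v d := by
  rw [mul_assoc, HeckeFn.kernel_mul, HeckeFn.act_eq_sum] at h
  obtain ⟨b₁, -, h₁⟩ := Finset.exists_ne_zero_of_sum_ne_zero h
  have h01 := left_ne_zero_of_mul h₁
  have h12 := right_ne_zero_of_mul h₁
  rw [HeckeFn.kernel_mul, HeckeFn.act_eq_sum] at h12
  obtain ⟨b₂, -, h₂⟩ := Finset.exists_ne_zero_of_sum_ne_zero h12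
  have g0 := left_ne_zero_of_mul h₂
  have g1 := right_ne_zero_of_mul h₂
  rw [KerFam.hecke_kernel, KerFam.prod_ne_zero_iff] at h01 g0 g1
  have e0 := h01 v
  have e1 := g0 v
  have e2 := g1 v
  rw [hk.fixedK v _ hv] at e0 e1 e2
  have e := (LocKer.eq_of_one_ne_zero e0).trans
    ((LocKer.eq_of_one_ne_zero e1).trans (LocKer.eq_of_one_ne_zero e2))
  rw [comp_smul] at e
  exact e.symm

variable (hm hc s)

include hm hc in
/-- **Local norms everywhere give an adelic norm in the commutant.** -/
theorem exists_adelic_norm (hI : ∃ N : ℕ, 0 < N ∧ (N : 𝓞 L) ∈ I)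
    (hfix : ∀ v, ¬ s.Moved σ v → ∃ z : LocCosets J v, glPlace v (glIncl K m) • z = z) :
    ∃ (W : GLFin L) (a : (FinAdele L)ˣ),
      Commute W (glIncl L (baseUnit ι m)) ∧
        adeleNorm σ W = scalarFin L a * glIncl L (baseUnit ι m) := by
  classical
  set M := glIncl L (baseUnit ι m) with hM
  -- the local data
  have hloc : ∀ w : FinPlace L, ∃ (g : GL (Fin 2) (w.adicCompletion L))
      (a : (w.adicCompletion L)ˣ), Commute g (glPlace w M) ∧
      (∀ hw : comapPlace (σ : L →+* L) w = w,
        twistedNorm (glMap (placeIso σ hw)) g 3 = scalarUnit a * glPlace w M) ∧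
      (comapPlace (σ : L →+* L) w ≠ w →
        g = (if w = s.sec (comapPlace ι w) then glPlace w M else 1) ∧ a = 1) ∧
      (locIdeal I w = ⊤ → glPlace (comapPlace ι w) (glIncl K m) ∈ intGroup (comapPlace ι w) →
        g ∈ intGroup w ∧ Valued.v (a : w.adicCompletion L) = 1) := by
    intro w
    set v := comapPlace ι w with hvdef
    have hMv : glPlace w M = baseUnit (placeMap ι rfl) (glPlace v (glIncl K m)) :=
      glPlace_glIncl_baseUnit rfl m
    by_cases hw : comapPlace (σ : L →+* L) w = w
    · have hsv : ¬ s.Moved σ v := fun hmv => by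
        obtain ⟨i, hi⟩ := s.exists_pl_eq hc w
        exact s.moved_pl hc hmv i (by rw [hi]; exact hw)
      have hconv : ∀ (δ₀ : GL (Fin 2) (w.adicCompletion L)) (a : (v.adicCompletion K)ˣ),
          baseUnit (placeMap ι (rfl : comapPlace ι w = v)) (scalarUnit a * glPlace v (glIncl K m)) =
            scalarUnit (Units.map (placeMap ι (rfl : comapPlace ι w = v)).toMonoidHom a) *
              glPlace w M := fun δ₀ a => by
        rw [hMv, map_mul]
        congr 1
        refine Units.ext (Matrix.ext fun i j => ?_)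
        by_cases hij : i = j <;> simp [hij, scalarUnit]
      by_cases hgood : locIdeal I w = ⊤ ∧ glPlace v (glIncl K m) ∈ intGroup v
      · obtain ⟨δ₀, a, hδ, ha, hN, hcomm⟩ := exists_integral_norm hm hc hw rfl hgood.1 hgood.2
        refine ⟨δ₀, Units.map (placeMap ι rfl).toMonoidHom a, ?_, fun _ => ?_,
          fun h => absurd hw h, fun _ _ => ⟨hδ, ?_⟩⟩
        · rw [hMv]; exact (hcomm _ (Commute.refl _)).symm
        · rw [hN, hconv δ₀]
        · rw [Units.coe_map]
          exact (valued_placeMap_eq_one_iff rfl _).mpr ha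
      · obtain ⟨δ₀, a, hN, hcomm⟩ := exists_local_norm hm hc hw rfl (hfix v hsv)
        refine ⟨δ₀, Units.map (placeMap ι rfl).toMonoidHom a, ?_, fun _ => ?_,
          fun h => absurd hw h, fun h1 h2 => absurd ⟨h1, h2⟩ hgood⟩
        · rw [hMv]; exact (hcomm _ (Commute.refl _)).symm
        · rw [hN, hconv δ₀]
    · refine ⟨if w = s.sec v then glPlace w M else 1, 1, ?_, fun h => absurd h hw,
        fun _ => ⟨rfl, rfl⟩, fun _ hint => ⟨?_, by simp⟩⟩
      · split_ifs
        exacts [Commute.refl _, Commute.one_left _]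
      · split_ifs
        · rw [hMv]
          refine mem_intGroup_of_inv (fun i j => (valued_placeMap_le_one_iff rfl _).mpr (hint.1 i j)) ?_
          rw [← map_inv]
          exact fun i j => (valued_placeMap_le_one_iff rfl _).mpr ((inv_mem hint).1 i j)
        · exact one_mem _
  choose g a hcomm hnorm hmov hint using hloc
  have hbad : {w : FinPlace L | ¬ (g w ∈ intGroup w ∧ Valued.v (a w : w.adicCompletion L) = 1)}.Finite := by
    refine ((finite_le I hI).union (finite_not_intGroup M)).subset fun w hw => ?_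
    by_contra h
    simp only [Set.mem_union, Set.mem_ofPred_eq, not_or, not_not] at h
    refine hw (hint w h.1 (mem_intGroup_of_map (ι := ι) rfl ?_))
    rw [← glPlace_glIncl_baseUnit]
    exact h.2
  obtain ⟨W, hW⟩ := exists_glPlace_eq g (hbad.subset fun w hw h => hw h.1)
  set x := adeleOf (fun w => (a w : w.adicCompletion L))
    (hbad.subset fun w hw h => ne_of_gt hw h.2) with hx
  have hxu : IsUnit x := isUnit_of_placeVal (fun w => by rw [hx, toPlace_adeleOf]; exact (a w).ne_zero)
    (hbad.subset fun w hw h => hw (by simpa [placeVal, hx, toPlace_adeleOf] using h.2))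
  have hxw : ∀ w, Units.map (toPlace w).toMonoidHom hxu.unit = a w := fun w => Units.ext (by
    show toPlace w (hxu.unit : FinAdele L) = _
    rw [IsUnit.unit_spec, hx, toPlace_adeleOf])
  refine ⟨W, hxu.unit, gl_ext fun w => by rw [map_mul, map_mul, hW, (hcomm w).eq],
    gl_ext fun w => ?_⟩
  rw [map_mul (glPlace w) (scalarFin L _), glPlace_scalarFin, hxw]
  by_cases hw : comapPlace (σ : L →+* L) w = w
  · rw [← hnorm w hw]
    simp only [adeleNorm, twistedNorm, map_mul, map_one, mul_one, glPlace_glFinMap hw, hW]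
    rfl
  · set τ := comapPlace (σ : L →+* L)
    set v := comapPlace ι w with hvdef
    have hv1 : comapPlace ι (τ w) = v := comapPlace_base hc.fixed w
    have hv2 : comapPlace ι (τ (τ w)) = v := (comapPlace_base hc.fixed _).trans hv1
    have hne1 : τ (τ w) ≠ τ w := fun e => hw ((placeEquiv σ).injective e)
    have hne2 : τ (τ (τ w)) ≠ τ (τ w) := fun e => hne1 ((placeEquiv σ).injective e)
    have hne02 : w ≠ τ (τ w) := fun e => hw ((congrArg τ e).trans (comapPlace_three hc.pow w))
    set B := glPlace v (glIncl K m) with hB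
    have hMw : ∀ (u : FinPlace L) (hu : comapPlace ι u = v),
        glPlace u M = baseUnit (placeMap ι hu) B := fun u hu => glPlace_glIncl_baseUnit hu m
    have hiso : ∀ (u : FinPlace L) (hu : comapPlace ι u = v) (hu' : comapPlace ι (τ u) = v),
        baseUnit (placeIso σ (rfl : τ u = τ u)).toRingHom (baseUnit (placeMap ι hu') B) =
          baseUnit (placeMap ι hu) B := fun u hu hu' =>
      Units.ext (Matrix.ext fun i j => placeIso_placeMap hc rfl hu hu' _)
    obtain ⟨hg0, ha0⟩ := hmov w hw
    obtain ⟨hg1, -⟩ := hmov (τ w) hne1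
    obtain ⟨hg2, -⟩ := hmov (τ (τ w)) hne2
    rw [hv1] at hg1
    rw [hv2] at hg2
    rw [ha0, map_one, one_mul]
    simp only [adeleNorm, map_mul, glPlace_glFinMap (rfl : τ w = τ w),
      glPlace_glFinMap (rfl : τ (τ w) = τ (τ w)), hW, hg0, hg1, hg2]
    -- exactly one of the three places is the chosen one
    rcases eq_of_comapPlace_eq hc.fixed hc.pow (w := w) (w' := s.sec v) (by rw [s.over]) with
      h | h | h
    · rw [if_pos h.symm, if_neg (fun e => hw (e.trans h)),
        if_neg (fun e => hne02 (e.trans h).symm)]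
      simp only [map_one, mul_one]
    · rw [if_neg (fun e => hw (e.trans h).symm), if_pos h.symm,
        if_neg (fun e => hne1 (e.trans h))]
      simp only [map_one, mul_one, one_mul]
      rw [hMw (τ w) hv1, hiso w rfl hv1, hMw w rfl]
    · rw [if_neg (fun e => hne02 (e.trans h)), if_neg (fun e => hne1 (e.trans h).symm),
        if_pos h.symm]
      simp only [map_one, one_mul]
      rw [hMw (τ (τ w)) hv2, hiso (τ w) hv1 hv2, hiso w rfl hv1, hMw w rfl]

include hc in
/-- An adelic norm in the commutant gives a twisted element. -/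
theorem exists_twisted_of_adelic (m : GL (Fin 2) K) {W : GLFin L} {a : (FinAdele L)ˣ}
    (hWM : Commute W (glIncl L (baseUnit ι m)))
    (hN : adeleNorm σ W = scalarFin L a * glIncl L (baseUnit ι m)) :
    ∃ δ : Twisted (pglAut σ), δ.norm = pglBase ι (QuotientGroup.mk m) := by
  by_cases hs : ∃ c : K, m.val = c • 1
  · obtain ⟨c, hc'⟩ := hs
    refine ⟨Twisted.mk _ 1, ?_⟩
    have h1 : (QuotientGroup.mk (baseUnit ι m) : PGLIndex L) = 1 :=
      Geometric.pgl_mk_eq_one_of_scalar ⟨ι c, by
        show m.val.map ι = _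
        rw [hc']; ext i j; fin_cases i <;> fin_cases j <;> simp⟩
    rw [Geometric.pglBase_mk, h1, Twisted.norm_eq]
    simp [Twisted.val, Twisted.mk]
  simp only [not_exists] at hs
  by_cases ht0 : m.val.trace = 0
  · refine ⟨Twisted.mk _ (pglBase ι (QuotientGroup.mk m)), ?_⟩
    have hsq : pglBase ι (QuotientGroup.mk m) * pglBase ι (QuotientGroup.mk m) = 1 := by
      rw [Geometric.pglBase_mk, ← QuotientGroup.mk_mul]
      refine Geometric.pgl_mk_eq_one_of_scalar ⟨-(baseUnit ι m).val.det, ?_⟩
      rw [Units.val_mul, Matching.mul_self_eq_fin_two,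
        show (baseUnit ι m).val.trace = 0 by
          have := congrArg ι ht0
          simpa [Matrix.trace_fin_two] using this,
        zero_smul, add_zero]
    rw [Twisted.norm_eq]
    simp only [Twisted.val, Twisted.mk, hc.pglAut_base, hsq, mul_one]
  -- conjugate to a companion matrix
  obtain ⟨P, hP, hPe⟩ := exists_conj_companionTwo m.val hs
  obtain ⟨P, rfl⟩ := (Matrix.isUnit_iff_isUnit_det P).mpr (isUnit_iff_ne_zero.mpr hP)
  set t := ι m.val.trace with ht
  set d := ι m.val.det with hd
  have hd0 : d ≠ 0 :=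
    (map_ne_zero ι).mpr ((Matrix.isUnit_iff_isUnit_det _).mp m.isUnit).ne_zero
  set Q := glIncl L (baseUnit ι P) with hQ
  have hQfix : glFinMap (σ : L →+* L) Q = Q := by
    rw [hQ, glFinMap_glIncl]
    exact congrArg _ (glMap_baseUnit hc.fixed P)
  have hCL : (P⁻¹ * m * P).val.map ι = quadMat t d 0 1 := by
    rw [Units.val_mul, Units.val_mul, mul_assoc, hPe, Units.inv_mul_cancel_left]
    ext i j; fin_cases i <;> fin_cases j <;> simp [quadMat, companionTwo, t, d]
  set C := glIncl L (baseUnit ι (P⁻¹ * m * P)) with hC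
  have hCval : C.val = quadMat (finIncl L t) (finIncl L d) 0 1 := by
    show ((P⁻¹ * m * P).val.map ι).map (finIncl L) = _
    rw [hCL, quadMat_map, map_zero, map_one]
  have hCconj : C = Q⁻¹ * glIncl L (baseUnit ι m) * Q := by
    rw [hC, hQ]; simp only [map_mul, map_inv]
  set V := Q⁻¹ * W * Q with hV
  have hshape : ∀ X : GLFin L, Commute X C →
      X.val = quadMat (finIncl L t) (finIncl L d) (X.val 0 0) (X.val 1 0) := fun X hX => by
    refine eq_quadMat_of_commute ?_
    have h := congrArg Units.val hX.symm.eq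
    rw [Units.val_mul, Units.val_mul, hCval] at h
    simpa [quadMat] using h
  have hVC : Commute V C := by
    rw [hV, hCconj]
    show _ = _
    simp only [mul_assoc, mul_inv_cancel_left]
    rw [← mul_assoc W, hWM.eq, mul_assoc]
  have hNV : adeleNorm σ V = scalarFin L a * C := by
    have e1 : glFinMap (σ : L →+* L) V = Q⁻¹ * glFinMap (σ : L →+* L) W * Q := by
      rw [hV, map_mul, map_mul, map_inv, hQfix]
    have e2 : glFinMap (σ : L →+* L) (glFinMap (σ : L →+* L) V) =
        Q⁻¹ * glFinMap (σ : L →+* L) (glFinMap (σ : L →+* L) W) * Q := by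
      rw [e1, map_mul, map_mul, map_inv, hQfix]
    have e3 : adeleNorm σ V = Q⁻¹ * adeleNorm σ W * Q := by
      rw [adeleNorm, e2, e1, hV, adeleNorm]; simp only [mul_assoc, mul_inv_cancel_left]
    rw [e3, hN, hCconj, ← mul_assoc Q⁻¹, ← scalarFin_comm a Q⁻¹]
    simp only [mul_assoc]
  obtain ⟨p, q, hpq⟩ := hasNormD_of_adelic (W := V) (a := a) hc.pow hc.ne_one
    ((hc.fixed _).mpr ⟨_, rfl⟩) ((hc.fixed _).mpr ⟨_, rfl⟩) hd0 (hshape V hVC)
    (hshape V⁻¹ hVC.inv_left) (by
      rw [hNV, Units.val_mul, hCval]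
      refine Matrix.ext fun i j => ?_
      show (Matrix.diagonal (fun _ : Fin 2 => (a : FinAdele L)) *
        quadMat (finIncl L t) (finIncl L d) 0 1) i j = _
      rw [Matrix.diagonal_mul, Matrix.smul_apply, smul_eq_mul])
  have hdet : (quadMat t d p q).det ≠ 0 := fun h0 => by
    have h := congrArg Matrix.det hpq
    rw [Matrix.det_mul, h0, zero_mul] at h
    refine (pow_ne_zero 3 hd0) ?_
    have e : (d • quadMat t d 0 1).det = d ^ 3 := by
      simp [quadMat, Matrix.det_fin_two]; ring
    rw [← e, ← h]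
  set x : GL (Fin 2) L := Matrix.GeneralLinearGroup.mkOfDetNeZero _ hdet with hx
  have hxn : twistedNorm (glMap σ) x 3 =
      scalarUnit (Units.mk0 d hd0) * baseUnit ι (P⁻¹ * m * P) := by
    have hmapσ : ∀ p q : L, (quadMat t d p q).map σ = quadMat t d (σ p) (σ q) := fun p q => by
      rw [show (quadMat t d p q).map σ = (quadMat t d p q).map σ.toRingHom from rfl, quadMat_map]
      congr 1
      · exact (hc.fixed t).mpr ⟨_, rfl⟩
      · exact (hc.fixed d).mpr ⟨_, rfl⟩
    refine Units.ext ?_
    have hl : (twistedNorm (glMap σ) x 3).val =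
        quadMat t d p q * ((quadMat t d p q).map σ * ((quadMat t d p q).map σ).map σ) := by
      simp only [twistedNorm, map_mul, map_one, mul_one, Units.val_mul]
      rfl
    rw [hl, hmapσ, hmapσ, hpq, Units.val_mul,
      show (baseUnit ι (P⁻¹ * m * P)).val = quadMat t d 0 1 from hCL]
    ext i j
    fin_cases i <;> fin_cases j <;>
      simp [scalarUnit, quadMat, Matrix.mul_apply, Fin.sum_univ_two, t, d]
  have hδ : (Twisted.mk (pglAut σ) (QuotientGroup.mk x)).norm =
      pglBase ι (QuotientGroup.mk (P⁻¹ * m * P)) := by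
    rw [Geometric.norm_mk, hxn, Geometric.pglBase_mk, eq_comm, Geometric.pgl_mk_eq_iff]
    exact ⟨_, rfl⟩
  refine ⟨pglBase ι (QuotientGroup.mk P) • Twisted.mk (pglAut σ) (QuotientGroup.mk x), ?_⟩
  rw [Twisted.norm_smul (Geometric.pglAut_iterate hc.pow), hδ, ← map_inv, ← map_mul, ← map_mul]
  congr 1
  rw [← QuotientGroup.mk_inv, ← QuotientGroup.mk_mul, ← QuotientGroup.mk_mul]
  simp only [mul_assoc, mul_inv_cancel_left, mul_inv_cancel, mul_one]

variable {hm hc s}

/-- **A class meeting the support of the product kernel is a norm.** -/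
theorem exists_norm_of_ne_zero (hI : ∃ N : ℕ, 0 < N ∧ (N : 𝓞 L) ∈ I) {k : Fin 3 → KerFam J}
    {kL : KerFam I} (hk : Compatible hm hc s k kL) {d : KerFam.Cst hJ}
    (h : ((k 0).hecke hJ * (k 1).hecke hJ * (k 2).hecke hJ).kernel d (glIncl K m • d) ≠ 0) :
    ∃ δ : Twisted (pglAut σ), δ.norm = pglBase ι (QuotientGroup.mk m) := by
  obtain ⟨W, a, hWM, hN⟩ := exists_adelic_norm hm hc s hI
    (fun v hv => ⟨_, exists_fixed_of_ne_zero hk h v hv⟩)
  exact exists_twisted_of_adelic hc m hWM hN

end Fermat.Agent.LT.PlaceMatching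

end
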