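import Fermat.Agent.LT.PlaceMatching.Proj

/-!
# The unipotent classes need no translation

For `x = n(ξ/3)`, whose norm is `n(ξ)`, no translation is needed at any place, so one projection
serves all `ξ` and commutes with all of `GL₂(K)`.
-/

set_option autoImplicit false

noncomputable section

open IsDedekindDomain NumberField Matrix

namespace Fermat.Agent.LT.PlaceMatching

open Places Matching CubicDescent
open Fermat.Agent.LT.Geometric (IsCubic)

universe u u'

variable {K : Type u} {L : Type u'} [Field K] [NumberField K] [Field L] [NumberField L]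
  {ι : K →+* L} {σ : L ≃+* L} {I : Ideal (𝓞 L)} {J : Ideal (𝓞 K)}

/-- A unipotent in the level has its third in the level. -/
theorem unip_third_mem {w : FinPlace L} (h3 : (3 : 𝓞 L) ∉ w.asIdeal)
    (hrad : ∀ y : intRing w, y ^ 2 ∈ locIdeal I w → y ∈ locIdeal I w)
    {g : GL (Fin 2) (w.adicCompletion L)} {a : w.adicCompletion L}
    (h : g⁻¹ * unip a * g ∈ locLevel I w) : g⁻¹ * unip (a / 3) * g ∈ locLevel I w := by
  obtain ⟨c, u, hu, he⟩ := h
  set M : Matrix (Fin 2) (Fin 2) (w.adicCompletion L) := u.val.map (intRing w).subtype with hM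
  have hval : (g⁻¹ * unip a * g).val = (c : w.adicCompletion L) • M := by
    rw [he]
    ext i j
    simp [scalarUnit, hM]
  have hgg : (g⁻¹).val * g.val = 1 := g.inv_mul
  have hdet : (c : w.adicCompletion L) ^ 2 * M.det = 1 := by
    have h1 : ((c : w.adicCompletion L) • M).det = 1 := by
      rw [← hval, Units.val_mul, Units.val_mul, Matrix.det_units_conj']
      simp [Matrix.det_fin_two]
    rwa [Matrix.det_smul, Fintype.card_fin] at h1
  have htr : (c : w.adicCompletion L) * (M 0 0 + M 1 1) = 2 := by
    have h1 : ((c : w.adicCompletion L) • M).trace = 2 := by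
      rw [← hval, Units.val_mul, Units.val_mul, Matrix.trace_units_conj']
      simp [Matrix.trace_fin_two]
      norm_num
    rwa [Matrix.trace_smul, Matrix.trace_fin_two, smul_eq_mul] at h1
  have hdu : M.det = ((u.val.det : intRing w) : w.adicCompletion L) :=
    (RingHom.map_det _ _).symm
  have hvc : Valued.v (c : w.adicCompletion L) = 1 := by
    have h1 : Valued.v M.det = 1 := by
      rw [hdu]
      exact isUnit_iff_valued.mp ((Matrix.isUnit_iff_isUnit_det _).mp u.isUnit)
    have h2 := congrArg Valued.v hdet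
    rw [map_mul, map_pow, h1, mul_one, map_one] at h2
    exact (pow_eq_one_iff_of_nonneg zero_le two_ne_zero).mp h2
  set C : intRing w := ⟨c, mem_intRing.mpr hvc.le⟩ with hC
  have hu' := mem_congrLevel.mp hu
  set J := locIdeal I w
  have hC1 : C - 1 ∈ J := by
    refine hrad _ ?_
    have e1 : C ^ 2 * u.val.det = 1 := Subtype.ext (by
      show (c : w.adicCompletion L) ^ 2 * ((u.val.det : intRing w) : w.adicCompletion L) = 1
      rw [← hdu, hdet])
    have e2 : C * (u.val 0 0 + u.val 1 1) = 2 := Subtype.ext (by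
      show (c : w.adicCompletion L) * (M 0 0 + M 1 1) = _
      rw [htr]
      exact (map_ofNat (intRing w).subtype 2).symm)
    have d00 := hu' 0 0
    have d11 := hu' 1 1
    have d01 := hu' 0 1
    simp only [Matrix.one_apply_eq, Matrix.one_apply_ne (show (0 : Fin 2) ≠ 1 by decide), sub_zero]
      at d00 d11 d01
    have hdet1 : u.val.det - 1 ∈ J := by
      rw [Matrix.det_fin_two,
        show u.val 0 0 * u.val 1 1 - u.val 0 1 * u.val 1 0 - 1 =
          u.val 1 1 * (u.val 0 0 - 1) + (u.val 1 1 - 1) - u.val 1 0 * u.val 0 1 by ring]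
      exact sub_mem (add_mem (J.mul_mem_left _ d00) d11) (J.mul_mem_left _ d01)
    have e : (C - 1) ^ 2 =
        C * ((u.val 0 0 - 1) + (u.val 1 1 - 1)) - C ^ 2 * (u.val.det - 1) := by
      linear_combination -e2 + e1
    rw [e]
    exact sub_mem (J.mul_mem_left _ (add_mem d00 d11)) (J.mul_mem_left _ hdet1)
  obtain ⟨t, ht⟩ := (isUnit_three h3).exists_left_inv
  have ht3 : (t : w.adicCompletion L) * 3 = 1 := by
    have h1 := congrArg (intRing w).subtype ht
    exact h1
  have h30 : (3 : w.adicCompletion L) ≠ 0 := fun h0 => by rw [h0, mul_zero] at ht3; exact zero_ne_one ht3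
  let V : Matrix (Fin 2) (Fin 2) (intRing w) :=
    Matrix.of fun i j => (1 : Matrix (Fin 2) (Fin 2) (intRing w)) i j +
      t * (C * u.val i j - (1 : Matrix (Fin 2) (Fin 2) (intRing w)) i j)
  have hV : (g⁻¹ * unip (a / 3) * g).val = V.map (intRing w).subtype := by
    have hlin : (g⁻¹ * unip (a / 3) * g).val =
        1 + (t : w.adicCompletion L) • ((g⁻¹ * unip a * g).val - 1) := by
      have e : (unip (a / 3) : GL (Fin 2) (w.adicCompletion L)).val =
          1 + (t : w.adicCompletion L) • ((unip a : GL (Fin 2) (w.adicCompletion L)).val - 1) := by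
        have : a / 3 = (t : w.adicCompletion L) * a := by
          rw [div_eq_iff h30]; linear_combination -a * ht3
        ext i j
        fin_cases i <;> fin_cases j <;> simp [this]
      rw [Units.val_mul, Units.val_mul, e, mul_add, add_mul, mul_one, hgg, mul_smul_comm,
        smul_mul_assoc, mul_sub, sub_mul, mul_one, hgg, ← Units.val_mul, ← Units.val_mul]
    rw [hlin, hval]
    ext i j
    by_cases hij : i = j <;> simp [V, hij, hM, hC, Matrix.one_apply]
  have hint : g⁻¹ * unip (a / 3) * g ∈ intGroup w := by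
    refine mem_intGroup_iff.mpr ⟨fun i j => ?_, ?_⟩
    · rw [hV]
      exact mem_intRing.mp (V i j).2
    · rw [Units.val_mul, Units.val_mul, Matrix.det_units_conj']
      simp [Matrix.det_fin_two]
  obtain ⟨U, hU⟩ := exists_coeUnit_eq hint
  refine hU ▸ coeUnit_mem_levelGroup (mem_congrLevel.mpr fun i j => ?_)
  have hUV : U.val i j = V i j := by
    have := congrArg (fun m : GL (Fin 2) (w.adicCompletion L) => m.val i j) hU
    simp only [hV] at this
    exact Subtype.ext this
  rw [hUV]
  have hCu : C * u.val i j - (1 : Matrix (Fin 2) (Fin 2) (intRing w)) i j ∈ J := by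
    rw [show C * u.val i j - (1 : Matrix (Fin 2) (Fin 2) (intRing w)) i j =
      C * (u.val i j - (1 : Matrix (Fin 2) (Fin 2) (intRing w)) i j) +
        (C - 1) * (1 : Matrix (Fin 2) (Fin 2) (intRing w)) i j by ring]
    exact add_mem (J.mul_mem_left _ (hu' i j)) (J.mul_mem_right _ hC1)
  simp only [V, Matrix.of_apply, add_sub_cancel_left]
  exact J.mul_mem_left _ hCu

/-- The square roots of the level at a fixed place. -/
theorem LevelsMatch.mem_of_sq_mem (hm : LevelsMatch ι σ I J) {w : FinPlace L}
    (hw : comapPlace (σ : L →+* L) w = w) (y : intRing w) (hy : y ^ 2 ∈ locIdeal I w) :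
    y ∈ locIdeal I w := by
  rcases moved_or_inert_or_tame (σ := σ) w with h | h | h
  · exact absurd hw h
  · rw [hm.inert w h]; exact Submodule.mem_top
  · rw [hm.tame w h] at hy ⊢
    exact (isMaximal_span (uniformizer_piInt w)).isPrime.mem_of_pow_mem 2 hy

omit [NumberField K] in
/-- The norm of `n(ξ/3)` is `n(ξ)`. -/
theorem twistedNorm_unip_third (hc : IsCubic ι σ) (ξ : K) :
    twistedNorm (glMap σ) (unip (ι ξ / 3)) 3 = baseUnit ι (unip ξ) := by
  have hfix : glMap σ (unip (ι ξ / 3)) = unip (ι ξ / 3) := by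
    have : σ (ι ξ / 3) = ι ξ / 3 := by rw [map_div₀, map_ofNat, (hc.fixed _).mpr ⟨ξ, rfl⟩]
    ext i j
    fin_cases i <;> fin_cases j <;> simp [this]
  simp only [twistedNorm, map_mul, map_one, mul_one, hfix]
  have hadd : ∀ a b : L, (unip a * unip b : GL (Fin 2) L) = unip (a + b) := fun a b =>
    (AddChar.map_add_eq_mul _ a b).symm
  rw [hadd, hadd]
  ext i j
  fin_cases i <;> fin_cases j <;> simp
  ring

/-- **One transfer for all unipotents.** -/
theorem exists_transfer_unip (hm : LevelsMatch ι σ I J) (hc : IsCubic ι σ) (s : PlaceSection ι)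
    (ξ : K) :
    ∃ T : Transfer hm hc s (unip (ι ξ / 3)) (unip ξ), T.y = fun _ => 1 := by
  refine ⟨⟨fun _ => 1, fun _ _ => rfl, by simp, fun v hw => ?_, fun _ _ _ => Commute.one_left _⟩,
    rfl⟩
  refine isTransfer_one hm hc hw (s.over v) (c := 1)
    (local_norm_eq (twistedNorm_unip_third hc ξ) (s.over v) hw) fun z hz => ?_
  induction z using QuotientGroup.induction_on with
  | _ g =>
    have hM : baseUnit (placeMap ι (s.over v)) (glPlace v (glIncl K (unip ξ))) =
        unip (algebraMap L ((s.sec v).adicCompletion L) (ι ξ)) := by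
      rw [← glPlace_glIncl_baseUnit (s.over v)]
      refine Units.ext (Matrix.ext fun i j => ?_)
      show toPlace (s.sec v) (finIncl L (ι ((unip ξ : GL (Fin 2) K).val i j))) = _
      rw [toPlace_finIncl]
      fin_cases i <;> fin_cases j <;> simp
    have hx : glPlace (s.sec v) (glIncl L (unip (ι ξ / 3))) =
        unip (algebraMap L ((s.sec v).adicCompletion L) (ι ξ) / 3) := by
      refine Units.ext (Matrix.ext fun i j => ?_)
      show toPlace (s.sec v) (finIncl L ((unip (ι ξ / 3) : GL (Fin 2) L).val i j)) = _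
      rw [toPlace_finIncl]
      fin_cases i <;> fin_cases j <;> simp [map_ofNat]
    rw [hM] at hz
    rw [hx]
    exact (smul_mk_eq_iff _ g).mpr (unip_third_mem (hm.three_notMem hw)
      (hm.mem_of_sq_mem hw) ((smul_mk_eq_iff _ g).mp hz))

namespace Transfer

variable {hI : ∃ N : ℕ, 0 < N ∧ (N : 𝓞 L) ∈ I} {hJ : ∃ N : ℕ, 0 < N ∧ (N : 𝓞 K) ∈ J}
  {hm : LevelsMatch ι σ I J} {hc : IsCubic ι σ} {s : PlaceSection ι}
  {x x' : GL (Fin 2) L} {m m' : GL (Fin 2) K}

/-- The projection depends on the translations only. -/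
theorem proj_eq_of_y (T : Transfer hm hc s x m) (T' : Transfer hm hc s x' m') (h : T.y = T'.y)
    (c : KerFam.Cst hI) : T.proj hJ c = T'.proj hJ c := by
  refine coset_ext fun v => ?_
  rw [comp_proj, comp_proj]
  by_cases hl : T.HasLift v c
  · obtain ⟨z, hz⟩ := hl
    rw [T.projLoc_eq hz, T'.projLoc_eq (hz.trans (by rw [h]))]
  · have hl' : ¬ T'.HasLift v c := fun ⟨z, hz⟩ => hl ⟨z, by rw [hz, h]⟩
    rw [projLoc, projLoc, dif_neg hl, dif_neg hl']

/-- Without translation the projection commutes with `GL₂(K)` on the support. -/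
theorem proj_smul_of_y_one (T : Transfer hm hc s x m) (hy : T.y = fun _ => 1) (z : GL (Fin 2) K)
    {c : KerFam.Cst hI} (hs : OnSupport (hm := hm) (hc := hc) (s := s) (x := x) c) :
    T.proj hJ (glIncl L (baseUnit ι z) • c) = glIncl K z • T.proj hJ c := by
  refine coset_ext fun v => ?_
  rw [comp_proj, comp_smul, comp_proj]
  refine T.projLoc_eq ?_
  have hy' : T.y v = 1 := congrFun hy v
  rw [baseLoc_smul, T.baseLoc_projLoc (T.hasLift_of_onSupport hs v), comp_smul,
    glPlace_glIncl_baseUnit (s.over v), hy', one_smul, one_smul]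

end Transfer

end Fermat.Agent.LT.PlaceMatching

end
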