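import Fermat.Agent.LT.Places.Galois

/-!
# Maps between completions

`placeMap f h : F_v → K_w` for `v` below `w` along `f`, read off from the finite adeles. For a
cubic automorphism `σ` with fixed field `K` the adeles fixed by `σ` come from `K`, so the places
above one place form one orbit and the fixed field of `σ` on `L_w` is `K_v`.
-/

set_option autoImplicit false

noncomputable section

open IsDedekindDomain NumberField WithZero
open scoped TensorProduct

namespace Fermat.Agent.LT.PlaceMatching

open Places

variable {F K E : Type*} [Field F] [NumberField F] [Field K] [NumberField K] [Field E]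
  [NumberField E]

omit [NumberField F] [NumberField K] [NumberField E] in
/-- Extension of adeles is functorial. -/
theorem finExtend_finExtend (f : F →+* K) (g : K →+* E) (x : FinAdele F) :
    finExtend g (finExtend f x) = finExtend (g.comp f) x := by
  induction x using TensorProduct.induction_on with
  | zero => simp
  | tmul a z => rfl
  | add a b ha hb => rw [map_add, map_add, map_add, ha, hb]

omit [NumberField F] in
/-- Extension along the identity is the identity. -/
theorem finExtend_id (x : FinAdele F) : finExtend (RingHom.id F) x = x := by
  induction x using TensorProduct.induction_on with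
  | zero => simp
  | tmul a z => rfl
  | add a b ha hb => rw [map_add, ha, hb]

omit [NumberField E] in
/-- `comapPlace` is functorial. -/
theorem comapPlace_comp (f : F →+* K) (g : K →+* E) (w : FinPlace E) :
    comapPlace (g.comp f) w = comapPlace f (comapPlace g w) :=
  HeightOneSpectrum.ext (Ideal.ext fun o => by rfl)

/-- `comapPlace` of the identity is the identity. -/
theorem comapPlace_id (v : FinPlace F) : comapPlace (RingHom.id F) v = v :=
  HeightOneSpectrum.ext (Ideal.ext fun o => by rfl)

variable {f : F →+* K} {v : FinPlace F} {w : FinPlace K}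

theorem placeVal_finExtend_idem_eq (h : comapPlace f w = v) :
    placeVal w (finExtend f (idem v)) = 1 := by
  subst h
  obtain ⟨e, he, hval⟩ := exists_pow_valuation f w
  rw [placeVal_finExtend he hval, placeVal, toPlace_idem_same, map_one, one_pow]

/-- The idempotent at `v` is one at the places above `v`. -/
theorem toPlace_finExtend_idem (h : comapPlace f w = v) :
    toPlace w (finExtend f (idem v)) = 1 := by
  refine (mul_eq_left₀ ?_).mp (by rw [← map_mul, ← map_mul, idem_mul_idem])
  refine (Valuation.ne_zero_iff Valued.v).mp ?_
  rw [show Valued.v (toPlace w (finExtend f (idem v))) = placeVal w (finExtend f (idem v)) from rfl,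
    placeVal_finExtend_idem_eq h]
  exact one_ne_zero

/-- The embedding of completions along `f`. -/
def placeMap (f : F →+* K) {v : FinPlace F} {w : FinPlace K} (h : comapPlace f w = v) :
    v.adicCompletion F →+* w.adicCompletion K where
  toFun a := toPlace w (finExtend f (single v a))
  map_one' := toPlace_finExtend_idem h
  map_mul' a b := by rw [single_mul, map_mul, map_mul]
  map_zero' := by rw [map_zero, map_zero, map_zero]
  map_add' a b := by rw [map_add, map_add, map_add]

theorem placeMap_apply (h : comapPlace f w = v) (a : v.adicCompletion F) :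
    placeMap f h a = toPlace w (finExtend f (single v a)) := rfl

/-- Components of extended adeles. -/
theorem toPlace_finExtend (h : comapPlace f w = v) (x : FinAdele F) :
    toPlace w (finExtend f x) = placeMap f h (toPlace v x) := by
  rw [placeMap_apply, single_toPlace, map_mul, map_mul, toPlace_finExtend_idem h, one_mul]

/-- `placeMap` extends the map of fields. -/
theorem placeMap_algebraMap (h : comapPlace f w = v) (a : F) :
    placeMap f h (algebraMap F (v.adicCompletion F) a) =
      algebraMap K (w.adicCompletion K) (f a) := by
  rw [← toPlace_finIncl v a, ← toPlace_finExtend h, finExtend_finIncl, toPlace_finIncl]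

/-- `placeMap` raises valuations to the ramification index. -/
theorem exists_valued_placeMap (h : comapPlace f w = v) :
    ∃ e : ℕ, e ≠ 0 ∧ (∀ a : F, w.valuation K (f a) = v.valuation F a ^ e) ∧
      ∀ a, Valued.v (placeMap f h a) = Valued.v a ^ e := by
  subst h
  obtain ⟨e, he, hval⟩ := exists_pow_valuation f w
  refine ⟨e, he, hval, fun a => ?_⟩
  rw [placeMap_apply]
  exact (placeVal_finExtend he hval _).trans (by rw [placeVal, toPlace_single_same])

/-- Extension of scalars preserves and reflects integrality. -/
theorem valued_placeMap_le_one_iff (h : comapPlace f w = v) (a : v.adicCompletion F) :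
    Valued.v (placeMap f h a) ≤ 1 ↔ Valued.v a ≤ 1 := by
  obtain ⟨e, he, -, hv⟩ := exists_valued_placeMap h
  rw [hv, pow_le_one_iff he]

/-- `placeMap` preserves and reflects valuation one. -/
theorem valued_placeMap_eq_one_iff (h : comapPlace f w = v) (a : v.adicCompletion F) :
    Valued.v (placeMap f h a) = 1 ↔ Valued.v a = 1 := by
  obtain ⟨e, he, -, hv⟩ := exists_valued_placeMap h
  rw [hv, pow_eq_one_iff_of_nonneg zero_le he]

/-- `placeMap` is functorial. -/
theorem placeMap_comp {g : K →+* E} {u : FinPlace E} (h : comapPlace f w = v)
    (h' : comapPlace g u = w) (h'' : comapPlace (g.comp f) u = v) (a : v.adicCompletion F) :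
    placeMap g h' (placeMap f h a) = placeMap (g.comp f) h'' a := by
  rw [placeMap_apply h, ← toPlace_finExtend h', finExtend_finExtend, placeMap_apply]

/-- `placeMap` depends only on the map of fields. -/
theorem placeMap_congr {f' : F →+* K} (e : f = f') (h : comapPlace f w = v)
    (h' : comapPlace f' w = v) (a : v.adicCompletion F) : placeMap f h a = placeMap f' h' a := by
  subst e; rfl

/-- `placeMap` of the identity is the identity. -/
theorem placeMap_id {v : FinPlace F} (h : comapPlace (RingHom.id F) v = v)
    (a : v.adicCompletion F) : placeMap (RingHom.id F) h a = a := by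
  rw [placeMap_apply, finExtend_id, toPlace_single_same]

/-! ### Automorphisms -/

variable {L : Type*} [Field L] [NumberField L] {σ : L ≃+* L} {w w' : FinPlace L}

theorem comapPlace_symm (h : comapPlace (σ : L →+* L) w = w') :
    comapPlace (σ.symm : L →+* L) w' = w := by
  subst h
  exact (placeEquiv σ).symm_apply_apply w

/-- The isomorphism of completions induced by an automorphism. -/
def placeIso (σ : L ≃+* L) {w w' : FinPlace L} (h : comapPlace (σ : L →+* L) w = w') :
    w'.adicCompletion L ≃+* w.adicCompletion L :=
  RingEquiv.ofRingHom (placeMap _ h) (placeMap _ (comapPlace_symm h))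
    (RingHom.ext fun a => by
      have e : (σ : L →+* L).comp (σ.symm : L →+* L) = RingHom.id L :=
        RingHom.ext fun x => σ.apply_symm_apply x
      have h' : comapPlace (RingHom.id L) w = w := comapPlace_id w
      rw [RingHom.comp_apply, placeMap_comp (comapPlace_symm h) h (e ▸ h'),
        placeMap_congr e _ h', placeMap_id]
      rfl)
    (RingHom.ext fun a => by
      have e : (σ.symm : L →+* L).comp (σ : L →+* L) = RingHom.id L :=
        RingHom.ext fun x => σ.symm_apply_apply x
      have h' : comapPlace (RingHom.id L) w' = w' := comapPlace_id w'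
      rw [RingHom.comp_apply, placeMap_comp h (comapPlace_symm h) (e ▸ h'),
        placeMap_congr e _ h', placeMap_id]
      rfl)

/-- `placeIso` is `placeMap` along `σ`. -/
theorem placeIso_apply (h : comapPlace (σ : L →+* L) w = w') (a : w'.adicCompletion L) :
    placeIso σ h a = placeMap (σ : L →+* L) h a := rfl

/-- Components of conjugated adeles. -/
theorem toPlace_finMap (h : comapPlace (σ : L →+* L) w = w') (x : FinAdele L) :
    toPlace w (finMap (σ : L →+* L) x) = placeIso σ h (toPlace w' x) := by
  rw [finMap_eq_finExtend]
  exact toPlace_finExtend h x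

/-- Conjugation preserves valuations. -/
theorem valued_placeIso (h : comapPlace (σ : L →+* L) w = w') (a : w'.adicCompletion L) :
    Valued.v (placeIso σ h a) = Valued.v a := by
  have h1 : placeVal w (finMap (σ : L →+* L) (single w' a)) = placeVal w' (single w' a) := by
    rw [placeVal_finMap, h]
  rwa [placeVal, placeVal, toPlace_finMap h, toPlace_single_same] at h1

/-! ### Fixed adeles -/

variable {ι : K →+* L} (hfix : ∀ x : L, σ x = x ↔ x ∈ Set.range ι) (hpow : σ ^ 3 = 1)

include hfix hpow

omit [NumberField K] [NumberField L] in
/-- The trace of an element of `L` comes from `K`. -/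
theorem exists_trace (x : L) : ∃ a : K, ι a = x + σ x + σ (σ x) := by
  refine (hfix _).mp ?_
  have h3 : σ (σ (σ x)) = x := by
    rw [← RingAut.mul_apply, ← RingAut.mul_apply, show σ * σ * σ = σ ^ 3 by rw [pow_three, mul_assoc],
      hpow, RingAut.one_apply]
  rw [map_add, map_add, h3]
  abel

/-- Adeles fixed by `σ` come from `K`. -/
theorem exists_finExtend_eq {x : FinAdele L} (hx : finMap (σ : L →+* L) x = x) :
    ∃ y : FinAdele K, finExtend ι y = x := by
  choose tr htr using exists_trace hfix hpow
  let t : L →+ K :=
    { toFun := tr
      map_zero' := ι.injective (by simp [htr])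
      map_add' := fun a b => ι.injective (by simp only [map_add, htr]; abel) }
  let T : FinAdele L →ₗ[ℤ] FinAdele K := TensorProduct.map t.toIntLinearMap LinearMap.id
  have hT : ∀ z : FinAdele L, finExtend ι (T z) =
      z + finMap (σ : L →+* L) z + finMap (σ : L →+* L) (finMap (σ : L →+* L) z) := fun z => by
    induction z using TensorProduct.induction_on with
    | zero => simp
    | tmul a b =>
      show ι (tr a) ⊗ₜ b = a ⊗ₜ[ℤ] b + σ a ⊗ₜ b + σ (σ a) ⊗ₜ b
      rw [htr, TensorProduct.add_tmul, TensorProduct.add_tmul]
    | add a b ha hb => simp only [map_add, ha, hb]; abel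
  obtain ⟨u, hu⟩ := (isUnit_natCast (F := K) 3 (by norm_num)).exists_left_inv
  refine ⟨u * T x, ?_⟩
  have h3 : finExtend ι u * 3 = 1 := by
    have := congrArg (finExtend ι) hu
    rwa [map_mul, map_one, map_natCast, Nat.cast_ofNat] at this
  rw [map_mul, hT, hx, hx]
  linear_combination x * h3

/-- The orbit of a place is the fibre over `K`. -/
theorem eq_of_comapPlace_eq (he : comapPlace ι w = comapPlace ι w') :
    w' = w ∨ w' = comapPlace (σ : L →+* L) w ∨
      w' = comapPlace (σ : L →+* L) (comapPlace (σ : L →+* L) w) := by
  by_contra hne
  simp only [not_or] at hne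
  obtain ⟨hne0, hne1, hne2⟩ := hne
  set τ := comapPlace (σ : L →+* L) with hτdef
  have hτ3 : ∀ u, τ (τ (τ u)) = u := fun u => by
    rw [hτdef, ← comapPlace_comp, ← comapPlace_comp,
      show ((σ : L →+* L).comp ((σ : L →+* L).comp (σ : L →+* L))) = RingHom.id L from
        RingHom.ext fun x => by
          show σ (σ (σ x)) = x
          rw [← RingAut.mul_apply, ← RingAut.mul_apply,
            show σ * σ * σ = σ ^ 3 by rw [pow_three, mul_assoc], hpow, RingAut.one_apply],
      comapPlace_id]
  have hσ : ∀ u, finMap (σ : L →+* L) (idem (τ u)) = idem u := finMap_idem σ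
  -- the product of the three complementary idempotents is fixed
  let s : FinAdele L := (1 - idem w) * (1 - idem (τ w)) * (1 - idem (τ (τ w)))
  have hs : finMap (σ : L →+* L) s = s := by
    simp only [s, map_mul, map_sub, map_one, hσ]
    rw [show finMap (σ : L →+* L) (idem w) = idem (τ (τ w)) by
      conv_lhs => rw [← hτ3 w]
      exact hσ _]
    ring
  obtain ⟨y, hy⟩ := exists_finExtend_eq hfix hpow hs
  have h1 : toPlace w s = 0 := by
    simp only [s, map_mul, map_sub, map_one, toPlace_idem_same, sub_self, zero_mul]
  have h2 : toPlace w' s = 1 := by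
    simp only [s, map_mul, map_sub, map_one, toPlace_idem_ne hne0, toPlace_idem_ne hne1,
      toPlace_idem_ne hne2, sub_zero, mul_one]
  rw [← hy, toPlace_finExtend (v := comapPlace ι w) rfl] at h1
  rw [← hy, toPlace_finExtend (v := comapPlace ι w) he.symm,
    (map_eq_zero_iff _ (RingHom.injective _)).mp h1, map_zero] at h2
  exact zero_ne_one h2

/-- The fixed field of `σ` on the completion is the completion of `K`. -/
theorem placeIso_fixed_iff {v : FinPlace K} (h : comapPlace (σ : L →+* L) w = w)
    (hv : comapPlace ι w = v) (a : w.adicCompletion L) :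
    placeIso σ h a = a ↔ a ∈ Set.range (placeMap ι hv) := by
  constructor
  · intro ha
    have hx : finMap (σ : L →+* L) (single w a) = single w a := ext_toPlace fun u => by
      rw [toPlace_finMap (w' := comapPlace (σ : L →+* L) u) rfl]
      rcases eq_or_ne u w with rfl | hu
      · have : ∀ (u' : FinPlace L) (h' : comapPlace (σ : L →+* L) u = u'), u' = u →
            placeIso σ h' (toPlace u' (single u a)) = toPlace u (single u a) := by
          intro u' h' e
          subst e
          rw [toPlace_single_same]
          exact ha
        exact this _ rfl h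
      · have hne : comapPlace (σ : L →+* L) u ≠ w := fun e =>
          hu ((placeEquiv σ).injective (e.trans h.symm))
        rw [toPlace_single_ne hne, map_zero, toPlace_single_ne hu]
    obtain ⟨y, hy⟩ := exists_finExtend_eq hfix hpow hx
    exact ⟨toPlace v y, by rw [← toPlace_finExtend hv, hy, toPlace_single_same]⟩
  · rintro ⟨b, rfl⟩
    have e : (σ : L →+* L).comp ι = ι := RingHom.ext fun x => (hfix _).mpr ⟨x, rfl⟩
    have h'' : comapPlace ((σ : L →+* L).comp ι) w = v := by rw [e]; exact hv
    rw [placeIso_apply, placeMap_comp hv h h'']
    exact placeMap_congr e _ _ b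

end Fermat.Agent.LT.PlaceMatching

end
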