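import Fermat.Agent.LT.PlaceMatching.Fibre
import Fermat.Agent.LT.Geometric.Fibre

/-!
# Local test kernels

`heckeKer` is the kernel of `GL₂(O) diag(π,1) GL₂(O)`; a single one gives `T_v`. At a moved place
it agrees over `K` and over `L`, compatibility is multiplicative, and a local cusp condition gives
the cusp condition.
-/

set_option autoImplicit false

noncomputable section

open IsDedekindDomain NumberField Matrix

namespace Fermat.Agent.LT.PlaceMatching

open Places Matching CubicDescent
open Fermat.Agent.LT.Geometric (IsCubic)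

universe u u'

section Local

variable {F : Type u} [Field F] [NumberField F] {I : Ideal (𝓞 F)}

variable (I) in
/-- `U_v diag(π,1) U_v`. -/
def localHeckeSet (v : FinPlace F) : Set (GL (Fin 2) (v.adicCompletion F)) :=
  {g | ∃ a ∈ locLevel I v, ∃ b ∈ locLevel I v, g = a * piDia v * b}

theorem scalar_mem_locLevel {v : FinPlace F} (c : (v.adicCompletion F)ˣ) :
    scalarUnit c ∈ locLevel I v := ⟨c, 1, one_mem _, by rw [map_one, mul_one]⟩

theorem mul_mem_localHeckeSet {v : FinPlace F} {a b g : GL (Fin 2) (v.adicCompletion F)}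
    (ha : a ∈ locLevel I v) (hb : b ∈ locLevel I v) :
    a * g * b ∈ localHeckeSet I v ↔ g ∈ localHeckeSet I v := by
  constructor
  · rintro ⟨c, hc, d, hd, e⟩
    exact ⟨a⁻¹ * c, mul_mem (inv_mem ha) hc, d * b⁻¹, mul_mem hd (inv_mem hb), by
      rw [show a⁻¹ * c * piDia v * (d * b⁻¹) = a⁻¹ * (c * piDia v * d) * b⁻¹ by group, ← e]; group⟩
  · rintro ⟨c, hc, d, hd, rfl⟩
    exact ⟨a * c, mul_mem ha hc, d * b, mul_mem hd hb, by group⟩

theorem mem_localHeckeSet_iff {v : FinPlace F} (htop : locIdeal I v = ⊤)
    {g : GL (Fin 2) (v.adicCompletion F)} :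
    g ∈ localHeckeSet I v ↔ ∃ r, (rep v r)⁻¹ * g ∈ locLevel I v := by
  constructor
  · rintro ⟨_, ⟨c, u, -, rfl⟩, b, hb, rfl⟩
    obtain ⟨r, hr⟩ := Places.exists_rep v (coeUnit_mem_intGroup u)
    refine ⟨r, ?_⟩
    rw [show (rep v r)⁻¹ * (scalarUnit c * coeUnit (intRing v) u * piDia v * b) =
      scalarUnit c * ((rep v r)⁻¹ * (coeUnit (intRing v) u * piDia v)) * b by
        rw [← mul_assoc (scalarUnit c), scalarUnit_comm c (rep v r)⁻¹]; simp only [mul_assoc]]
    exact mul_mem (mul_mem (scalar_mem_locLevel c) (intGroup_le_locLevel htop hr)) hb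
  · rintro ⟨r, hr⟩
    have hw := intGroup_le_locLevel htop (swapGL_mem v)
    cases r with
    | none =>
      refine ⟨swapGL v, hw, swapGL v * ((rep v none)⁻¹ * g), mul_mem hw hr, ?_⟩
      simp only [rep]; group
    | some r =>
      refine ⟨unip (resLift v r), intGroup_le_locLevel htop (unip_mem (valued_resLift v r)),
        (rep v (some r))⁻¹ * g, hr, ?_⟩
      simp only [rep]; group

open Classical in
/-- The local kernel of `T_v`. -/
def heckeKer {v : FinPlace F} (htop : locIdeal I v = ⊤) : LocKer I v where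
  toFun := Quotient.lift₂ (fun a b => if a⁻¹ * b ∈ localHeckeSet I v then (1 : ℂ) else 0)
    (fun a b a' b' ha hb => by
      have ha' : a⁻¹ * a' ∈ locLevel I v := QuotientGroup.leftRel_apply.mp ha
      have hb' : b⁻¹ * b' ∈ locLevel I v := QuotientGroup.leftRel_apply.mp hb
      refine if_congr ?_ rfl rfl
      rw [show a'⁻¹ * b' = (a⁻¹ * a')⁻¹ * (a⁻¹ * b) * (b⁻¹ * b') by group]
      exact (mul_mem_localHeckeSet (inv_mem ha') hb').symm)
  smul' g a b := by
    induction a using QuotientGroup.induction_on with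
    | _ a =>
      induction b using QuotientGroup.induction_on with
      | _ b =>
        show (if (g * a)⁻¹ * (g * b) ∈ _ then _ else _) = if a⁻¹ * b ∈ _ then _ else _
        exact if_congr (by rw [show (g * a)⁻¹ * (g * b) = a⁻¹ * b by group]) rfl rfl
  finite' a := by
    induction a using QuotientGroup.induction_on with
    | _ a =>
      refine (Set.finite_range fun r =>
        (QuotientGroup.mk (a * rep v r) : LocCosets I v)).subset fun b hb => ?_
      induction b using QuotientGroup.induction_on with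
      | _ b =>
        have hb' : a⁻¹ * b ∈ localHeckeSet I v := by_contra fun h => hb (if_neg h)
        obtain ⟨r, hr⟩ := (mem_localHeckeSet_iff htop).mp hb'
        exact ⟨r, QuotientGroup.eq.mpr (by rwa [_root_.mul_inv_rev, mul_assoc])⟩

open Classical in
theorem heckeKer_mk {v : FinPlace F} (htop : locIdeal I v = ⊤)
    (a b : GL (Fin 2) (v.adicCompletion F)) :
    (heckeKer htop).toFun (QuotientGroup.mk a) (QuotientGroup.mk b) =
      if a⁻¹ * b ∈ localHeckeSet I v then 1 else 0 := rfl

open Classical in
/-- One nontrivial kernel. -/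
def KerFam.single (v : FinPlace F) (k : LocKer I v) : KerFam I where
  ker w := if h : w = v then h.symm ▸ k else 1
  finite' := (Set.finite_singleton v).subset fun w hw => by
    by_contra h
    exact hw (dif_neg h)

theorem KerFam.single_same (v : FinPlace F) (k : LocKer I v) : (KerFam.single v k).ker v = k :=
  dif_pos rfl

theorem KerFam.single_ne {v w : FinPlace F} (h : w ≠ v) (k : LocKer I v) :
    (KerFam.single v k).ker w = 1 :=
  dif_neg h

variable {hI : ∃ N : ℕ, 0 < N ∧ (N : 𝓞 F) ∈ I}

/-- A single local kernel is `T_v`. -/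
theorem hecke_single_heckeKer {v : FinPlace F} (htop : locIdeal I v = ⊤)
    (hU : IsGoodAt (Level.ofIdeal F I hI) v) :
    (KerFam.single v (heckeKer htop)).hecke hI = heckeAt (Level.ofIdeal F I hI) v hU := by
  classical
  refine HeckeFn.ext_toFun fun g => ?_
  show (KerFam.single v (heckeKer htop)).prod hI (QuotientGroup.mk 1) (QuotientGroup.mk g) =
    if g ∈ heckeSet (Level.ofIdeal F I hI) v then 1 else 0
  have key : g ∈ heckeSet (Level.ofIdeal F I hI) v ↔
      glPlace v g ∈ localHeckeSet I v ∧ ∀ w, w ≠ v → glPlace w g ∈ locLevel I w := by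
    rw [mem_heckeSet_iff hU, mem_localHeckeSet_iff htop]
    constructor
    · rintro ⟨r, hr⟩
      rw [mem_ofIdeal_iff_forall] at hr
      refine ⟨⟨r, ?_⟩, fun w hw => ?_⟩
      · have := hr v
        rwa [map_mul, map_inv, glPlace_localGL_same] at this
      · have := hr w
        rwa [map_mul, map_inv, glPlace_localGL_ne hw, inv_one, one_mul] at this
    · rintro ⟨⟨r, hr⟩, hw⟩
      refine ⟨r, (mem_ofIdeal_iff_forall hI).mpr fun w => ?_⟩
      rcases eq_or_ne w v with rfl | h
      · rwa [map_mul, map_inv, glPlace_localGL_same]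
      · rw [map_mul, map_inv, glPlace_localGL_ne h, inv_one, one_mul]; exact hw w h
  have hone : ∀ w, w ≠ v → ((KerFam.single v (heckeKer htop)).ker w).toFun
      (comp w (QuotientGroup.mk 1 : KerFam.Cst hI)) (comp w (QuotientGroup.mk g : KerFam.Cst hI)) =
        if glPlace w g ∈ locLevel I w then 1 else 0 := fun w hw => by
    rw [KerFam.single_ne hw, comp_mk, comp_mk, map_one]
    by_cases h : glPlace w g ∈ locLevel I w
    · rw [if_pos h, ← show (QuotientGroup.mk 1 : LocCosets I w) = QuotientGroup.mk (glPlace w g) from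
        QuotientGroup.eq.mpr (by simpa using h), LocKer.one_same]
    · rw [if_neg h]
      exact LocKer.one_ne fun e => h (by simpa using QuotientGroup.eq.mp e)
  by_cases hg : g ∈ heckeSet (Level.ofIdeal F I hI) v
  · rw [if_pos hg]
    obtain ⟨hv, hw⟩ := key.mp hg
    refine finprod_eq_one_of_forall_eq_one fun w => ?_
    rcases eq_or_ne w v with rfl | h
    · rw [KerFam.single_same, comp_mk, comp_mk, map_one, heckeKer_mk, inv_one, one_mul, if_pos hv]
    · rw [hone w h, if_pos (hw w h)]
  · rw [if_neg hg]
    by_contra hne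
    replace hne := (KerFam.prod_ne_zero_iff _ _ _).mp hne
    refine hg (key.mpr ⟨by_contra fun h => hne v ?_, fun w hw => by_contra fun h => hne w ?_⟩)
    · rw [KerFam.single_same, comp_mk, comp_mk, map_one, heckeKer_mk, inv_one, one_mul, if_neg h]
    · rw [hone w hw, if_neg h]

end Local

variable {K : Type u} {L : Type u'} [Field K] [NumberField K] [Field L] [NumberField L]
  {ι : K →+* L} {σ : L ≃+* L} {I : Ideal (𝓞 L)} {J : Ideal (𝓞 K)}
  {hm : LevelsMatch ι σ I J} {hc : IsCubic ι σ} {s : PlaceSection ι}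

theorem compatible_one : Compatible hm hc s (fun _ => (1 : KerFam J)) (1 : KerFam I) where
  moved v i _ a b := by
    by_cases h : a = b
    · subst h; simp [LocKer.one_same]
    · rw [KerFam.one_ker, KerFam.one_ker, LocKer.one_ne h,
        LocKer.one_ne fun e => h (baseLoc_injective hm hc _ e)]
  fixed _ _ := rfl
  fixedK _ _ _ := rfl

/-- Compatibility is multiplicative. -/
theorem Compatible.mul {k k' : Fin 3 → KerFam J} {kL kL' : KerFam I}
    (h : Compatible hm hc s k kL) (h' : Compatible hm hc s k' kL') :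
    Compatible hm hc s (fun i => k i * k' i) (kL * kL') where
  moved v i hv a c := by
    classical
    have hb : Function.Bijective (baseLoc hm (s.pl_over hc v i)) :=
      ⟨baseLoc_injective hm hc _, baseLoc_surjective hm hc (s.moved_pl hc hv i) _⟩
    rw [KerFam.mul_ker, KerFam.mul_ker, LocKer.mul_toFun, LocKer.mul_toFun]
    have e : (kL.ker (s.pl σ v i)).row (baseLoc hm (s.pl_over hc v i) a) =
        (((k i).ker v).row a).image (baseLoc hm (s.pl_over hc v i)) := by
      ext b
      obtain ⟨b₀, rfl⟩ := hb.2 b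
      rw [LocKer.mem_row, h.moved v i hv, Finset.mem_image]
      exact ⟨fun hne => ⟨b₀, LocKer.mem_row.mpr hne, rfl⟩,
        fun ⟨b', hb', e⟩ => hb.1 e ▸ LocKer.mem_row.mp hb'⟩
    rw [e, Finset.sum_image hb.1.injOn]
    exact Finset.sum_congr rfl fun b _ => by rw [h.moved v i hv, h'.moved v i hv]
  fixed v hv := by rw [KerFam.mul_ker, h.fixed v hv, h'.fixed v hv, KerFam.one_mul_one]
  fixedK v i hv := by rw [KerFam.mul_ker, h.fixedK v i hv, h'.fixedK v i hv, KerFam.one_mul_one]

/-- At a moved place the uniformisers correspond up to units. -/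
theorem exists_piDia_map (hc : IsCubic ι σ) {w : FinPlace L} {v : FinPlace K}
    (hw : comapPlace (σ : L →+* L) w ≠ w) (hv : comapPlace ι w = v) :
    ∃ e ∈ intGroup w, baseUnit (placeMap ι hv) (piDia v) = piDia w * e := by
  set p : (w.adicCompletion L)ˣ := Units.map (placeMap ι hv).toMonoidHom (piLocal v) with hp
  set u := (piLocal w)⁻¹ * p with hu
  have hvu : Valued.v (u : w.adicCompletion L) = 1 := by
    have hpv : Valued.v (p : w.adicCompletion L) = WithZero.exp (-1 : ℤ) := by
      rw [hp, Units.coe_map, RingHom.toMonoidHom_eq_coe, MonoidHom.coe_coe,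
        valued_placeMap_of_moved hc hw hv, valued_piLocal]
    rw [hu, Units.val_mul, map_mul, Units.val_inv_eq_inv_val, map_inv₀, valued_piLocal, hpv,
      inv_mul_cancel₀ WithZero.exp_ne_zero]
  refine ⟨dia u, mem_intGroup_iff.mpr ⟨fun i j => ?_, by simp [dia, Matrix.det_fin_two, hvu]⟩,
    Units.ext (Matrix.ext fun i j => ?_)⟩
  · fin_cases i <;> fin_cases j <;> simp [dia, hvu]
  · have e : (piLocal w : w.adicCompletion L) * (u : w.adicCompletion L) =
        placeMap ι hv (piLocal v) := by
      rw [hu, Units.val_mul, ← mul_assoc, ← Units.val_mul, mul_inv_cancel, Units.val_one, one_mul]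
      rfl
    fin_cases i <;> fin_cases j <;>
      simp [piDia, dia, Matrix.mul_apply, Fin.sum_univ_two, e]

/-- `T` at a moved place agrees over `K` and over `L`. -/
theorem heckeKer_baseLoc (hm : LevelsMatch ι σ I J) (hc : IsCubic ι σ) {w : FinPlace L}
    {v : FinPlace K} (hw : comapPlace (σ : L →+* L) w ≠ w) (hv : comapPlace ι w = v)
    (hI : locIdeal I w = ⊤) (hJ : locIdeal J v = ⊤) (a b : LocCosets J v) :
    (heckeKer hI).toFun (baseLoc hm hv a) (baseLoc hm hv b) = (heckeKer hJ).toFun a b := by
  classical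
  induction a using QuotientGroup.induction_on with
  | _ a =>
    induction b using QuotientGroup.induction_on with
    | _ b =>
      rw [baseLoc_mk, baseLoc_mk, heckeKer_mk, heckeKer_mk, ← map_inv, ← map_mul]
      refine if_congr ?_ rfl rfl
      generalize a⁻¹ * b = g
      obtain ⟨e, he, hpe⟩ := exists_piDia_map hc hw hv
      have hsur : Function.Surjective (baseUnit (placeMap ι hv)) := fun y =>
        ⟨baseUnit (RingEquiv.ofBijective _ (placeMap_bijective_of_moved hc hw hv)).symm.toRingHom y,
          Units.ext (Matrix.ext fun i j => (RingEquiv.ofBijective (placeMap ι hv)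
            (placeMap_bijective_of_moved hc hw hv)).apply_symm_apply _)⟩
      constructor
      · rintro ⟨c, hc', d, hd, heq⟩
        obtain ⟨c₀, rfl⟩ := hsur c
        obtain ⟨d₀, hd₀⟩ := hsur (e⁻¹ * d)
        refine ⟨c₀, hm.comap_level hc hv hc', d₀, hm.comap_level hc hv ?_,
          baseUnit_injective (placeMap ι hv) ?_⟩
        · rw [hd₀]; exact mul_mem (inv_mem (intGroup_le_locLevel hI he)) hd
        · rw [map_mul, map_mul, hd₀, hpe, heq]; group
      · rintro ⟨c, hc', d, hd, rfl⟩
        refine ⟨_, hm.map_level hv hc', e * baseUnit (placeMap ι hv) d,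
          mul_mem (intGroup_le_locLevel hI he) (hm.map_level hv hd), ?_⟩
        rw [map_mul, map_mul, hpe]; group

/-- `T` at one place over a moved place. -/
theorem compatible_single {v₀ : FinPlace K} (hv₀ : s.Moved σ v₀) (i₀ : Fin 3)
    (hI : locIdeal I (s.pl σ v₀ i₀) = ⊤) (hJ : locIdeal J v₀ = ⊤) :
    Compatible hm hc s
      (fun i => if i = i₀ then KerFam.single v₀ (heckeKer hJ) else 1)
      (KerFam.single (s.pl σ v₀ i₀) (heckeKer hI)) where
  moved v i hv a b := by
    by_cases h : v = v₀ ∧ i = i₀
    · obtain ⟨rfl, rfl⟩ := h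
      rw [KerFam.single_same, if_pos rfl, KerFam.single_same]
      exact heckeKer_baseLoc hm hc (s.moved_pl hc hv i) _ hI hJ a b
    · have hne : s.pl σ v i ≠ s.pl σ v₀ i₀ := fun e => by
        have hvv : v = v₀ := by rw [← s.pl_over hc v i, e, s.pl_over hc v₀ i₀]
        subst hvv
        exact h ⟨rfl, s.pl_injective hc hv e⟩
      have hK : ((if i = i₀ then KerFam.single v₀ (heckeKer hJ) else 1 : KerFam J)).ker v = 1 := by
        split_ifs with hi
        · exact KerFam.single_ne (fun hv' => h ⟨hv', hi⟩) _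
        · rfl
      rw [KerFam.single_ne hne, hK]
      exact (compatible_one (hm := hm) (hc := hc) (s := s)).moved v i hv a b
  fixed v hv := KerFam.single_ne (fun e => hv (by
    have hvv : v = v₀ := by rw [← s.over v, e, s.pl_over hc v₀ i₀]
    exact hvv ▸ hv₀)) _
  fixedK v i hv := by
    split_ifs
    · exact KerFam.single_ne (fun e : v = v₀ => hv (e.symm ▸ hv₀)) _
    · rfl

end Fermat.Agent.LT.PlaceMatching

end
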