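import Fermat.Agent.LT.PlaceMatching.LocalRing
import Fermat.Agent.LT.Places.HeckeSetup
import Fermat.Agent.LT.Matching.Level

/-!
# Cosets of the level of an ideal, place by place

`GL₂(A_f) / (scalars · K(I))` is the restricted product over the places of the local coset spaces
`PGL₂(F_v) / U_{I,v}`: `comp` gives the components, `coset_ext` injectivity and `exists_comp`
surjectivity.
-/

set_option autoImplicit false

noncomputable section

open IsDedekindDomain NumberField WithZero Matrix

namespace Fermat.Agent.LT.PlaceMatching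

open Places Matching
open CubicDescent (scalarUnit)

variable {F : Type*} [Field F] [NumberField F]

/-- The integers of `F` in the completion. -/
def toInt (v : FinPlace F) : 𝓞 F →+* intRing v :=
  ((algebraMap F (v.adicCompletion F)).comp (algebraMap (𝓞 F) F)).codRestrict (intRing v) fun o =>
    mem_intRing.mpr ((HeightOneSpectrum.valuedAdicCompletion_eq_valuation' v _).trans_le
      (v.valuation_le_one o))

/-- `toInt` is the canonical map to the completion. -/
@[simp] theorem coe_toInt (v : FinPlace F) (o : 𝓞 F) :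
    (toInt v o : v.adicCompletion F) = algebraMap F (v.adicCompletion F) (o : F) := rfl

/-- `toInt` preserves the valuation. -/
theorem valued_toInt (v : FinPlace F) (o : 𝓞 F) :
    Valued.v (toInt v o : v.adicCompletion F) = v.valuation F (o : F) :=
  HeightOneSpectrum.valuedAdicCompletion_eq_valuation' v _

theorem isUnit_toInt {v : FinPlace F} {o : 𝓞 F} (h : o ∉ v.asIdeal) : IsUnit (toInt v o) := by
  rw [isUnit_iff_valued, valued_toInt]
  exact (HeightOneSpectrum.valuation_eq_one_iff_notMem (K := F) v).mpr h

/-- The ideal generated by `I` in the completion. -/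
def locIdeal (I : Ideal (𝓞 F)) (v : FinPlace F) : Ideal (intRing v) := I.map (toInt v)

/-- The local ideal is trivial away from the divisors of `I`. -/
theorem locIdeal_eq_top {I : Ideal (𝓞 F)} {v : FinPlace F} (h : ¬ I ≤ v.asIdeal) :
    locIdeal I v = ⊤ := by
  obtain ⟨c, hcI, hcv⟩ := SetLike.not_le_iff_exists.1 h
  exact Ideal.eq_top_of_isUnit_mem _ (Ideal.mem_map_of_mem _ hcI) (isUnit_toInt hcv)

/-- Only finitely many places have a nontrivial local ideal. -/
theorem finite_le (I : Ideal (𝓞 F)) (hI : ∃ N : ℕ, 0 < N ∧ (N : 𝓞 F) ∈ I) :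
    {v : FinPlace F | locIdeal I v ≠ ⊤}.Finite := by
  obtain ⟨N, hN, hNI⟩ := hI
  refine (finite_natCast N hN).subset fun v hv h1 => hv ?_
  refine locIdeal_eq_top fun hle => ?_
  rw [← map_natCast (algebraMap (𝓞 F) F), HeightOneSpectrum.valuation_eq_one_iff_notMem] at h1
  exact h1 (hle hNI)

/-- An integer in every completed ideal lies in the ideal. -/
theorem mem_of_forall_toInt_mem {I : Ideal (𝓞 F)} {o : 𝓞 F}
    (h : ∀ v : FinPlace F, toInt v o ∈ locIdeal I v) : o ∈ I := by
  by_contra ho
  have hne : Submodule.colon I {o} ≠ ⊤ := fun e => ho (by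
    have h1 : (1 : 𝓞 F) ∈ Submodule.colon I {o} := by rw [e]; exact Submodule.mem_top
    simpa [Submodule.mem_colon_singleton] using h1)
  obtain ⟨m, hm, hle⟩ := Ideal.exists_le_maximal _ hne
  have ho0 : o ≠ 0 := fun e => ho (e ▸ I.zero_mem)
  have hm0 : m ≠ ⊥ := Ring.ne_bot_of_isMaximal_of_not_isField hm (RingOfIntegers.not_isField F)
  let v : FinPlace F := ⟨m, hm.isPrime, hm0⟩
  have hex : ∃ i ∈ I, v.valuation F (o : F) ≤ v.valuation F (i : F) := by
    by_contra hno
    simp only [not_exists, not_and, not_le] at hno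
    have hsub : ∀ a ∈ locIdeal I v,
        Valued.v (a : v.adicCompletion F) < v.valuation F (o : F) := by
      intro a ha
      induction ha using Submodule.span_induction with
      | mem x hx =>
        obtain ⟨i, hi, rfl⟩ := hx
        rw [valued_toInt]
        exact hno i hi
      | zero =>
        rw [ZeroMemClass.coe_zero, map_zero]
        exact zero_lt_iff.mpr ((Valuation.ne_zero_iff _).mpr
          (RingOfIntegers.coe_ne_zero_iff.mpr ho0))
      | add x y _ _ hx hy => exact Valued.v.map_add_lt hx hy
      | smul r x _ hx =>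
        rw [smul_eq_mul, Subring.coe_mul, map_mul]
        exact (mul_le_of_le_one_left' (mem_intRing.mp r.2)).trans_lt hx
    exact (valued_toInt v o ▸ hsub _ (h v) :
      v.valuation F (o : F) < v.valuation F (o : F)).false
  obtain ⟨i, hi, hio⟩ := hex
  rcases eq_or_ne i 0 with rfl | hi0
  · rw [RingOfIntegers.coe_eq_algebraMap, RingOfIntegers.coe_eq_algebraMap, map_zero, map_zero,
      le_zero_iff, Valuation.zero_iff, map_eq_zero_iff _ RingOfIntegers.coe_injective] at hio
    exact ho0 hio
  have hiF : (i : F) ≠ 0 := RingOfIntegers.coe_ne_zero_iff.mpr hi0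
  obtain ⟨b, s, hs⟩ := v.exists_primeCompl_mul_eq_of_integer ((o : F) / (i : F)) (by
    rw [map_div₀]
    exact (div_le_one₀ (zero_lt_iff.mpr ((Valuation.ne_zero_iff _).mpr hiF))).mpr hio)
  refine s.2 (hle (Submodule.mem_colon_singleton.mpr ?_))
  have e : (s : 𝓞 F) * o = i * b := by
    apply RingOfIntegers.coe_injective
    rw [map_mul, map_mul]
    rw [show algebraMap (𝓞 F) F b = (o : F) / (i : F) * algebraMap (𝓞 F) F (s : 𝓞 F) from hs.symm,
      ← RingOfIntegers.coe_eq_algebraMap]
    field_simp
  rw [smul_eq_mul, e]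
  exact I.mul_mem_right _ hi

/-- Membership in `I Ô`, place by place. -/
theorem mem_idealAdele_iff {I : Ideal (𝓞 F)} (hI : ∃ N : ℕ, 0 < N ∧ (N : 𝓞 F) ∈ I)
    {x : FinAdele F} :
    x ∈ idealAdele F I ↔
      ∀ v, ∃ a ∈ locIdeal I v, (a : v.adicCompletion F) = toPlace v x := by
  constructor
  · intro hx
    induction hx using AddSubgroup.closure_induction with
    | mem x hx =>
      obtain ⟨o, ho, b, hb, rfl⟩ := hx
      intro v
      exact ⟨toInt v o * ⟨toPlace v b, mem_intRing.mpr (placeVal_le_one v hb)⟩,
        Ideal.mul_mem_right _ _ (Ideal.mem_map_of_mem _ ho), by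
          rw [map_mul, toPlace_finIncl, Subring.coe_mul, coe_toInt]⟩
    | zero => exact fun v => ⟨0, zero_mem _, by simp⟩
    | add x y _ _ hx hy =>
      intro v
      obtain ⟨a, ha, ea⟩ := hx v
      obtain ⟨b, hb, eb⟩ := hy v
      exact ⟨a + b, add_mem ha hb, by rw [Subring.coe_add, ea, eb, map_add]⟩
    | neg x _ hx =>
      intro v
      obtain ⟨a, ha, ea⟩ := hx v
      exact ⟨-a, neg_mem ha, by rw [Subring.coe_neg, ea, map_neg]⟩
  · intro h
    obtain ⟨N, hN, hNI⟩ := hI
    have hx : x ∈ integralAdele F := mem_integralAdele_iff.2 fun v => by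
      obtain ⟨a, -, ea⟩ := h v
      exact (congrArg Valued.v ea).symm.trans_le (mem_intRing.mp a.2)
    obtain ⟨o, y, hy, rfl⟩ := Reduction.exists_integer_add N hN hx
    refine add_mem ?_ (natCast_mul_mem_idealAdele hNI hy)
    have ho : o ∈ I := mem_of_forall_toInt_mem fun v => by
      obtain ⟨a, ha, ea⟩ := h v
      have e : toInt v o = a - (toInt v (N : 𝓞 F)) *
          ⟨toPlace v y, mem_intRing.mpr (placeVal_le_one v hy)⟩ := Subtype.ext (by
        rw [AddSubgroupClass.coe_sub, ea, Subring.coe_mul, coe_toInt, coe_toInt, map_add, map_mul,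
          toPlace_finIncl]
        simp)
      rw [e]
      exact sub_mem ha (Ideal.mul_mem_right _ _ (Ideal.mem_map_of_mem _ hNI))
    exact AddSubgroup.subset_closure ⟨o, ho, 1, one_mem _, (mul_one _).symm⟩

/-! ### Local levels -/

/-- The local component of the level of `I`. -/
abbrev locLevel (I : Ideal (𝓞 F)) (v : FinPlace F) : Subgroup (GL (Fin 2) (v.adicCompletion F)) :=
  levelGroup (intRing v) (locIdeal I v)

/-- The local coset space. -/
abbrev LocCosets (I : Ideal (𝓞 F)) (v : FinPlace F) : Type _ :=
  GL (Fin 2) (v.adicCompletion F) ⧸ locLevel I v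

/-- Invertible integral matrices lie in `intGroup`. -/
theorem coeUnit_mem_intGroup {v : FinPlace F} (u : (Matrix (Fin 2) (Fin 2) (intRing v))ˣ) :
    coeUnit (intRing v) u ∈ intGroup v := by
  refine mem_intGroup_of_inv (fun i j => ?_) fun i j => ?_
  · exact mem_intRing.mp (u.val i j).2
  · rw [← map_inv]
    exact mem_intRing.mp ((u⁻¹).val i j).2

/-- Every element of `intGroup` comes from an invertible integral matrix. -/
theorem exists_coeUnit_eq {v : FinPlace F} {g : GL (Fin 2) (v.adicCompletion F)}
    (hg : g ∈ intGroup v) : ∃ u, coeUnit (intRing v) u = g := by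
  let A : Matrix (Fin 2) (Fin 2) (intRing v) :=
    Matrix.of fun i j => ⟨g.val i j, mem_intRing.mpr (hg.1 i j)⟩
  let B : Matrix (Fin 2) (Fin 2) (intRing v) :=
    Matrix.of fun i j => ⟨(g⁻¹).val i j, mem_intRing.mpr ((inv_mem hg).1 i j)⟩
  have hA : A.map (intRing v).subtype = g.val := Matrix.ext fun i j => rfl
  have hB : B.map (intRing v).subtype = (g⁻¹).val := Matrix.ext fun i j => rfl
  have hinj : Function.Injective
      ((intRing v).subtype.mapMatrix : Matrix (Fin 2) (Fin 2) (intRing v) → _) :=
    Matrix.map_injective Subtype.val_injective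
  refine ⟨⟨A, B, hinj ?_, hinj ?_⟩, Units.ext hA⟩
  · rw [map_mul, map_one, RingHom.mapMatrix_apply, RingHom.mapMatrix_apply, hA, hB, Units.mul_inv]
  · rw [map_mul, map_one, RingHom.mapMatrix_apply, RingHom.mapMatrix_apply, hA, hB, Units.inv_mul]

/-- The local level is all of `intGroup` when the local ideal is trivial. -/
theorem intGroup_le_locLevel {I : Ideal (𝓞 F)} {v : FinPlace F} (h : locIdeal I v = ⊤)
    {g : GL (Fin 2) (v.adicCompletion F)} (hg : g ∈ intGroup v) : g ∈ locLevel I v := by
  obtain ⟨u, rfl⟩ := exists_coeUnit_eq hg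
  exact coeUnit_mem_levelGroup (mem_congrLevel.mpr fun i j => by rw [h]; exact Submodule.mem_top)

/-- An adelic matrix is integral at almost all places. -/
theorem finite_not_intGroup (g : GLFin F) :
    {v : FinPlace F | glPlace v g ∉ intGroup v}.Finite := by
  refine ((Set.finite_iUnion fun p : Fin 2 × Fin 2 => finite_placeVal (g.val p.1 p.2)).union
    (Set.finite_iUnion fun p : Fin 2 × Fin 2 => finite_placeVal ((g⁻¹).val p.1 p.2))).subset
      fun v hv => ?_
  by_contra hc
  simp only [Set.mem_union, Set.mem_iUnion, Set.mem_ofPred_eq, not_or, not_exists, not_lt] at hc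
  refine hv (mem_intGroup_of_inv (fun i j => hc.1 (i, j)) fun i j => ?_)
  rw [← map_inv]
  exact hc.2 (i, j)

/-- The local components of an adelic scalar. -/
theorem glPlace_scalarFin (v : FinPlace F) (a : (FinAdele F)ˣ) :
    glPlace v (scalarFin F a) = scalarUnit (Units.map (toPlace v).toMonoidHom a) :=
  Units.ext (Matrix.ext fun i j => by
    rw [glPlace_scalarFin_apply]
    by_cases h : i = j
    · subst h; simp [scalarUnit]
    · simp [scalarUnit, h])

/-- Scalars multiply the valuation of the determinant by a square. -/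
theorem valued_det_scalarUnit {v : FinPlace F} (c : (v.adicCompletion F)ˣ)
    (g : GL (Fin 2) (v.adicCompletion F)) :
    Valued.v (scalarUnit c * g).val.det = Valued.v (c : v.adicCompletion F) ^ 2 *
      Valued.v g.val.det := by
  rw [Units.val_mul, Matrix.det_mul, map_mul, CubicDescent.det_scalarUnit, map_pow]

/-- The level of an ideal, place by place. -/
theorem mem_ofIdeal_iff_forall {I : Ideal (𝓞 F)} (hI : ∃ N : ℕ, 0 < N ∧ (N : 𝓞 F) ∈ I)
    {g : GLFin F} :
    g ∈ (Level.ofIdeal F I hI).toSubgroup ↔ ∀ v, glPlace v g ∈ locLevel I v := by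
  constructor
  · rintro ⟨a, k, hk, rfl⟩ v
    have hkv : glPlace v k ∈ intGroup v :=
      intGL_iff.1 (Reduction.intGL_of_isPrincipal hk.1) v
    obtain ⟨u, hu⟩ := exists_coeUnit_eq hkv
    refine ⟨Units.map (toPlace v).toMonoidHom a, u, mem_congrLevel.mpr fun i j => ?_, by
      rw [map_mul, glPlace_scalarFin, hu]⟩
    obtain ⟨b, hb, eb⟩ := (mem_idealAdele_iff hI).1 (hk.2 i j) v
    convert hb using 1
    refine Subtype.ext ?_
    rw [eb, AddSubgroupClass.coe_sub, map_sub, ← glPlace_apply, ← hu]
    by_cases hij : i = j <;> simp [hij, Matrix.one_apply]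
  · intro h
    choose c u hu hg using h
    have hval : ∀ v, glPlace v g ∈ intGroup v → Valued.v (c v : v.adicCompletion F) = 1 := by
      intro v hv
      have h1 := congrArg (fun m : GL (Fin 2) (v.adicCompletion F) => Valued.v m.val.det) (hg v)
      rw [hv.2, valued_det_scalarUnit, (coeUnit_mem_intGroup (u v)).2, mul_one] at h1
      exact (pow_eq_one_iff_of_nonneg zero_le two_ne_zero).mp h1.symm
    have hfin : {v : FinPlace F | Valued.v (c v : v.adicCompletion F) ≠ 1}.Finite :=
      (finite_not_intGroup g).subset fun v hv hint => hv (hval v hint)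
    set x := adeleOf (fun v => (c v : v.adicCompletion F)) (hfin.subset fun v hv => by
      exact ne_of_gt hv) with hx
    have hxu : IsUnit x := isUnit_of_placeVal (fun v => by
        rw [hx, toPlace_adeleOf]; exact (c v).ne_zero)
      (hfin.subset fun v hv => by simpa [placeVal, hx, toPlace_adeleOf] using hv)
    have hk : ∀ v, glPlace v ((scalarFin F hxu.unit)⁻¹ * g) = coeUnit (intRing v) (u v) := by
      intro v
      rw [map_mul, map_inv, glPlace_scalarFin, inv_mul_eq_iff_eq_mul, hg v]
      congr 2
      refine Units.ext ?_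
      show (c v : v.adicCompletion F) = toPlace v (hxu.unit : FinAdele F)
      rw [IsUnit.unit_spec, hx, toPlace_adeleOf]
    have hint : Reduction.IntGL ((scalarFin F hxu.unit)⁻¹ * g) :=
      intGL_iff.2 fun v => by rw [hk]; exact coeUnit_mem_intGroup _
    refine ⟨hxu.unit, _, ⟨?_, fun i j => ?_⟩, (mul_inv_cancel_left _ g).symm⟩
    · refine (isPrincipal_iff one_pos).2 fun v i j => ?_
      have h1 : ∀ m ∈ intGroup v, Valued.v ((m : GL (Fin 2) (v.adicCompletion F)).val i j -
          (1 : Matrix (Fin 2) (Fin 2) (v.adicCompletion F)) i j) ≤ v.valuation F ((1 : ℕ) : F) := by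
        intro m hm
        rw [Nat.cast_one, map_one]
        exact (Valued.v.map_sub _ _).trans (max_le (hm.1 i j) ((one_mem (intGroup v)).1 i j))
      exact ⟨h1 _ (intGL_iff.1 hint v), h1 _ (by rw [map_inv]; exact inv_mem (intGL_iff.1 hint v))⟩
    · refine (mem_idealAdele_iff hI).2 fun v =>
        ⟨_, mem_congrLevel.mp (hu v) i j, ?_⟩
      rw [map_sub, ← glPlace_apply, hk, AddSubgroupClass.coe_sub]
      by_cases hij : i = j <;> simp [hij, Matrix.one_apply]

/-- A family of local matrices, integral almost everywhere, comes from an adelic matrix. -/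
theorem exists_glPlace_eq (g : ∀ v : FinPlace F, GL (Fin 2) (v.adicCompletion F))
    (h : {v | g v ∉ intGroup v}.Finite) : ∃ G : GLFin F, ∀ v, glPlace v G = g v := by
  have hent : ∀ i j, {v : FinPlace F | 1 < Valued.v ((g v).val i j)}.Finite := fun i j =>
    h.subset fun v hv hint => not_le.mpr hv (hint.1 i j)
  have hent' : ∀ i j, {v : FinPlace F | 1 < Valued.v ((g v)⁻¹.val i j)}.Finite := fun i j =>
    h.subset fun v hv hint => not_le.mpr hv ((inv_mem hint).1 i j)
  let A : Matrix (Fin 2) (Fin 2) (FinAdele F) :=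
    Matrix.of fun i j => adeleOf (fun v => (g v).val i j) (hent i j)
  let B : Matrix (Fin 2) (Fin 2) (FinAdele F) :=
    Matrix.of fun i j => adeleOf (fun v => (g v)⁻¹.val i j) (hent' i j)
  have hA : ∀ v, A.map (toPlace v) = (g v).val := fun v => Matrix.ext fun i j =>
    toPlace_adeleOf (fun v => (g v).val i j) (hent i j) v
  have hB : ∀ v, B.map (toPlace v) = (g v)⁻¹.val := fun v => Matrix.ext fun i j =>
    toPlace_adeleOf (fun v => (g v)⁻¹.val i j) (hent' i j) v
  refine ⟨⟨A, B, mat_ext fun v i j => ?_, mat_ext fun v i j => ?_⟩, fun v => Units.ext (hA v)⟩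
  · rw [show toPlace v ((A * B) i j) = ((A * B).map (toPlace v)) i j from rfl, Matrix.map_mul,
      hA, hB, Units.mul_inv, Matrix.one_apply, Matrix.one_apply]
    split <;> simp
  · rw [show toPlace v ((B * A) i j) = ((B * A).map (toPlace v)) i j from rfl, Matrix.map_mul,
      hA, hB, Units.inv_mul, Matrix.one_apply, Matrix.one_apply]
    split <;> simp

/-! ### Components of cosets -/

variable {I : Ideal (𝓞 F)} {hI : ∃ N : ℕ, 0 < N ∧ (N : 𝓞 F) ∈ I}

/-- The component of a coset. -/
def comp (v : FinPlace F) :
    GLFin F ⧸ (Level.ofIdeal F I hI).toSubgroup → LocCosets I v :=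
  Quotient.map' (glPlace v) fun a b h => by
    rw [QuotientGroup.leftRel_apply] at h ⊢
    simpa using (mem_ofIdeal_iff_forall hI).1 h v

/-- The component of the class of `g` is the class of its component. -/
@[simp] theorem comp_mk (v : FinPlace F) (g : GLFin F) :
    comp v (QuotientGroup.mk g : GLFin F ⧸ (Level.ofIdeal F I hI).toSubgroup) =
      (QuotientGroup.mk (glPlace v g) : LocCosets I v) := rfl

/-- The components are equivariant. -/
theorem comp_smul (v : FinPlace F) (g : GLFin F)
    (c : GLFin F ⧸ (Level.ofIdeal F I hI).toSubgroup) :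
    comp v (g • c) = glPlace v g • comp v c := by
  induction c using QuotientGroup.induction_on with
  | _ x => rw [MulAction.Quotient.smul_mk, smul_eq_mul, comp_mk, comp_mk, map_mul,
      MulAction.Quotient.smul_mk, smul_eq_mul]

/-- A coset is determined by its components. -/
theorem coset_ext {c d : GLFin F ⧸ (Level.ofIdeal F I hI).toSubgroup}
    (h : ∀ v, comp v c = comp v d) : c = d := by
  induction c using QuotientGroup.induction_on with
  | _ x =>
    induction d using QuotientGroup.induction_on with
    | _ y =>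
      rw [QuotientGroup.eq, mem_ofIdeal_iff_forall]
      intro v
      have := h v
      rw [comp_mk, comp_mk, QuotientGroup.eq] at this
      rwa [map_mul, map_inv]

/-- Almost all components of a coset are trivial. -/
theorem finite_comp_ne_one (c : GLFin F ⧸ (Level.ofIdeal F I hI).toSubgroup) :
    {v | comp v c ≠ (QuotientGroup.mk 1 : LocCosets I v)}.Finite := by
  induction c using QuotientGroup.induction_on with
  | _ x =>
    refine ((finite_le I hI).union (finite_not_intGroup x)).subset fun v hv => ?_
    by_contra hc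
    simp only [Set.mem_union, Set.mem_ofPred_eq, not_or, not_not] at hc
    refine hv ?_
    rw [comp_mk, QuotientGroup.eq, mul_one]
    exact inv_mem (intGroup_le_locLevel hc.1 hc.2)

/-- Local cosets, trivial almost everywhere, come from a coset. -/
theorem exists_comp (x : ∀ v : FinPlace F, LocCosets I v)
    (h : {v | x v ≠ (QuotientGroup.mk 1 : LocCosets I v)}.Finite) :
    ∃ c : GLFin F ⧸ (Level.ofIdeal F I hI).toSubgroup, ∀ v, comp v c = x v := by
  classical
  let g : ∀ v : FinPlace F, GL (Fin 2) (v.adicCompletion F) := fun v =>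
    if x v = QuotientGroup.mk 1 then 1 else (x v).out
  obtain ⟨G, hG⟩ := exists_glPlace_eq g (h.subset fun v hv hx => hv (by
    rw [show g v = 1 from if_pos hx]; exact one_mem _))
  refine ⟨QuotientGroup.mk G, fun v => ?_⟩
  rw [comp_mk, hG]
  simp only [g]
  split_ifs with hx
  · exact hx.symm
  · exact QuotientGroup.out_eq' _

end Fermat.Agent.LT.PlaceMatching

end
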