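import Fermat.Agent.LT.Reciprocity.Hasse
import Fermat.Agent.LT.PlaceMatching.Maps
import Mathlib.RingTheory.AdjoinRoot
import Mathlib.Algebra.Polynomial.SpecificDegree
import Mathlib.Algebra.Polynomial.Roots
import Mathlib.NumberTheory.NumberField.Basic

/-!
# Cubic norms in `L[C]` for a companion matrix `C`

If `C = (0, -d; 1, t)` is, up to a scalar, the norm of an adelic matrix commuting with it, then
`d C` is the norm of a matrix `p + q C` over `L`, by the Hasse norm theorem in `L(θ)`.
-/

set_option autoImplicit false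

noncomputable section

open Matrix Polynomial
open scoped TensorProduct

namespace Fermat.Agent.LT.PlaceMatching

/-- `p + q C` for the companion matrix `C` of `X² - tX + d`. -/
def quadMat {R : Type*} [CommRing R] (t d p q : R) : Matrix (Fin 2) (Fin 2) R :=
  !![p, -(d * q); q, p + t * q]

/-- The product of `p + q C` and `r + s C`. -/
theorem quadMat_mul {R : Type*} [CommRing R] (t d p q r s : R) :
    quadMat t d p q * quadMat t d r s =
      quadMat t d (p * r - d * (q * s)) (p * s + q * r + t * (q * s)) := by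
  refine Matrix.ext fun i j => ?_
  fin_cases i <;> fin_cases j <;> simp [quadMat, Matrix.mul_apply, Fin.sum_univ_two] <;> ring

/-- Ring maps act on `quadMat` entrywise. -/
theorem quadMat_map {R S : Type*} [CommRing R] [CommRing S] (f : R →+* S) (t d p q : R) :
    (quadMat t d p q).map f = quadMat (f t) (f d) (f p) (f q) := by
  refine Matrix.ext fun i j => ?_
  fin_cases i <;> fin_cases j <;> simp [quadMat]

/-- A matrix commuting with the companion matrix has the shape `p + q C`. -/
theorem eq_quadMat_of_commute {R : Type*} [CommRing R] {t d : R} {X : Matrix (Fin 2) (Fin 2) R}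
    (h : !![0, -d; 1, t] * X = X * !![0, -d; 1, t]) : X = quadMat t d (X 0 0) (X 1 0) := by
  have h1 := congrFun (congrFun h 0) 0
  have h2 := congrFun (congrFun h 1) 0
  simp [Matrix.mul_apply, Fin.sum_univ_two] at h1 h2
  refine Matrix.ext fun i j => ?_
  fin_cases i <;> fin_cases j <;> simp [quadMat]
  · exact h1.symm
  · linear_combination -h2

universe u

variable {L : Type u} [Field L] [NumberField L]

omit [NumberField L] in
theorem finMap_finExtend {E : Type*} [Field E] [NumberField E] (φ : L →+* E) {σ : L ≃+* L}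
    {σ' : E ≃+* E} (h : ∀ a, σ' (φ a) = φ (σ a)) (x : FinAdele L) :
    finMap (σ' : E →+* E) (Places.finExtend φ x) =
      Places.finExtend φ (finMap (σ : L →+* L) x) := by
  induction x using TensorProduct.induction_on with
  | zero => simp
  | tmul a z =>
    rw [Places.finExtend_tmul, finMap_tmul, finMap_tmul, Places.finExtend_tmul]
    exact congrArg (fun e => e ⊗ₜ[ℤ] z) (h a)
  | add a b ha hb => simp only [map_add, ha, hb]

/-- The norm, entrywise. -/
abbrev adeleNorm (σ : L ≃+* L) (W : GLFin L) : GLFin L :=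
  W * (glFinMap (σ : L →+* L) W * glFinMap (σ : L →+* L) (glFinMap (σ : L →+* L) W))

variable {σ : L ≃+* L} {t d : L}

omit [NumberField L] in
/-- The ratio of the roots is an adelic norm, hence a norm. -/
theorem exists_norm_ratio {E : Type*} [Field E] [NumberField E] (φ : L →+* E) {σ' : E ≃+* E}
    (hσ' : σ' ^ 3 = 1) (hne : σ' ≠ 1) (hcomm : ∀ a, σ' (φ a) = φ (σ a))
    (ht : σ t = t) (hd : σ d = d) (hd0 : d ≠ 0) {θ θ' : E} (hθ : σ' θ = θ) (hθ' : σ' θ' = θ')
    (hsum : θ + θ' = φ t) (hprod : θ * θ' = φ d) {W : GLFin L} {a : (FinAdele L)ˣ}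
    (hW : W.val = quadMat (finIncl L t) (finIncl L d) (W.val 0 0) (W.val 1 0))
    (hW' : (W⁻¹).val = quadMat (finIncl L t) (finIncl L d) ((W⁻¹).val 0 0) ((W⁻¹).val 1 0))
    (hN : (adeleNorm σ W).val = (a : FinAdele L) • quadMat (finIncl L t) (finIncl L d) 0 1) :
    ∃ β : E, β * σ' β * σ' (σ' β) * θ' = θ := by
  classical
  set Φ := Places.finExtend φ with hΦ
  set T := finIncl L t
  set D := finIncl L d
  let ev : E → FinAdele L → FinAdele L → FinAdele E := fun r p q => Φ p + Φ q * finIncl E r
  have hroot : ∀ r : E, r = θ ∨ r = θ' → finIncl E r * finIncl E r =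
      Φ T * finIncl E r - Φ D := by
    intro r hr
    have e : r * r = φ t * r - φ d := by
      rcases hr with rfl | rfl
      · linear_combination r * hsum - hprod
      · linear_combination r * hsum - hprod
    rw [← map_mul, e, map_sub, map_mul, hΦ, Places.finExtend_finIncl, Places.finExtend_finIncl]
  have hmul : ∀ r, r = θ ∨ r = θ' → ∀ p q p' q' : FinAdele L,
      ev r (p * p' - D * (q * q')) (p * q' + q * p' + T * (q * q')) = ev r p q * ev r p' q' := by
    intro r hr p q p' q'
    simp only [ev, map_add, map_sub, map_mul]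
    linear_combination -(Φ q * Φ q') * hroot r hr
  set S := finMap (σ : L →+* L) with hS
  have hmapq : ∀ p q, (quadMat T D p q).map S = quadMat T D (S p) (S q) := fun p q => by
    rw [show (quadMat T D p q).map S = (quadMat T D p q).map S.toRingHom from rfl, quadMat_map]
    congr 1
    · exact (finMap_finIncl _ t).trans (congrArg _ ht)
    · exact (finMap_finIncl _ d).trans (congrArg _ hd)
  have hsig : ∀ r, r = θ ∨ r = θ' → ∀ p q,
      finMap (σ' : E →+* E) (ev r p q) = ev r (S p) (S q) := by
    intro r hr p q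
    simp only [ev, map_add, map_mul, hΦ, finMap_finExtend φ hcomm, hS, finMap_finIncl]
    congr 2
    rcases hr with rfl | rfl
    · exact congrArg _ hθ
    · exact congrArg _ hθ'
  set p := W.val 0 0
  set q := W.val 1 0
  set p' := (W⁻¹).val 0 0
  set q' := (W⁻¹).val 1 0
  -- the norm in the two evaluations
  have hval : ∀ r, r = θ ∨ r = θ' →
      ev r p q * (ev r (S p) (S q) * ev r (S (S p)) (S (S q))) =
        Φ (a : FinAdele L) * finIncl E r := by
    intro r hr
    have h1 : (adeleNorm σ W).val = quadMat T D p q *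
        (quadMat T D (S p) (S q) * quadMat T D (S (S p)) (S (S q))) := by
      show W.val * ((W.val.map S) * ((W.val.map S).map S)) = _
      rw [hW, hmapq, hmapq]
    rw [hN, quadMat_mul, quadMat_mul] at h1
    have e0 := congrFun (congrFun h1 0) 0
    have e1 := congrFun (congrFun h1 1) 0
    simp [quadMat] at e0 e1
    rw [← hmul r hr, ← hmul r hr]
    simp only [ev]
    rw [← e0, ← e1, map_zero, zero_add]
  have hone : ev θ' p' q' * ev θ' p q = 1 := by
    have h1 : (W⁻¹).val * W.val = 1 := W.inv_mul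
    rw [hW, hW', quadMat_mul] at h1
    have e0 := congrFun (congrFun h1 0) 0
    have e1 := congrFun (congrFun h1 1) 0
    simp [quadMat] at e0 e1
    rw [← hmul θ' (Or.inr rfl)]
    simp only [ev]
    rw [e0, e1, map_one, map_zero, zero_mul, add_zero]
  have hθ'0 : θ' ≠ 0 := fun h => hd0 (φ.injective (by rw [map_zero, ← hprod, h, mul_zero]))
  set w := ev θ p q * ev θ' p' q' with hw
  have hnorm : w * finMap (σ' : E →+* E) w *
      finMap (σ' : E →+* E) (finMap (σ' : E →+* E) w) = finIncl E (θ * θ'⁻¹) := by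
    simp only [hw, map_mul, hsig θ (Or.inl rfl), hsig θ' (Or.inr rfl)]
    have hA := hval θ (Or.inl rfl)
    have hB := hval θ' (Or.inr rfl)
    have hone1 : ev θ' (S p') (S q') * ev θ' (S p) (S q) = 1 := by
      rw [← hsig θ' (Or.inr rfl) p' q', ← hsig θ' (Or.inr rfl) p q, ← map_mul, hone, map_one]
    have hone2 : ev θ' (S (S p')) (S (S q')) * ev θ' (S (S p)) (S (S q)) = 1 := by
      rw [← hsig θ' (Or.inr rfl) (S p') (S q'), ← hsig θ' (Or.inr rfl) (S p) (S q), ← map_mul,
        hone1, map_one]
    have hinv : finIncl E θ' * finIncl E θ'⁻¹ = 1 := by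
      rw [← map_mul, mul_inv_cancel₀ hθ'0, map_one]
    have hprod3 : ev θ' p' q' * (ev θ' (S p') (S q') * ev θ' (S (S p')) (S (S q'))) *
        (Φ (a : FinAdele L) * finIncl E θ') = 1 := by
      rw [← hB]
      calc _ = (ev θ' p' q' * ev θ' p q) * (ev θ' (S p') (S q') * ev θ' (S p) (S q)) *
            (ev θ' (S (S p')) (S (S q')) * ev θ' (S (S p)) (S (S q))) := by ring
        _ = 1 := by rw [hone, hone1, hone2, mul_one, mul_one]
    linear_combination
      (ev θ' p' q' * (ev θ' (S p') (S q') * ev θ' (S (S p')) (S (S q')))) * hA -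
        (finIncl E θ * Φ (a : FinAdele L) * (ev θ' p' q' * (ev θ' (S p') (S q') *
          ev θ' (S (S p')) (S (S q'))))) * hinv + (finIncl E θ * finIncl E θ'⁻¹) * hprod3
  obtain ⟨β, hβ⟩ := Reciprocity.exists_norm_of_adelic σ' hσ' hne (θ * θ'⁻¹)
    (by rw [map_mul, map_inv₀, hθ, hθ']) w (by
      rw [← hnorm, Finset.prod_range_succ, Finset.prod_range_succ, Finset.prod_range_one]
      have h0 : finMap ((σ' ^ 0 : E ≃+* E) : E →+* E) w = w := by
        rw [Places.finMap_eq_finExtend]
        exact finExtend_id w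
      have h1 : ((σ' ^ 1 : E ≃+* E) : E →+* E) = (σ' : E →+* E) := by rw [pow_one]
      have h2 : finMap ((σ' ^ 2 : E ≃+* E) : E →+* E) w =
          finMap (σ' : E →+* E) (finMap (σ' : E →+* E) w) := by
        rw [Places.finMap_eq_finExtend, Places.finMap_eq_finExtend, finExtend_finExtend]
        rfl
      rw [h0, h1, h2])
  refine ⟨β, ?_⟩
  rw [Finset.prod_range_succ, Finset.prod_range_succ, Finset.prod_range_one, pow_zero, pow_one,
    sq, RingAut.one_apply, RingAut.mul_apply] at hβ
  rw [hβ, inv_mul_cancel_right₀ hθ'0]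

/-- An element with norm `θ² θ'`. -/
theorem norm_div_eq {E : Type*} [Field E] {σ' : E ≃+* E} {θ θ' β : E} (hθ : σ' θ = θ)
    (hθ0 : θ ≠ 0) (hβ : β * σ' β * σ' (σ' β) * θ' = θ) :
    θ / β * σ' (θ / β) * σ' (σ' (θ / β)) = θ ^ 2 * θ' := by
  have h : β * σ' β * σ' (σ' β) ≠ 0 := fun h0 => hθ0 (by rw [← hβ, h0, zero_mul])
  simp only [mul_ne_zero_iff] at h
  simp only [map_div₀, hθ]
  rw [div_mul_div_comm, div_mul_div_comm, div_eq_iff (mul_ne_zero (mul_ne_zero h.1.1 h.1.2) h.2)]
  linear_combination -θ ^ 2 * hβ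

omit [NumberField L] in
theorem norm_quadMat_eq {E : Type*} [Field E] (φ : L →+* E) {σ' : E ≃+* E}
    (hcomm : ∀ a, σ' (φ a) = φ (σ a)) {θ : E} (hθ : σ' θ = θ) (hroot : θ * θ = φ t * θ - φ d)
    {p q A B : L}
    (h : quadMat t d A B = quadMat t d p q *
      (quadMat t d (σ p) (σ q) * quadMat t d (σ (σ p)) (σ (σ q)))) :
    φ A + φ B * θ = (φ p + φ q * θ) * σ' (φ p + φ q * θ) * σ' (σ' (φ p + φ q * θ)) := by
  have mulrule : ∀ a b a' b' : L,
      φ (a * a' - d * (b * b')) + φ (a * b' + b * a' + t * (b * b')) * θ =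
        (φ a + φ b * θ) * (φ a' + φ b' * θ) := fun a b a' b' => by
    simp only [map_add, map_sub, map_mul]
    linear_combination -(φ b * φ b') * hroot
  rw [quadMat_mul, quadMat_mul] at h
  have e0 := congrFun (congrFun h 0) 0
  have e1 := congrFun (congrFun h 1) 0
  simp [quadMat] at e0 e1
  simp only [map_add, map_mul, hcomm, hθ]
  rw [e0, e1, mulrule, mulrule]
  ring

variable (σ) in
/-- `p + q C` has norm `d C`. -/
def HasNormD (t d : L) : Prop :=
  ∃ p q : L, quadMat t d p q * (quadMat t d (σ p) (σ q) * quadMat t d (σ (σ p)) (σ (σ q))) =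
    d • quadMat t d 0 1

omit [NumberField L] in
/-- `d C`, in the coordinates of `quadMat`. -/
theorem smul_quadMat_one : d • quadMat t d 0 1 = quadMat t d 0 d := by
  refine Matrix.ext fun i j => ?_
  fin_cases i <;> fin_cases j <;> simp [quadMat, mul_comm]

omit [NumberField L] in
/-- The norm of `p + q C` is again of the shape `A + B C`. -/
theorem exists_quadMat_norm (p q : L) : ∃ A B, quadMat t d A B = quadMat t d p q *
    (quadMat t d (σ p) (σ q) * quadMat t d (σ (σ p)) (σ (σ q))) :=
  ⟨_, _, by rw [quadMat_mul, quadMat_mul]⟩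

omit [NumberField L] in
/-- A root of `X² - tX + d` in `L` is fixed by `σ`, whose order is odd. -/
theorem root_fixed (hσ : σ ^ 3 = 1) (ht : σ t = t) (hd : σ d = d) {r : L}
    (hr : r * r = t * r - d) : σ r = r := by
  by_contra hne
  have h1 : σ r * σ r = t * σ r - d := by
    have := congrArg σ hr
    rwa [map_mul, map_sub, map_mul, ht, hd] at this
  have h2 : σ r = t - r := by
    have h : (σ r - r) * (σ r + r - t) = 0 := by linear_combination h1 - hr
    linear_combination (mul_eq_zero.mp h).resolve_left (sub_ne_zero.mpr hne)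
  have h3 : σ (σ (σ r)) = r := by
    rw [← RingAut.mul_apply, ← RingAut.mul_apply,
      show σ * σ * σ = σ ^ 3 by rw [pow_three, mul_assoc], hσ, RingAut.one_apply]
  rw [h2, map_sub, ht, h2, sub_sub_cancel] at h3
  exact hne h3

/-- For a double root `r`, the norm of `(2r + C) / 3` is `d C`. -/
theorem hasNormD_of_double_root {r : L} (hr : r * r = t * r - d) (hfix : σ r = r)
    (h2r : 2 * r = t) : HasNormD σ t d := by
  refine ⟨2 * r / 3, 1 / 3, ?_⟩
  have hd' : d = r * r := by linear_combination hr - r * h2r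
  have hq : σ (1 / 3 : L) = 1 / 3 := by rw [map_div₀, map_one, map_ofNat]
  have hp : σ (2 * r / 3) = 2 * r / 3 := by rw [map_div₀, map_mul, map_ofNat, map_ofNat, hfix]
  rw [smul_quadMat_one, hp, hq, hp, hq, quadMat_mul, quadMat_mul]
  refine congrArg₂ (quadMat t d) ?_ ?_ <;> rw [hd', ← h2r] <;> ring

omit [NumberField L] in
/-- For two distinct roots `r`, `r'` it is enough to find elements of norms `r² r'` and `r'² r`:
these are interpolated by a `p + q C`. -/
theorem hasNormD_of_two_roots {r : L} (hr : r * r = t * r - d) (hfix : σ r = r)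
    (hfix' : σ (t - r) = t - r) (h2r : 2 * r ≠ t) {ξ₁ ξ₂ : L}
    (hN1 : ξ₁ * σ ξ₁ * σ (σ ξ₁) = r ^ 2 * (t - r))
    (hN2 : ξ₂ * σ ξ₂ * σ (σ ξ₂) = (t - r) ^ 2 * r) : HasNormD σ t d := by
  have hr' : (t - r) * (t - r) = t * (t - r) - d := by linear_combination hr
  have hsub : r - (t - r) ≠ 0 := fun h => h2r (by linear_combination h)
  set q := (ξ₁ - ξ₂) / (r - (t - r)) with hq
  set p := ξ₁ - q * r with hp
  have hq' : q * (r - (t - r)) = ξ₁ - ξ₂ := div_mul_cancel₀ _ hsub
  refine ⟨p, q, ?_⟩
  obtain ⟨A, B, hAB⟩ := exists_quadMat_norm (σ := σ) (t := t) (d := d) p q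
  have e1 := norm_quadMat_eq (σ' := σ) (RingHom.id L) (fun _ => rfl) hfix hr hAB
  have e2 := norm_quadMat_eq (σ' := σ) (RingHom.id L) (fun _ => rfl) hfix' hr' hAB
  simp only [RingHom.id_apply] at e1 e2
  rw [show p + q * r = ξ₁ by rw [hp]; ring, hN1] at e1
  rw [show p + q * (t - r) = ξ₂ by rw [hp]; linear_combination -hq', hN2] at e2
  have hB : B = d := by
    have : (B - d) * (r - (t - r)) = 0 := by linear_combination e1 - e2 - (r - (t - r)) * hr
    linear_combination (mul_eq_zero.mp this).resolve_right hsub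
  have hA : A = 0 := by
    rw [hB] at e1
    linear_combination e1 - r * hr
  rw [← hAB, hA, hB, smul_quadMat_one]

/-- When `X² - tX + d` has no root, `σ` extends to the quadratic extension generated by a root,
fixing the root. -/
theorem exists_quadratic_extension {K : Type u} [Field K] [NumberField K] {τ : K ≃+* K} {t d : K}
    (hτ : τ ^ 3 = 1) (ht : τ t = t) (hd : τ d = d) (hirr : ∀ r : K, r * r ≠ t * r - d) :
    ∃ (E : Type u) (_ : Field E) (_ : NumberField E) (φ : K →+* E) (τ' : E ≃+* E) (θ : E),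
      τ' ^ 3 = 1 ∧ (∀ a, τ' (φ a) = φ (τ a)) ∧ τ' θ = θ ∧ θ * θ = φ t * θ - φ d ∧
        ∀ z, ∃ p q, z = φ p + φ q * θ := by
  set f : K[X] := X ^ 2 - C t * X + C d with hf
  have hdeg : f.natDegree = 2 := by rw [hf]; compute_degree!
  have hmon : f.Monic := by rw [hf]; monicity!
  have hroots : ∀ x : K, f.eval x ≠ 0 := fun x hx => hirr x (by
    simp [hf] at hx
    linear_combination hx)
  have hfi : Irreducible f := by
    refine (hmon.irreducible_iff_roots_eq_zero_of_degree_le_three (by omega) (by omega)).mpr ?_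
    refine Multiset.eq_zero_of_forall_notMem fun x hx => ?_
    exact hroots x ((Polynomial.mem_roots hmon.ne_zero).mp hx)
  have : Fact (Irreducible f) := ⟨hfi⟩
  have : Module.Finite K (AdjoinRoot f) := hmon.finite_adjoinRoot
  have : CharZero (AdjoinRoot f) :=
    charZero_of_injective_algebraMap (algebraMap K (AdjoinRoot f)).injective
  set φ : K →+* AdjoinRoot f := AdjoinRoot.of f with hφ
  set θ : AdjoinRoot f := AdjoinRoot.root f with hθ
  have hθroot : θ * θ = φ t * θ - φ d := by
    have h := AdjoinRoot.eval₂_root f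
    rw [← hφ, ← hθ] at h
    simp [hf] at h
    linear_combination h
  have hlift : f.eval₂ (φ.comp (τ : K →+* K)) θ = 0 := by
    simp [hf, ht, hd]
    linear_combination hθroot
  set g : AdjoinRoot f →+* AdjoinRoot f := AdjoinRoot.lift (φ.comp (τ : K →+* K)) θ hlift with hg
  have hgof : ∀ x, g (φ x) = φ (τ x) := fun x => AdjoinRoot.lift_of hlift
  have hgθ : g θ = θ := AdjoinRoot.lift_root hlift
  have hτ3 : ∀ x, τ (τ (τ x)) = x := fun x => by
    rw [← RingAut.mul_apply, ← RingAut.mul_apply,
      show τ * τ * τ = τ ^ 3 by rw [pow_three, mul_assoc], hτ, RingAut.one_apply]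
  have hg3 : ∀ z, g (g (g z)) = z := by
    intro z
    induction z using AdjoinRoot.induction_on with
    | ih P =>
      induction P using Polynomial.induction_on' with
      | add P Q hP hQ => simp only [map_add, hP, hQ]
      | monomial n x =>
        rw [← C_mul_X_pow_eq_monomial, map_mul, map_pow, AdjoinRoot.mk_C, AdjoinRoot.mk_X]
        simp only [← hφ, ← hθ, map_mul, map_pow, hgof, hgθ, hτ3]
  refine ⟨AdjoinRoot f, inferInstance, NumberField.of_module_finite K (AdjoinRoot f), φ,
    RingEquiv.ofRingHom g (g.comp g) (RingHom.ext hg3) (RingHom.ext hg3), θ,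
    RingEquiv.ext fun z => ?_, hgof, hgθ, hθroot, fun z => ?_⟩
  · rw [pow_three, RingAut.mul_apply, RingAut.mul_apply, RingAut.one_apply]
    exact hg3 z
  · obtain ⟨P, rfl⟩ := AdjoinRoot.mk_surjective z
    induction P using Polynomial.induction_on with
    | C x => exact ⟨x, 0, by simp [hφ]⟩
    | add P Q hP hQ =>
      obtain ⟨p, q, e⟩ := hP
      obtain ⟨p', q', e'⟩ := hQ
      exact ⟨p + p', q + q', by rw [map_add, e, e', map_add, map_add]; ring⟩
    | monomial n x hn =>
      obtain ⟨p, q, e⟩ := hn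
      refine ⟨-(d * q), p + t * q, ?_⟩
      rw [pow_succ, ← mul_assoc, map_mul, e, AdjoinRoot.mk_X, ← hθ]
      simp only [map_add, map_neg, map_mul]
      linear_combination φ q * hθroot

omit [NumberField L] in
/-- Without a root in `L`, coordinates in the basis `1, θ` are unique, so a `p + q θ` of norm
`θ² θ'` makes the norm of `p + q C` equal to `d C`. -/
theorem hasNormD_of_extension {E : Type*} [Field E] (φ : L →+* E) {σ' : E ≃+* E}
    (hcomm : ∀ a, σ' (φ a) = φ (σ a)) {θ : E} (hθ : σ' θ = θ) (hroot : θ * θ = φ t * θ - φ d)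
    (hirr : ∀ r : L, r * r ≠ t * r - d) {p q : L}
    (hN : (φ p + φ q * θ) * σ' (φ p + φ q * θ) * σ' (σ' (φ p + φ q * θ)) =
      θ ^ 2 * (φ t - θ)) : HasNormD σ t d := by
  refine ⟨p, q, ?_⟩
  obtain ⟨A, B, hAB⟩ := exists_quadMat_norm (σ := σ) (t := t) (d := d) p q
  have e1 := norm_quadMat_eq (σ' := σ') φ hcomm hθ hroot hAB
  rw [hN] at e1
  have hz : φ A + φ (B - d) * θ = 0 := by
    rw [map_sub]
    linear_combination e1 - θ * hroot
  have hBd : B = d := by
    by_contra hne
    have hθL : θ = φ (-A / (B - d)) := by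
      have h0 : φ (B - d) ≠ 0 := (map_ne_zero φ).mpr (sub_ne_zero.mpr hne)
      rw [map_div₀, eq_div_iff h0, map_neg]
      linear_combination hz
    refine hirr (-A / (B - d)) (φ.injective ?_)
    rw [map_mul, map_sub, map_mul, ← hθL, hroot]
  have hA : A = 0 := φ.injective (by
    rw [map_zero]
    rw [hBd, sub_self, map_zero, zero_mul, add_zero] at hz
    exact hz)
  rw [← hAB, hA, hBd, smul_quadMat_one]

/-- **`d C` is a norm from `L[C]`.** -/
theorem hasNormD_of_adelic (hσ : σ ^ 3 = 1) (hne : σ ≠ 1) (ht : σ t = t) (hd : σ d = d)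
    (hd0 : d ≠ 0) {W : GLFin L} {a : (FinAdele L)ˣ}
    (hW : W.val = quadMat (finIncl L t) (finIncl L d) (W.val 0 0) (W.val 1 0))
    (hW' : (W⁻¹).val = quadMat (finIncl L t) (finIncl L d) ((W⁻¹).val 0 0) ((W⁻¹).val 1 0))
    (hN : (adeleNorm σ W).val = (a : FinAdele L) • quadMat (finIncl L t) (finIncl L d) 0 1) :
    HasNormD σ t d := by
  classical
  rcases em (∃ r : L, r * r = t * r - d) with ⟨r, hr⟩ | hirr
  · have hfix := root_fixed hσ ht hd hr
    rcases eq_or_ne (2 * r) t with h2r | h2r
    · exact hasNormD_of_double_root hr hfix h2r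
    · have hfix' : σ (t - r) = t - r := by rw [map_sub, ht, hfix]
      have hr0 : r ≠ 0 := fun h => hd0 (by rw [h] at hr; linear_combination hr)
      obtain ⟨β, hβ⟩ := exists_norm_ratio (σ' := σ) (RingHom.id L) hσ hne (fun _ => rfl) ht hd hd0
        (θ := r) (θ' := t - r) hfix hfix' (by simp)
        (by simp only [RingHom.id_apply]; linear_combination -hr) hW hW' hN
      refine hasNormD_of_two_roots hr hfix hfix' h2r (norm_div_eq hfix hr0 hβ)
        (ξ₂ := (t - r) * β) ?_
      simp only [map_mul, hfix']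
      linear_combination (t - r) ^ 2 * hβ
  · simp only [not_exists] at hirr
    obtain ⟨E, _, _, φ, σ', θ, hσ', hcomm, hθ, hroot, hspan⟩ :=
      exists_quadratic_extension hσ ht hd hirr
    have hne' : σ' ≠ 1 := fun h => hne (RingEquiv.ext fun x => φ.injective (by
      rw [← hcomm, h, RingAut.one_apply, RingAut.one_apply]))
    have hfix' : σ' (φ t - θ) = φ t - θ := by rw [map_sub, hcomm, ht, hθ]
    have hθ0 : θ ≠ 0 := fun h => hd0 (φ.injective (by
      rw [map_zero]; rw [h] at hroot; linear_combination hroot))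
    obtain ⟨β, hβ⟩ := exists_norm_ratio φ hσ' hne' hcomm ht hd hd0 (θ := θ) (θ' := φ t - θ)
      hθ hfix' (by ring) (by linear_combination -hroot) hW hW' hN
    obtain ⟨p, q, hpq⟩ := hspan (θ / β)
    refine hasNormD_of_extension φ hcomm hθ hroot hirr (p := p) (q := q) ?_
    rw [← hpq]
    exact norm_div_eq hθ hθ0 hβ

end Fermat.Agent.LT.PlaceMatching

end
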