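import Fermat.Agent.LT.PlaceMatching.Places
import Fermat.Agent.LT.PlaceMatching.Cosets
import Fermat.Agent.LT.Galois

/-!
# Compatible levels on `L` and `K`

`LevelsMatch` relates an ideal `I` of `L` and `J` of `K`: they cut out the same ideals of the
completions of `K`, `I` is trivial at inert places and the maximal ideal at tame places. Then
extension of scalars and `σ` act on the local coset spaces, compatibly with the components.
-/

set_option autoImplicit false

noncomputable section

open IsDedekindDomain NumberField WithZero Matrix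

namespace Fermat.Agent.LT.PlaceMatching

open Places Matching CubicDescent
open Fermat.Agent.LT.Geometric (IsCubic)

variable {K L : Type*} [Field K] [NumberField K] [Field L] [NumberField L] {ι : K →+* L}
  {σ : L ≃+* L}

/-- `placeMap` on integers. -/
def placeMapInt (f : K →+* L) {v : FinPlace K} {w : FinPlace L} (h : comapPlace f w = v) :
    intRing v →+* intRing w :=
  ((placeMap f h).comp (intRing v).subtype).codRestrict (intRing w) fun x =>
    mem_intRing.mpr ((valued_placeMap_le_one_iff h _).mpr (mem_intRing.mp x.2))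

/-- `placeMapInt` is the restriction of `placeMap`. -/
@[simp] theorem coe_placeMapInt (f : K →+* L) {v : FinPlace K} {w : FinPlace L}
    (h : comapPlace f w = v) (x : intRing v) :
    (placeMapInt f h x : w.adicCompletion L) = placeMap f h x := rfl

variable (ι σ) in
/-- The compatibility of the levels. -/
structure LevelsMatch (I : Ideal (𝓞 L)) (J : Ideal (𝓞 K)) : Prop where
  mem_iff : ∀ (w : FinPlace L) (v : FinPlace K) (h : comapPlace ι w = v) (x : intRing v),
    placeMapInt ι h x ∈ locIdeal I w ↔ x ∈ locIdeal J v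
  inert : ∀ w : FinPlace L, IsInert σ w → locIdeal I w = ⊤
  tame : ∀ w : FinPlace L, IsTame σ w → locIdeal I w = Ideal.span {piInt w}
  three : ∀ w : FinPlace L, (3 : 𝓞 L) ∈ w.asIdeal → comapPlace (σ : L →+* L) w ≠ w

variable {I : Ideal (𝓞 L)} {J : Ideal (𝓞 K)} {v : FinPlace K} {w w' : FinPlace L}

/-- Fixed places are prime to three. -/
theorem LevelsMatch.three_notMem (hm : LevelsMatch ι σ I J)
    (h : comapPlace (σ : L →+* L) w = w) : (3 : 𝓞 L) ∉ w.asIdeal :=
  fun h3 => hm.three w h3 h

/-- `placeIso` on integers. -/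
def placeIsoInt (σ : L ≃+* L) {w w' : FinPlace L} (h : comapPlace (σ : L →+* L) w = w') :
    intRing w' →+* intRing w :=
  placeMapInt (σ : L →+* L) h

@[simp] theorem coe_placeIsoInt (h : comapPlace (σ : L →+* L) w = w') (x : intRing w') :
    (placeIsoInt σ h x : w.adicCompletion L) = placeIso σ h x := rfl

/-- `placeIso` fixes the completion of `K`. -/
theorem placeIso_placeMap (hc : IsCubic ι σ) (h : comapPlace (σ : L →+* L) w = w')
    (hv : comapPlace ι w = v) (hv' : comapPlace ι w' = v) (a : v.adicCompletion K) :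
    placeIso σ h (placeMap ι hv' a) = placeMap ι hv a := by
  have e : (σ : L →+* L).comp ι = ι := RingHom.ext fun x => (hc.fixed _).mpr ⟨x, rfl⟩
  rw [placeIso_apply, placeMap_comp hv' h (by rw [e]; exact hv)]
  exact placeMap_congr e _ _ a

/-- `placeIso` respects the local ideals. -/
theorem LevelsMatch.mem_placeIso (hm : LevelsMatch ι σ I J) (hc : IsCubic ι σ)
    (h : comapPlace (σ : L →+* L) w = w') {x : intRing w'} (hx : x ∈ locIdeal I w') :
    placeIsoInt σ h x ∈ locIdeal I w := by
  rcases moved_or_inert_or_tame (σ := σ) w with hw | hw | hw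
  · have hv' : comapPlace ι w' = comapPlace ι w := h ▸ comapPlace_base hc.fixed w
    have hw' : comapPlace (σ : L →+* L) w' ≠ w' := fun e => hw (by
      rw [h]
      exact ((placeEquiv σ).injective (h.trans e.symm)).symm)
    obtain ⟨b, hb⟩ := (placeMap_bijective_of_moved hc hw' hv').2 (x : w'.adicCompletion L)
    have hbi : b ∈ intRing (comapPlace ι w) := by
      rw [mem_intRing, ← valued_placeMap_le_one_iff hv', hb]
      exact mem_intRing.mp x.2
    have hx' : placeMapInt ι hv' ⟨b, hbi⟩ = x := Subtype.ext hb
    have e : placeIsoInt σ h x = placeMapInt ι rfl ⟨b, hbi⟩ := Subtype.ext (by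
      rw [coe_placeIsoInt, ← hb, placeIso_placeMap hc h rfl hv']
      rfl)
    rw [e, hm.mem_iff]
    exact (hm.mem_iff _ _ hv' _).mp (hx'.symm ▸ hx)
  · rw [hm.inert w hw]; exact Submodule.mem_top
  · obtain rfl : w' = w := h.symm.trans hw.fixed
    rw [hm.tame w' hw, Ideal.mem_span_singleton, piInt_dvd_iff] at hx ⊢
    rwa [coe_placeIsoInt, valued_placeIso]

/-- Extension of scalars of a level element. -/
theorem LevelsMatch.map_level (hm : LevelsMatch ι σ I J) (hv : comapPlace ι w = v)
    {g : GL (Fin 2) (v.adicCompletion K)} (hg : g ∈ locLevel J v) :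
    baseUnit (placeMap ι hv) g ∈ locLevel I w := by
  obtain ⟨c, u, hu, rfl⟩ := hg
  refine ⟨Units.map (placeMap ι hv).toMonoidHom c,
    Units.map (placeMapInt ι hv).mapMatrix.toMonoidHom u, mem_congrLevel.mpr fun i j => ?_, ?_⟩
  · have h := (hm.mem_iff w v hv _).mpr (mem_congrLevel.mp hu i j)
    rw [map_sub] at h
    by_cases hij : i = j <;> simpa [hij, Matrix.one_apply] using h
  · rw [map_mul]
    congr 1
    refine Units.ext (Matrix.ext fun i j => ?_)
    by_cases hij : i = j <;> simp [hij, scalarUnit]

/-- `σ` maps level elements to level elements. -/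
theorem LevelsMatch.map_iso_level (hm : LevelsMatch ι σ I J) (hc : IsCubic ι σ)
    (h : comapPlace (σ : L →+* L) w = w') {g : GL (Fin 2) (w'.adicCompletion L)}
    (hg : g ∈ locLevel I w') :
    baseUnit (placeIso σ h).toRingHom g ∈ locLevel I w := by
  obtain ⟨c, u, hu, rfl⟩ := hg
  refine ⟨Units.map (placeIso σ h).toRingHom.toMonoidHom c,
    Units.map (placeIsoInt σ h).mapMatrix.toMonoidHom u, mem_congrLevel.mpr fun i j => ?_, ?_⟩
  · have h' := hm.mem_placeIso hc h (mem_congrLevel.mp hu i j)
    rw [map_sub] at h'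
    by_cases hij : i = j <;> simpa [hij, Matrix.one_apply] using h'
  · rw [map_mul]
    congr 1
    refine Units.ext (Matrix.ext fun i j => ?_)
    by_cases hij : i = j <;> simp [hij, scalarUnit]

/-- A matrix over `K` integral at a place above is integral. -/
theorem mem_intGroup_of_map (hv : comapPlace ι w = v) {g : GL (Fin 2) (v.adicCompletion K)}
    (h : baseUnit (placeMap ι hv) g ∈ intGroup w) : g ∈ intGroup v := by
  refine mem_intGroup_of_inv (fun i j => (valued_placeMap_le_one_iff hv _).mp (h.1 i j))
    fun i j => (valued_placeMap_le_one_iff hv _).mp ?_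
  have h' := (inv_mem h).1 i j
  rwa [← map_inv] at h'

/-- A rational element of the level of `L` lies in the level of `K`. -/
theorem LevelsMatch.comap_level (hm : LevelsMatch ι σ I J) (hc : IsCubic ι σ)
    (hv : comapPlace ι w = v) {g : GL (Fin 2) (v.adicCompletion K)}
    (hg : baseUnit (placeMap ι hv) g ∈ locLevel I w) : g ∈ locLevel J v := by
  suffices H : ∃ (c : (v.adicCompletion K)ˣ) (u : (Matrix (Fin 2) (Fin 2) (intRing w))ˣ),
      u ∈ congrLevel (locIdeal I w) ∧
        baseUnit (placeMap ι hv) (scalarUnit c⁻¹ * g) = coeUnit (intRing w) u by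
    obtain ⟨c, u, hu, he⟩ := H
    obtain ⟨u₀, hu₀⟩ := exists_coeUnit_eq (mem_intGroup_of_map hv
      (g := scalarUnit c⁻¹ * g) (by rw [he]; exact coeUnit_mem_intGroup u))
    refine ⟨c, u₀, mem_congrLevel.mpr fun i j => ?_, by rw [hu₀, map_inv, mul_inv_cancel_left]⟩
    refine (hm.mem_iff w v hv _).mp ?_
    convert mem_congrLevel.mp hu i j using 1
    refine Subtype.ext ?_
    have e : placeMap ι hv ((u₀.val i j : intRing v) : v.adicCompletion K) =
        ((u.val i j : intRing w) : w.adicCompletion L) := by
      rw [← hu₀] at he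
      exact congrArg (fun M : GL (Fin 2) (w.adicCompletion L) => M.val i j) he
    rw [coe_placeMapInt, AddSubgroupClass.coe_sub, map_sub, e, AddSubgroupClass.coe_sub]
    by_cases hij : i = j <;> simp [hij, Matrix.one_apply]
  have key : ∀ (cL : (w.adicCompletion L)ˣ) (u : (Matrix (Fin 2) (Fin 2) (intRing w))ˣ),
      u ∈ congrLevel (locIdeal I w) →
        baseUnit (placeMap ι hv) g = scalarUnit cL * coeUnit (intRing w) u →
          (cL : w.adicCompletion L) ∈ Set.range (placeMap ι hv) →
            ∃ (c : (v.adicCompletion K)ˣ) (u : (Matrix (Fin 2) (Fin 2) (intRing w))ˣ),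
              u ∈ congrLevel (locIdeal I w) ∧
                baseUnit (placeMap ι hv) (scalarUnit c⁻¹ * g) = coeUnit (intRing w) u := by
    rintro cL u hu e ⟨c₀, hc₀⟩
    have hne : c₀ ≠ 0 := by
      rintro rfl
      exact cL.ne_zero (by rw [← hc₀, map_zero])
    refine ⟨Units.mk0 c₀ hne, u, hu, ?_⟩
    have hs : baseUnit (placeMap ι hv) (scalarUnit (Units.mk0 c₀ hne)) = scalarUnit cL := by
      refine Units.ext (Matrix.ext fun i j => ?_)
      by_cases hij : i = j <;> simp [hij, scalarUnit, hc₀]
    rw [map_mul, map_inv, map_inv, hs, e, inv_mul_cancel_left]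
  rcases moved_or_inert_or_tame (σ := σ) w with hw | hw | hw
  · obtain ⟨cL, u, hu, e⟩ := hg
    exact key cL u hu e ((placeMap_bijective_of_moved hc hw hv).2 _)
  · obtain ⟨t, ht, htfix⟩ := hw.exists_fixed
    have hfix : glMap (placeIso σ hw.fixed) (baseUnit (placeMap ι hv) g) =
        baseUnit (placeMap ι hv) g :=
      glMap_baseUnit (placeIso_fixed_iff hc.fixed hc.pow hw.fixed hv) g
    rw [locLevel, hm.inert w hw] at hg
    obtain ⟨cL, u, hcfix, -, e⟩ := levelGroup_top_fixed ht
      (levelAutTop (placeIso_pow_three hc.pow hw.fixed) fun _ => placeIso_mem hw.fixed)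
      (Subtype.ext htfix) hg hfix
    exact key cL u (mem_congrLevel.mpr fun i j => by rw [hm.inert w hw]; exact Submodule.mem_top) e
      ((placeIso_fixed_iff hc.fixed hc.pow hw.fixed hv _).mp hcfix)
  · have hfix : glMap (placeIso σ hw.fixed) (baseUnit (placeMap ι hv) g) =
        baseUnit (placeMap ι hv) g :=
      glMap_baseUnit (placeIso_fixed_iff hc.fixed hc.pow hw.fixed hv) g
    rw [locLevel, hm.tame w hw] at hg
    obtain ⟨cL, u, hu, hcfix, -, e⟩ := levelGroup_tame_fixed (uniformizer_piInt w)
      (levelAutSpan (uniformizer_piInt w) (placeIso_pow_three hc.pow hw.fixed)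
        fun _ => placeIso_mem hw.fixed) hg hfix
    exact key cL u (hm.tame w hw ▸ hu) e
      ((placeIso_fixed_iff hc.fixed hc.pow hw.fixed hv _).mp hcfix)

/-! ### Maps on local cosets -/

/-- Extension of scalars on local cosets. -/
def baseLoc (hm : LevelsMatch ι σ I J) (hv : comapPlace ι w = v) :
    LocCosets J v → LocCosets I w :=
  Quotient.map' (baseUnit (placeMap ι hv)) fun a b h => by
    rw [QuotientGroup.leftRel_apply] at h ⊢
    simpa using hm.map_level hv h

/-- `baseLoc` on the class of a matrix. -/
@[simp] theorem baseLoc_mk (hm : LevelsMatch ι σ I J) (hv : comapPlace ι w = v)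
    (g : GL (Fin 2) (v.adicCompletion K)) :
    baseLoc hm hv (QuotientGroup.mk g) =
      (QuotientGroup.mk (baseUnit (placeMap ι hv) g) : LocCosets I w) := rfl

/-- `baseLoc` is equivariant. -/
theorem baseLoc_smul (hm : LevelsMatch ι σ I J) (hv : comapPlace ι w = v)
    (g : GL (Fin 2) (v.adicCompletion K)) (z : LocCosets J v) :
    baseLoc hm hv (g • z) = baseUnit (placeMap ι hv) g • baseLoc hm hv z := by
  induction z using QuotientGroup.induction_on with
  | _ h => simp [MulAction.Quotient.smul_mk, smul_eq_mul]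

/-- `baseLoc` is injective. -/
theorem baseLoc_injective (hm : LevelsMatch ι σ I J) (hc : IsCubic ι σ)
    (hv : comapPlace ι w = v) : Function.Injective (baseLoc hm hv) := by
  intro x y h
  induction x using QuotientGroup.induction_on with
  | _ a =>
    induction y using QuotientGroup.induction_on with
    | _ b =>
      rw [baseLoc_mk, baseLoc_mk, QuotientGroup.eq] at h
      exact QuotientGroup.eq.mpr (hm.comap_level hc hv (by simpa using h))

/-- At a place moved by `σ` every local coset is rational. -/
theorem baseLoc_surjective (hm : LevelsMatch ι σ I J) (hc : IsCubic ι σ)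
    (hw : comapPlace (σ : L →+* L) w ≠ w) (hv : comapPlace ι w = v) :
    Function.Surjective (baseLoc hm hv) := by
  intro x
  induction x using QuotientGroup.induction_on with
  | _ g =>
    let e := RingEquiv.ofBijective (placeMap ι hv) (placeMap_bijective_of_moved hc hw hv)
    refine ⟨QuotientGroup.mk (baseUnit e.symm.toRingHom g), ?_⟩
    rw [baseLoc_mk]
    refine congrArg QuotientGroup.mk (Units.ext (Matrix.ext fun i j => ?_))
    exact e.apply_symm_apply _

/-- `σ` on local cosets. -/
def isoLoc (hm : LevelsMatch ι σ I J) (hc : IsCubic ι σ)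
    (h : comapPlace (σ : L →+* L) w = w') : LocCosets I w' → LocCosets I w :=
  Quotient.map' (baseUnit (placeIso σ h).toRingHom) fun a b hab => by
    rw [QuotientGroup.leftRel_apply] at hab ⊢
    simpa using hm.map_iso_level hc h hab

@[simp] theorem isoLoc_mk (hm : LevelsMatch ι σ I J) (hc : IsCubic ι σ)
    (h : comapPlace (σ : L →+* L) w = w') (g : GL (Fin 2) (w'.adicCompletion L)) :
    isoLoc hm hc h (QuotientGroup.mk g) =
      (QuotientGroup.mk (baseUnit (placeIso σ h).toRingHom g) : LocCosets I w) := rfl

/-- `isoLoc` fixes the cosets coming from `K`. -/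
theorem isoLoc_baseLoc (hm : LevelsMatch ι σ I J) (hc : IsCubic ι σ)
    (h : comapPlace (σ : L →+* L) w = w') (hv : comapPlace ι w = v) (hv' : comapPlace ι w' = v)
    (z : LocCosets J v) : isoLoc hm hc h (baseLoc hm hv' z) = baseLoc hm hv z := by
  induction z using QuotientGroup.induction_on with
  | _ g =>
    refine congrArg QuotientGroup.mk (Units.ext (Matrix.ext fun i j => ?_))
    exact placeIso_placeMap hc h hv hv' _

/-- The components of a conjugate adelic matrix. -/
theorem glPlace_glFinMap (h : comapPlace (σ : L →+* L) w = w') (g : GLFin L) :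
    glPlace w (glFinMap (σ : L →+* L) g) =
      baseUnit (placeIso σ h).toRingHom (glPlace w' g) :=
  Units.ext (Matrix.ext fun i j => toPlace_finMap h (g.val i j))

variable {hI : ∃ N : ℕ, 0 < N ∧ (N : 𝓞 L) ∈ I}

/-- The level of `L` is stable under `σ`. -/
theorem LevelsMatch.stable (hm : LevelsMatch ι σ I J) (hc : IsCubic ι σ) :
    ∀ g ∈ (Level.ofIdeal L I hI).toSubgroup,
      glFinMap (σ : L →+* L) g ∈ (Level.ofIdeal L I hI).toSubgroup := by
  intro g hg
  rw [mem_ofIdeal_iff_forall] at hg ⊢
  intro u
  rw [glPlace_glFinMap (w' := comapPlace (σ : L →+* L) u) rfl]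
  exact hm.map_iso_level hc rfl (hg _)

/-- The components of a conjugate coset. -/
theorem comp_galFin (hm : LevelsMatch ι σ I J) (hc : IsCubic ι σ)
    (h : comapPlace (σ : L →+* L) w = w')
    (c : GLFin L ⧸ (Level.ofIdeal L I hI).toSubgroup) :
    comp w (galFin σ (Level.ofIdeal L I hI) (hm.stable hc) c) = isoLoc hm hc h (comp w' c) := by
  induction c using QuotientGroup.induction_on with
  | _ g => rw [galFin_mk, comp_mk, comp_mk, isoLoc_mk, glPlace_glFinMap h]

end Fermat.Agent.LT.PlaceMatching

end
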