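import Fermat.Agent.LT.PlaceMatching.Levels

/-!
# The matching at a place fixed by `σ`

For `x` with norm `m` there is `y` commuting with `m` such that translation by `y` identifies the
twisted fixed cosets of `x` with the cosets over `K` fixed by `m`; one may take `y = 1` when `x`
fixes whatever `m` fixes, as is the case almost everywhere.
-/

set_option autoImplicit false

noncomputable section

open IsDedekindDomain NumberField WithZero Matrix

namespace Fermat.Agent.LT.PlaceMatching

open Places Matching CubicDescent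
open Fermat.Agent.LT.Geometric (IsCubic)

universe u u'

variable {K : Type u} {L : Type u'} [Field K] [NumberField K] [Field L] [NumberField L]
  {ι : K →+* L} {σ : L ≃+* L} {I : Ideal (𝓞 L)} {J : Ideal (𝓞 K)} {v : FinPlace K}
  {w : FinPlace L}

/-- The automorphism of the completion, on the level of `I`. -/
def locAut (hm : LevelsMatch ι σ I J) (hc : IsCubic ι σ)
    (hw : comapPlace (σ : L →+* L) w = w) :
    LevelAut (placeIso σ hw) (intRing w) (locIdeal I w) 3 where
  aut := restrictAut (placeIso_pow_three hc.pow hw) fun _ => placeIso_mem hw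
  coe_aut _ := rfl
  map_mem x hx := by
    have h := hm.mem_placeIso hc hw hx
    rwa [show restrictAut (placeIso_pow_three hc.pow hw) (fun _ => placeIso_mem hw) x =
      placeIsoInt σ hw x from Subtype.ext rfl]
  pow_eq := placeIso_pow_three hc.pow hw

theorem act_locAut (hm : LevelsMatch ι σ I J) (hc : IsCubic ι σ)
    (hw : comapPlace (σ : L →+* L) w = w) (z : LocCosets I w) :
    (locAut hm hc hw).act z = isoLoc hm hc hw z := by
  induction z using QuotientGroup.induction_on with
  | _ g => exact congrArg QuotientGroup.mk (Units.ext rfl)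

/-- The two local theorems of `LT/Matching` at a fixed place. -/
theorem fixed_and_match (hm : LevelsMatch ι σ I J) (hc : IsCubic ι σ)
    (hw : comapPlace (σ : L →+* L) w = w) :
    {x : LevelCosets (intRing w) (locIdeal I w) | (locAut hm hc hw).act x = x} =
        (QuotientGroup.mk (s := levelGroup (intRing w) (locIdeal I w))) ''
          {g | glMap (placeIso σ hw) g = g} ∧
      ∀ g : GL (Fin 2) (w.adicCompletion L), glMap (placeIso σ hw) g = g →
        (∃ x : LevelCosets (intRing w) (locIdeal I w), g • x = x) →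
        ∃ (δ₀ : GL (Fin 2) (w.adicCompletion L)) (c : (w.adicCompletion L)ˣ),
          placeIso σ hw (c : w.adicCompletion L) = c ∧
          twistedNorm (glMap (placeIso σ hw)) δ₀ 3 = scalarUnit c * g ∧
          (∀ y : GL (Fin 2) (w.adicCompletion L), Commute y g → Commute y δ₀) ∧
          {x | twistedMap δ₀ (locAut hm hc hw).act x = x} =
            {x | (locAut hm hc hw).act x = x ∧ g • x = x} := by
  rcases moved_or_inert_or_tame (σ := σ) w with h | h | h
  · exact absurd hw h
  · obtain ⟨t, ht, hcomp, k, hk, hfin, ⟨D⟩⟩ := h.exists_datum hc (hm.three_notMem hw)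
    have key : ∀ (J' : Ideal (intRing w)) (A : LevelAut (placeIso σ hw) (intRing w) J' 3),
        J' = ⊤ →
        {x : LevelCosets (intRing w) J' | A.act x = x} =
            (QuotientGroup.mk (s := levelGroup (intRing w) J')) ''
              {g | glMap (placeIso σ hw) g = g} ∧
          ∀ g : GL (Fin 2) (w.adicCompletion L), glMap (placeIso σ hw) g = g →
            (∃ x : LevelCosets (intRing w) J', g • x = x) →
            ∃ (δ₀ : GL (Fin 2) (w.adicCompletion L)) (c : (w.adicCompletion L)ˣ),
              placeIso σ hw (c : w.adicCompletion L) = c ∧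
              twistedNorm (glMap (placeIso σ hw)) δ₀ 3 = scalarUnit c * g ∧
              (∀ y : GL (Fin 2) (w.adicCompletion L), Commute y g → Commute y δ₀) ∧
              {x | twistedMap δ₀ A.act x = x} = {x | A.act x = x ∧ g • x = x} := by
      rintro J' A rfl
      exact ⟨fixed_cosets_unramified ht
          (levelAutTop (placeIso_pow_three hc.pow hw) fun _ => placeIso_mem hw) D,
        fun g hg hne => exists_matching_unramified ht
          (levelAutTop (placeIso_pow_three hc.pow hw) fun _ => placeIso_mem hw) D hg hne⟩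
    exact key _ (locAut hm hc hw) (hm.inert w h)
  · have := isAdicComplete_intRing w
    have D := h.datum hc (hm.three_notMem hw)
    have key : ∀ (J' : Ideal (intRing w)) (A : LevelAut (placeIso σ hw) (intRing w) J' 3),
        J' = Ideal.span {piInt w} →
        {x : LevelCosets (intRing w) J' | A.act x = x} =
            (QuotientGroup.mk (s := levelGroup (intRing w) J')) ''
              {g | glMap (placeIso σ hw) g = g} ∧
          ∀ g : GL (Fin 2) (w.adicCompletion L), glMap (placeIso σ hw) g = g →
            (∃ x : LevelCosets (intRing w) J', g • x = x) →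
            ∃ (δ₀ : GL (Fin 2) (w.adicCompletion L)) (c : (w.adicCompletion L)ˣ),
              placeIso σ hw (c : w.adicCompletion L) = c ∧
              twistedNorm (glMap (placeIso σ hw)) δ₀ 3 = scalarUnit c * g ∧
              (∀ y : GL (Fin 2) (w.adicCompletion L), Commute y g → Commute y δ₀) ∧
              {x | twistedMap δ₀ A.act x = x} = {x | A.act x = x ∧ g • x = x} := by
      rintro J' A rfl
      exact ⟨fixed_cosets_tame (uniformizer_piInt w)
          (levelAutSpan (uniformizer_piInt w) (placeIso_pow_three hc.pow hw)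
            fun _ => placeIso_mem hw) D,
        fun g hg hne => exists_matching_tame (uniformizer_piInt w)
          (levelAutSpan (uniformizer_piInt w) (placeIso_pow_three hc.pow hw)
            fun _ => placeIso_mem hw) D hg hne⟩
    exact key _ (locAut hm hc hw) (hm.tame w h)

/-- Translation by `y` identifies the twisted fixed cosets of `x` with the fixed cosets of `m`. -/
def IsTransfer (hm : LevelsMatch ι σ I J) (hc : IsCubic ι σ)
    (hw : comapPlace (σ : L →+* L) w = w) (hv : comapPlace ι w = v)
    (x : GL (Fin 2) (w.adicCompletion L)) (m : GL (Fin 2) (v.adicCompletion K))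
    (y : GL (Fin 2) (w.adicCompletion L)) : Prop :=
  ∀ c : LocCosets I w, x • isoLoc hm hc hw c = c ↔
    ∃ z : LocCosets J v, m • z = z ∧ baseLoc hm hv z = y • c

variable (hm : LevelsMatch ι σ I J) (hc : IsCubic ι σ) (hw : comapPlace (σ : L →+* L) w = w)
  (hv : comapPlace ι w = v) {x : GL (Fin 2) (w.adicCompletion L)}
  {m : GL (Fin 2) (v.adicCompletion K)} {c : (w.adicCompletion L)ˣ}

include hm hc hw hv

/-- A local matrix whose norm is `m` up to a fixed scalar has a transfer. -/
theorem exists_isTransfer (hcfix : placeIso σ hw (c : w.adicCompletion L) = c)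
    (hN : twistedNorm (glMap (placeIso σ hw)) x 3 =
      scalarUnit c * baseUnit (placeMap ι hv) m) :
    ∃ y, Commute y (baseUnit (placeMap ι hv) m) ∧ IsTransfer hm hc hw hv x m y := by
  obtain ⟨hfixed, hmatch⟩ := fixed_and_match hm hc hw
  have : Infinite (v.adicCompletion K) :=
    Infinite.of_injective (algebraMap K (v.adicCompletion K)) (RingHom.injective _)
  obtain ⟨y, hy, e, he⟩ := exists_matching_equiv (locAut hm hc hw)
    (placeIso_fixed_iff hc.fixed hc.pow hw hv) (k := 1) rfl
    (injective_powers_of_ne_one (placeIso_pow_three hc.pow hw) (placeIso_ne_one hc.ne_one hw))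
    hfixed hmatch hcfix hN
  refine ⟨y, hy, fun z' => ⟨fun hz => ?_, ?_⟩⟩
  · have hz' : twistedMap x (locAut hm hc hw).act z' = z' := by
      rw [twistedMap, act_locAut]; exact hz
    obtain ⟨g, hg⟩ := QuotientGroup.mk_surjective (e ⟨z', hz'⟩).1
    have h1 := he ⟨z', hz'⟩
    rw [← hg, baseCosetMap_mk] at h1
    have h1' : baseLoc hm hv (QuotientGroup.mk g) = y • z' := h1
    refine ⟨QuotientGroup.mk g, baseLoc_injective hm hc hv ?_, h1'⟩
    have h2 := congrArg (baseCosetMap (placeMap ι hv) (intRing w) (locIdeal I w)) (e ⟨z', hz'⟩).2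
    rw [← hg, baseCosetMap_smul, baseCosetMap_mk] at h2
    rw [baseLoc_smul, baseLoc_mk]
    exact h2
  · rintro ⟨z, hz, hzy⟩
    obtain ⟨g, rfl⟩ := QuotientGroup.mk_surjective z
    have hfix : m • (QuotientGroup.mk g : BaseCosets (placeMap ι hv) (intRing w) (locIdeal I w)) =
        QuotientGroup.mk g := baseCosetMap_injective _ (by
      rw [baseCosetMap_smul, baseCosetMap_mk]
      have h2 := congrArg (baseLoc hm hv) hz
      rw [baseLoc_smul, baseLoc_mk] at h2
      exact h2)
    have h1 := he (e.symm ⟨_, hfix⟩)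
    rw [Equiv.apply_symm_apply, baseCosetMap_mk] at h1
    have h2 : (e.symm ⟨_, hfix⟩).1 = z' :=
      MulAction.injective y (h1.symm.trans hzy)
    have h3 := (e.symm ⟨_, hfix⟩).2
    rw [h2, twistedMap, act_locAut] at h3
    exact h3

/-- When `x` fixes every coset fixed by `m`, no translation is needed. -/
theorem isTransfer_one (hN : twistedNorm (glMap (placeIso σ hw)) x 3 =
      scalarUnit c * baseUnit (placeMap ι hv) m)
    (hx : ∀ z : LocCosets I w, baseUnit (placeMap ι hv) m • z = z → x • z = z) :
    IsTransfer hm hc hw hv x m 1 := by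
  intro z'
  constructor
  · intro hz
    have hz' : twistedMap x (locAut hm hc hw).act z' = z' := by
      rw [twistedMap, act_locAut]; exact hz
    have hmz : baseUnit (placeMap ι hv) m • z' = z' := by
      have h := (locAut hm hc hw).norm_smul_eq hz'
      rwa [hN, mul_smul, Matching.scalarUnit_smul] at h
    have hfix : (locAut hm hc hw).act z' = z' := by
      refine MulAction.injective x ?_
      rw [act_locAut]
      exact hz.trans (hx z' hmz).symm
    obtain ⟨g, hg, hgz⟩ := (Set.ext_iff.mp (fixed_and_match hm hc hw).1 z').mp hfix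
    obtain ⟨g₀, rfl⟩ := exists_baseUnit_eq (placeIso_fixed_iff hc.fixed hc.pow hw hv) hg
    refine ⟨QuotientGroup.mk g₀, baseLoc_injective hm hc hv ?_, ?_⟩
    · rw [baseLoc_smul, baseLoc_mk]
      exact hgz.symm ▸ hmz
    · rw [one_smul, baseLoc_mk]
      exact hgz
  · rintro ⟨z, hz, hzz⟩
    rw [one_smul] at hzz
    subst hzz
    rw [isoLoc_baseLoc hm hc hw hv hv]
    exact hx _ (by rw [← baseLoc_smul, hz])

omit hm hc hw in
/-- An integral element of `L_w[m]` with unit determinant fixes what a unit `m` fixes. -/
theorem smul_eq_of_integral (htop : locIdeal I w = ⊤) {p q : w.adicCompletion L}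
    (hx : x.val = p • (1 : Matrix (Fin 2) (Fin 2) (w.adicCompletion L)) +
      q • (baseUnit (placeMap ι hv) m).val)
    (hp : Valued.v p ≤ 1) (hq : Valued.v q ≤ 1) (hdx : Valued.v x.val.det = 1)
    (hdm : Valued.v (baseUnit (placeMap ι hv) m).val.det = 1) (z : LocCosets I w)
    (hz : baseUnit (placeMap ι hv) m • z = z) : x • z = z := by
  induction z using QuotientGroup.induction_on with
  | _ g =>
    set M := baseUnit (placeMap ι hv) m with hMdef
    obtain ⟨a, u, -, he⟩ := (smul_mk_eq_iff M g).mp hz
    have hdet : ∀ y : GL (Fin 2) (w.adicCompletion L),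
        (g⁻¹ * y * g).val.det = y.val.det := fun y => by
      simp only [Units.val_mul]
      exact Matrix.det_units_conj' g y.val
    have ha : Valued.v (a : w.adicCompletion L) = 1 := by
      have h1 := valued_det_scalarUnit a (coeUnit (intRing w) u)
      rw [← he, hdet, hdm, (coeUnit_mem_intGroup u).2, mul_one] at h1
      exact (pow_eq_one_iff_of_nonneg zero_le two_ne_zero).mp h1.symm
    have hent : ∀ i j, Valued.v ((g⁻¹ * M * g).val i j) ≤ 1 := fun i j => by
      rw [he, Units.val_mul]
      rw [show ((scalarUnit a : GL (Fin 2) (w.adicCompletion L)) : Matrix (Fin 2) (Fin 2) _) =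
        Matrix.diagonal (fun _ => (a : w.adicCompletion L)) from rfl, Matrix.diagonal_mul, map_mul,
        ha, one_mul]
      exact (coeUnit_mem_intGroup u).1 i j
    have hconj : (g⁻¹ * x * g).val = p • (1 : Matrix (Fin 2) (Fin 2) (w.adicCompletion L)) +
        q • (g⁻¹ * M * g).val := by
      rw [Units.val_mul, Units.val_mul, hx, mul_add, add_mul, mul_smul_comm, mul_smul_comm,
        smul_mul_assoc, smul_mul_assoc, mul_one, Units.inv_mul, Units.val_mul, Units.val_mul]
    refine (smul_mk_eq_iff x g).mpr (intGroup_le_locLevel htop ⟨fun i j => ?_, ?_⟩)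
    · rw [hconj, Matrix.add_apply, Matrix.smul_apply, Matrix.smul_apply, smul_eq_mul, smul_eq_mul]
      refine (Valued.v.map_add _ _).trans (max_le ?_ ?_) <;> rw [map_mul]
      · exact mul_le_one' hp (by
          by_cases h : i = j
          · subst h; rw [Matrix.one_apply_eq, map_one]
          · rw [Matrix.one_apply_ne h, map_zero]; exact zero_le)
      · exact mul_le_one' hq (hent i j)
    · rw [hdet]; exact hdx

/-- A fixed coset makes `m` a local norm. -/
theorem exists_local_norm (hne : ∃ z : LocCosets J v, m • z = z) :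
    ∃ (δ₀ : GL (Fin 2) (w.adicCompletion L)) (a : (v.adicCompletion K)ˣ),
      twistedNorm (glMap (placeIso σ hw)) δ₀ 3 =
          baseUnit (placeMap ι hv) (scalarUnit a * m) ∧
        ∀ y, Commute y (baseUnit (placeMap ι hv) m) → Commute y δ₀ := by
  obtain ⟨z, hz⟩ := hne
  obtain ⟨δ₀, e, he, hN, hcomm, -⟩ := (fixed_and_match hm hc hw).2 (baseUnit (placeMap ι hv) m)
    (glMap_baseUnit (placeIso_fixed_iff hc.fixed hc.pow hw hv) m)
    ⟨baseLoc hm hv z, (baseLoc_smul hm hv m z).symm.trans (congrArg (baseLoc hm hv) hz)⟩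
  obtain ⟨a₀, ha₀⟩ := (placeIso_fixed_iff hc.fixed hc.pow hw hv _).mp he
  have ha : a₀ ≠ 0 := by
    rintro rfl
    exact e.ne_zero (by rw [← ha₀, map_zero])
  refine ⟨δ₀, Units.mk0 a₀ ha, ?_, hcomm⟩
  rw [hN, map_mul]
  congr 1
  refine Units.ext (Matrix.ext fun i j => ?_)
  by_cases hij : i = j <;> simp [hij, scalarUnit, ha₀]

/-- At a good place a unit fixed integral matrix is the norm of an integral one. -/
theorem exists_integral_norm (htop : locIdeal I w = ⊤) (hmu : m ∈ intGroup v) :
    ∃ (δ₀ : GL (Fin 2) (w.adicCompletion L)) (a : (v.adicCompletion K)ˣ),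
      δ₀ ∈ intGroup w ∧ Valued.v (a : v.adicCompletion K) = 1 ∧
      twistedNorm (glMap (placeIso σ hw)) δ₀ 3 =
          baseUnit (placeMap ι hv) (scalarUnit a * m) ∧
        ∀ y, Commute y (baseUnit (placeMap ι hv) m) → Commute y δ₀ := by
  set τ := placeIso σ hw with hτ
  have hMi : baseUnit (placeMap ι hv) m ∈ intGroup w := by
    refine mem_intGroup_of_inv (fun i j => (valued_placeMap_le_one_iff hv _).mpr (hmu.1 i j)) ?_
    rw [← map_inv]
    exact fun i j => (valued_placeMap_le_one_iff hv _).mpr ((inv_mem hmu).1 i j)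
  obtain ⟨δ, e, he, hN, hcomm, hset⟩ := (fixed_and_match hm hc hw).2 (baseUnit (placeMap ι hv) m)
    (glMap_baseUnit (placeIso_fixed_iff hc.fixed hc.pow hw hv) m)
    ⟨QuotientGroup.mk 1, by
      rw [smul_mk_eq_iff, inv_one, one_mul, mul_one]
      exact intGroup_le_locLevel htop hMi⟩
  have h1 : δ • (QuotientGroup.mk 1 : LocCosets I w) = QuotientGroup.mk 1 := by
    have hs : twistedMap δ (locAut hm hc hw).act (QuotientGroup.mk 1) =
        (QuotientGroup.mk 1 : LocCosets I w) := by
      refine (Set.ext_iff.mp hset _).mpr ⟨by rw [LevelAut.act_mk, map_one], ?_⟩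
      rw [smul_mk_eq_iff, inv_one, one_mul, mul_one]
      exact intGroup_le_locLevel htop hMi
    rw [twistedMap, LevelAut.act_mk, map_one] at hs
    exact hs
  replace h1 := (smul_mk_eq_iff _ _).mp h1
  rw [inv_one, one_mul, mul_one] at h1
  obtain ⟨b, u, -, hu⟩ := h1
  set U := coeUnit (intRing w) u with hU
  have hNb : ∀ k : GL (Fin 2) (w.adicCompletion L), twistedNorm (glMap τ) (scalarUnit b * k) 3 =
      scalarUnit (b * Units.map τ.toRingHom.toMonoidHom (b *
        Units.map τ.toRingHom.toMonoidHom b)) * twistedNorm (glMap τ) k 3 := fun k => by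
    simp only [twistedNorm, map_mul, map_one, mul_one, glMap_scalarUnit]
    have c1 : ∀ (s : (w.adicCompletion L)ˣ) (g h : GL (Fin 2) (w.adicCompletion L)),
        g * (scalarUnit s * h) = scalarUnit s * (g * h) := fun s g h => by
      rw [← mul_assoc, ← scalarUnit_comm, mul_assoc]
    simp only [mul_assoc]
    rw [c1 _ (glMap τ k), c1 _ k, c1 _ k]
  set nb := b * Units.map τ.toRingHom.toMonoidHom (b * Units.map τ.toRingHom.toMonoidHom b)
    with hnb
  rw [hu, hNb] at hN
  have hN' : twistedNorm (glMap τ) U 3 =
      scalarUnit (e / nb) * baseUnit (placeMap ι hv) m := by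
    rw [show e / nb = nb⁻¹ * e by rw [div_eq_mul_inv, mul_comm], map_mul, map_inv, mul_assoc,
      ← hN, inv_mul_cancel_left]
  have hfix' : τ ((e / nb : (w.adicCompletion L)ˣ) : w.adicCompletion L) =
      ((e / nb : (w.adicCompletion L)ˣ) : w.adicCompletion L) := by
    have h3 : τ (τ (τ (b : w.adicCompletion L))) = b := by
      rw [← RingAut.mul_apply, ← RingAut.mul_apply,
        show τ * τ * τ = τ ^ 3 by rw [pow_three, mul_assoc], hτ,
        placeIso_pow_three hc.pow hw, RingAut.one_apply]
    rw [Units.val_div_eq_div_val, map_div₀, he]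
    congr 1
    simp only [hnb, Units.val_mul, Units.coe_map, RingHom.toMonoidHom_eq_coe,
      MonoidHom.coe_coe, RingEquiv.toRingHom_eq_coe, RingEquiv.coe_toRingHom, map_mul, h3]
    ring
  obtain ⟨a₀, ha₀⟩ := (placeIso_fixed_iff hc.fixed hc.pow hw hv _).mp hfix'
  have ha : a₀ ≠ 0 := by
    rintro rfl
    exact (e / nb).ne_zero (by rw [← ha₀, map_zero])
  have hUi : U ∈ intGroup w := coeUnit_mem_intGroup u
  have hτint : ∀ k ∈ intGroup w, glMap τ k ∈ intGroup w := fun k hk =>
    mem_intGroup_of_inv (fun i j => (valued_placeIso hw (k.val i j)).trans_le (hk.1 i j))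
      fun i j => by
        rw [← map_inv]
        exact (valued_placeIso hw ((k⁻¹).val i j)).trans_le ((inv_mem hk).1 i j)
  have hav : Valued.v (a₀ : v.adicCompletion K) = 1 := by
    rw [← valued_placeMap_eq_one_iff hv, ha₀]
    have hNi : twistedNorm (glMap τ) U 3 ∈ intGroup w := by
      simp only [twistedNorm, map_mul, map_one, mul_one]
      exact mul_mem hUi (mul_mem (hτint _ hUi) (hτint _ (hτint _ hUi)))
    have h2 := valued_det_scalarUnit (e / nb) (baseUnit (placeMap ι hv) m)
    rw [← hN', hNi.2, hMi.2, mul_one] at h2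
    exact (pow_eq_one_iff_of_nonneg zero_le two_ne_zero).mp h2.symm
  refine ⟨U, Units.mk0 a₀ ha, hUi, hav, ?_, fun y hy => ?_⟩
  · rw [hN', map_mul]
    congr 1
    generalize e / nb = d at ha₀ ⊢
    refine Units.ext (Matrix.ext fun i j => ?_)
    by_cases hij : i = j <;> simp [hij, scalarUnit, ha₀]
  · have h2 : U = (scalarUnit b)⁻¹ * δ := by rw [hu, inv_mul_cancel_left]
    rw [h2]
    exact ((scalarUnit_commute b y).symm.inv_right).mul_right (hcomm y hy)

end Fermat.Agent.LT.PlaceMatching

end
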