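import Fermat.Agent.LT.Places.Idele
import Fermat.Agent.LT.Matching.Borel
import Mathlib.NumberTheory.NumberField.Completion.FinitePlace
import Mathlib.RingTheory.AdicCompletion.Basic

/-!
# The integers of the completion at a finite place

`intRing v` is a complete discrete valuation ring with finite residue ring, in the form used by
`LT/Matching`.
-/

set_option autoImplicit false

noncomputable section

open IsDedekindDomain NumberField WithZero Filter Topology

namespace Fermat.Agent.LT.PlaceMatching

open Places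

variable {F : Type*} [Field F] [NumberField F]

/-- The valuation ring of `F_v`, as a subring. -/
def intRing (v : FinPlace F) : Subring (v.adicCompletion F) :=
  (Valued.v (R := v.adicCompletion F)).valuationSubring.toSubring

/-- The integers are the elements of valuation at most one. -/
theorem mem_intRing {v : FinPlace F} {x : v.adicCompletion F} :
    x ∈ intRing v ↔ Valued.v x ≤ 1 := Iff.rfl

/-- The uniformiser in the ring of integers. -/
def piInt (v : FinPlace F) : intRing v :=
  ⟨(piLocal v : v.adicCompletion F), mem_intRing.mpr (by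
    rw [valued_piLocal, ← exp_zero, exp_le_exp]; omega)⟩

@[simp] theorem coe_piInt (v : FinPlace F) : (piInt v : v.adicCompletion F) = piLocal v := rfl

/-- `piInt` has valuation `exp (-1)`. -/
theorem valued_piInt (v : FinPlace F) :
    Valued.v (piInt v : v.adicCompletion F) = exp (-1 : ℤ) := valued_piLocal v

/-- Units are the integers of valuation one. -/
theorem isUnit_iff_valued {v : FinPlace F} {x : intRing v} :
    IsUnit x ↔ Valued.v (x : v.adicCompletion F) = 1 := by
  constructor
  · rintro ⟨u, rfl⟩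
    refine le_antisymm (mem_intRing.mp (u : intRing v).2) ?_
    have h : Valued.v ((u : intRing v) : v.adicCompletion F) *
        Valued.v (((u⁻¹ : (intRing v)ˣ) : intRing v) : v.adicCompletion F) = 1 := by
      rw [← map_mul, ← Subring.coe_mul, u.mul_inv, Subring.coe_one, map_one]
    rw [← h]
    exact mul_le_of_le_one_right' (mem_intRing.mp ((u⁻¹ : (intRing v)ˣ) : intRing v).2)
  · intro h
    have h0 : (x : v.adicCompletion F) ≠ 0 := fun e => by simp [e] at h
    refine IsUnit.of_mul_eq_one ⟨(x : v.adicCompletion F)⁻¹, mem_intRing.mpr (by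
      rw [map_inv₀, h, inv_one])⟩ (Subtype.ext ?_)
    exact mul_inv_cancel₀ h0

/-- A divisor of bounded valuation. -/
theorem dvd_iff_valued {v : FinPlace F} {a x : intRing v} (ha : (a : v.adicCompletion F) ≠ 0) :
    a ∣ x ↔ Valued.v (x : v.adicCompletion F) ≤ Valued.v (a : v.adicCompletion F) := by
  constructor
  · rintro ⟨y, rfl⟩
    rw [Subring.coe_mul, map_mul]
    exact mul_le_of_le_one_right' (mem_intRing.mp y.2)
  · intro h
    refine ⟨⟨(x : v.adicCompletion F) / a, mem_intRing.mpr ?_⟩, Subtype.ext ?_⟩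
    · rw [map_div₀]
      exact (div_le_one₀ (zero_lt_iff.mpr ((Valuation.ne_zero_iff _).mpr ha))).mpr h
    · exact (mul_div_cancel₀ _ ha).symm

/-- `piInt` divides exactly the integers of valuation less than one. -/
theorem piInt_dvd_iff {v : FinPlace F} {x : intRing v} :
    piInt v ∣ x ↔ Valued.v (x : v.adicCompletion F) < 1 := by
  rw [dvd_iff_valued (piLocal v).ne_zero, valued_piInt]
  constructor
  · intro h
    refine h.trans_lt ?_
    rw [← exp_zero, exp_lt_exp]; omega
  · intro h
    rcases eq_or_ne (Valued.v (x : v.adicCompletion F)) 0 with h0 | h0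
    · rw [h0]; exact zero_le
    · rw [← exp_log h0, ← exp_zero, exp_lt_exp] at h
      rw [← exp_log h0, exp_le_exp]
      omega

theorem valued_piInt_zpow (v : FinPlace F) (m : ℤ) :
    Valued.v ((piInt v : v.adicCompletion F) ^ m) = exp (-m) := by
  rw [map_zpow₀, valued_piInt, ← exp_zsmul, zsmul_eq_mul, Int.cast_id, mul_neg_one]

/-- `intRing v` is a discrete valuation ring with uniformiser `piInt v`. -/
theorem uniformizer_piInt (v : FinPlace F) : Matching.Uniformizer (intRing v) (piInt v) where
  ne_zero := (piLocal v).ne_zero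
  not_isUnit h := by
    rw [isUnit_iff_valued, valued_piInt, ← exp_zero, exp_inj] at h
    omega
  exists_eq x hx := by
    have h0 : Valued.v x ≠ 0 := (Valuation.ne_zero_iff _).mpr hx
    set m := -log (Valued.v x) with hm
    have hne : ((piInt v : v.adicCompletion F) ^ m) ≠ 0 := zpow_ne_zero _ (piLocal v).ne_zero
    have hu : Valued.v (x / (piInt v : v.adicCompletion F) ^ m) = 1 := by
      rw [map_div₀, valued_piInt_zpow, hm, neg_neg, exp_log h0, div_self h0]
    refine ⟨m, ((isUnit_iff_valued (x := ⟨_, mem_intRing.mpr hu.le⟩)).mpr hu).unit, ?_⟩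
    exact (mul_div_cancel₀ x hne).symm

theorem mem_span_pow_iff {v : FinPlace F} {n : ℕ} {x : intRing v} :
    x ∈ Ideal.span {piInt v} ^ n ↔ Valued.v (x : v.adicCompletion F) ≤ exp (-(n : ℤ)) := by
  rw [Ideal.span_singleton_pow, Ideal.mem_span_singleton, dvd_iff_valued, SubmonoidClass.coe_pow,
    map_pow, valued_piInt, ← exp_nsmul, nsmul_eq_mul, mul_neg_one]
  rw [SubmonoidClass.coe_pow]
  exact pow_ne_zero _ (piLocal v).ne_zero

/-- The local ring is adically complete. -/
theorem isAdicComplete_intRing (v : FinPlace F) :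
    IsAdicComplete (Ideal.span {piInt v}) (intRing v) where
  haus' x hx := by
    refine Subtype.ext ?_
    by_contra h0
    obtain ⟨n, hn⟩ := exists_natCast_exp_lt ((Valuation.ne_zero_iff Valued.v).mpr h0)
    have := hx n
    rw [SModEq.zero, Ideal.smul_eq_mul, Ideal.mul_top, mem_span_pow_iff] at this
    exact (this.trans_lt hn).false
  prec' f hf := by
    let g : ℕ → v.adicCompletion F := fun n => (f n : v.adicCompletion F)
    have hle : ∀ {m n : ℕ}, m ≤ n → Valued.v (g m - g n) ≤ exp (-(m : ℤ)) := fun {m n} h => by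
      have := hf h
      rw [SModEq.sub_mem, Ideal.smul_eq_mul, Ideal.mul_top, mem_span_pow_iff, AddSubgroupClass.coe_sub] at this
      exact this
    have hnhds : ∀ {U : Set (v.adicCompletion F)}, U ∈ 𝓝 (0 : v.adicCompletion F) →
        ∃ N : ℕ, ∀ y, Valued.v y ≤ exp (-(N : ℤ)) → y ∈ U := fun {U} hU => by
      obtain ⟨γ, hγ, hy⟩ := exists_nhds_ball v hU
      obtain ⟨N, hN⟩ := exists_natCast_exp_lt hγ
      exact ⟨N, fun y hy' => hy y (by rw [sub_zero]; exact hy'.trans_lt hN)⟩
    have hc : CauchySeq g := by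
      rw [cauchySeq_iff_tendsto, uniformity_eq_comap_nhds_zero (v.adicCompletion F), tendsto_comap_iff]
      intro U hU
      obtain ⟨N, hN⟩ := hnhds hU
      rw [Filter.mem_map, Filter.mem_atTop_sets]
      refine ⟨(N, N), fun p hp => hN _ ?_⟩
      show Valued.v (g p.2 - g p.1) ≤ exp (-(N : ℤ))
      rw [show g p.2 - g p.1 = (g N - g p.1) - (g N - g p.2) by ring]
      exact (Valued.v.map_sub _ _).trans (max_le (hle hp.1) (hle hp.2))
    obtain ⟨x, hx⟩ := cauchySeq_tendsto_of_complete hc
    have hlim : ∀ n : ℕ, Valued.v (g n - x) ≤ exp (-(n : ℤ)) := fun n => by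
      by_contra hlt
      rw [not_le] at hlt
      have hU : {y : v.adicCompletion F | Valued.v (y - x) ≤ exp (-(n : ℤ))} ∈ 𝓝 x := by
        rw [Valued.mem_nhds]
        obtain ⟨π, hπ⟩ := HeightOneSpectrum.valuedAdicCompletion_surjective F v (exp (-(n : ℤ)))
        refine ⟨Units.mk0 (Valued.v.restrict π) fun h => exp_ne_zero (hπ ▸
          (Valuation.restrict_eq_zero_iff _).1 h : exp (-(n : ℤ)) = (0 : ℤᵐ⁰)), fun z hz => ?_⟩
        exact (hπ ▸ (Valuation.restrict_lt_iff _).1 hz).le
      obtain ⟨k, hk⟩ := Filter.mem_atTop_sets.mp (hx hU)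
      have h1 : Valued.v (g (max n k) - x) ≤ exp (-(n : ℤ)) := hk _ (le_max_right n k)
      have h2 := hle (le_max_left n k)
      have h3 := Valued.v.map_add (g n - g (max n k)) (g (max n k) - x)
      rw [sub_add_sub_cancel] at h3
      exact ((h3.trans (max_le h2 h1)).trans_lt hlt).false
    have hmem : x ∈ intRing v := by
      rw [mem_intRing]
      have h := hlim 0
      have h0 : Valued.v (g 0) ≤ 1 := mem_intRing.mp (f 0).2
      rw [Nat.cast_zero, neg_zero, exp_zero] at h
      have := Valued.v.map_sub (g 0) (g 0 - x)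
      rw [sub_sub_cancel] at this
      exact this.trans (max_le h0 h)
    refine ⟨⟨x, hmem⟩, fun n => ?_⟩
    rw [SModEq.sub_mem, Ideal.smul_eq_mul, Ideal.mul_top, mem_span_pow_iff, AddSubgroupClass.coe_sub]
    exact hlim n

/-- The residue ring is finite. -/
theorem finite_residue (v : FinPlace F) : Finite (intRing v ⧸ Ideal.span {piInt v}) := by
  have : Finite (𝓞 F ⧸ v.asIdeal) := v.asIdeal.finiteQuotientOfFreeOfNeBot v.ne_bot
  let incl : 𝓞 F →+* intRing v :=
    ((algebraMap F (v.adicCompletion F)).comp (algebraMap (𝓞 F) F)).codRestrict (intRing v)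
      fun o => mem_intRing.mpr ((HeightOneSpectrum.valuedAdicCompletion_eq_valuation' v _).trans_le
        (v.valuation_le_one o))
  let π : 𝓞 F →+* intRing v ⧸ Ideal.span {piInt v} :=
    (Ideal.Quotient.mk _).comp incl
  have hπ : ∀ o ∈ v.asIdeal, π o = 0 := fun o ho => by
    show Ideal.Quotient.mk _ (incl o) = 0
    rw [Ideal.Quotient.eq_zero_iff_mem, Ideal.mem_span_singleton, piInt_dvd_iff]
    exact (HeightOneSpectrum.valuedAdicCompletion_eq_valuation' v _).trans_lt
      ((v.valuation_lt_one_iff_mem o).mpr ho)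
  refine Finite.of_surjective (Ideal.Quotient.lift _ π hπ) fun y => ?_
  obtain ⟨x, rfl⟩ := Ideal.Quotient.mk_surjective y
  obtain ⟨o, ho⟩ := exists_integer_near v (mem_intRing.mp x.2) one_ne_zero
  refine ⟨Ideal.Quotient.mk _ o, ?_⟩
  rw [Ideal.Quotient.lift_mk]
  show Ideal.Quotient.mk _ (incl o) = _
  rw [Ideal.Quotient.eq, Ideal.mem_span_singleton, piInt_dvd_iff, AddSubgroupClass.coe_sub]
  exact ho

end Fermat.Agent.LT.PlaceMatching

end
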