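import Fermat.Agent.LT.Matching.Rational
import Mathlib.LinearAlgebra.LinearIndependent.Defs
import Mathlib.RingTheory.Ideal.Quotient.Operations
import Mathlib.FieldTheory.Fixed

/-!
# An automorphism of order three of a complete discrete valuation ring prime to three

Either it fixes a uniformiser and has order three on the residue field (unramified case), or it is
trivial on the residue field and moves every uniformiser by a cube root of unity (tame case).
-/

set_option autoImplicit false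

noncomputable section

namespace Fermat.Agent.LT.PlaceMatching

open Fermat.Agent.LT.Matching Fermat.Agent.CubicDescent

universe u

variable {L : Type u} [Field L] {S : Subring L} {ϖ : S} {σ : L ≃+* L}

/-- A unit multiple of a uniformiser is a uniformiser. -/
theorem uniformizer_mul_unit (h : Uniformizer S ϖ) (u : Sˣ) : Uniformizer S (ϖ * (u : S)) where
  ne_zero := by
    rw [Subring.coe_mul]
    exact mul_ne_zero h.ne_zero fun e => u.ne_zero (Subtype.ext e)
  not_isUnit hu := h.not_isUnit (isUnit_of_mul_isUnit_left hu)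
  exists_eq x hx := by
    obtain ⟨m, w, rfl⟩ := h.exists_eq x hx
    refine ⟨m, (u ^ m)⁻¹ * w, ?_⟩
    have hz : ∀ k : ℤ, (((u ^ k : Sˣ) : S) : L) = ((u : S) : L) ^ k := fun k =>
      ((Units.coe_map S.subtype.toMonoidHom (u ^ k)).symm.trans
        (by rw [map_zpow, Units.val_zpow_eq_zpow_val]; rfl))
    have h1 : (((u ^ m : Sˣ)⁻¹ : Sˣ) : S).val = (((u : S) : L) ^ m)⁻¹ := by
      rw [← zpow_neg, hz, zpow_neg]
    rw [Subring.coe_mul, mul_zpow, Units.val_mul, Subring.coe_mul, h1]
    field_simp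

/-- The restriction of `σ` to a stable subring, for `σ ^ 3 = 1`. -/
def restrictAut (h3 : σ ^ 3 = 1) (hS : ∀ x ∈ S, σ x ∈ S) : S ≃+* S where
  toFun x := ⟨σ x, hS x x.2⟩
  invFun x := ⟨(σ ^ 2) x, by rw [pow_two, RingAut.mul_apply]; exact hS _ (hS x x.2)⟩
  left_inv x := Subtype.ext (by
    show (σ ^ 2) (σ (x : L)) = x
    rw [← RingAut.mul_apply, ← pow_succ, h3]; rfl)
  right_inv x := Subtype.ext (by
    show σ ((σ ^ 2) (x : L)) = x
    rw [← RingAut.mul_apply, ← pow_succ', h3]; rfl)
  map_mul' x y := Subtype.ext (map_mul σ _ _)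
  map_add' x y := Subtype.ext (map_add σ _ _)

@[simp] theorem coe_restrictAut (h3 : σ ^ 3 = 1) (hS : ∀ x ∈ S, σ x ∈ S) (x : S) :
    ((restrictAut h3 hS x : S) : L) = σ x := rfl

theorem restrictAut_three (h3 : σ ^ 3 = 1) (hS : ∀ x ∈ S, σ x ∈ S) (x : S) :
    restrictAut h3 hS (restrictAut h3 hS (restrictAut h3 hS x)) = x :=
  Subtype.ext (by
    simp only [coe_restrictAut]
    rw [← RingAut.mul_apply, ← RingAut.mul_apply, show σ * σ * σ = σ ^ 3 by rw [pow_three, mul_assoc],
      h3]
    rfl)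

theorem restrictAut_pow (h3 : σ ^ 3 = 1) (hS : ∀ x ∈ S, σ x ∈ S) :
    restrictAut h3 hS ^ 3 = 1 := RingEquiv.ext fun x => by
  rw [show restrictAut h3 hS ^ 3 = restrictAut h3 hS * restrictAut h3 hS * restrictAut h3 hS by
    rw [pow_three, mul_assoc], RingAut.mul_apply, RingAut.mul_apply]
  exact restrictAut_three h3 hS x

theorem dvd_restrictAut (h : Uniformizer S ϖ) (h3 : σ ^ 3 = 1) (hS : ∀ x ∈ S, σ x ∈ S) :
    ϖ ∣ restrictAut h3 hS ϖ :=
  (h.dvd_or_isUnit _).resolve_right fun hu => h.not_isUnit (by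
    simpa using hu.map (restrictAut h3 hS).symm)

theorem restrictAut_dvd (h : Uniformizer S ϖ) (h3 : σ ^ 3 = 1) (hS : ∀ x ∈ S, σ x ∈ S) :
    restrictAut h3 hS ϖ ∣ ϖ := by
  have h1 := dvd_restrictAut h h3 hS
  have h2 := h1.trans (map_dvd (restrictAut h3 hS) h1)
  have h4 := map_dvd (restrictAut h3 hS) h2
  rwa [restrictAut_three] at h4

/-- The datum on level cosets. -/
def levelAutTop (h3 : σ ^ 3 = 1) (hS : ∀ x ∈ S, σ x ∈ S) : LevelAut σ S (⊤ : Ideal S) 3 where
  aut := restrictAut h3 hS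
  coe_aut _ := rfl
  map_mem _ _ := Submodule.mem_top
  pow_eq := h3

/-- The datum on the first congruence level. -/
def levelAutSpan (h : Uniformizer S ϖ) (h3 : σ ^ 3 = 1) (hS : ∀ x ∈ S, σ x ∈ S) :
    LevelAut σ S (Ideal.span {ϖ}) 3 where
  aut := restrictAut h3 hS
  coe_aut _ := rfl
  map_mem _x hx := Ideal.mem_span_singleton.mpr
    ((dvd_restrictAut h h3 hS).trans (map_dvd _ (Ideal.mem_span_singleton.mp hx)))
  pow_eq := h3

/-- A uniformiser generates a maximal ideal. -/
theorem isMaximal_span (h : Uniformizer S ϖ) : (Ideal.span {ϖ}).IsMaximal := by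
  refine Ideal.isMaximal_iff.mpr ⟨?_, fun J x hJ hx hxJ => ?_⟩
  · rw [Ideal.mem_span_singleton]
    exact fun hd => h.not_isUnit (isUnit_of_dvd_one hd)
  · obtain ⟨u, rfl⟩ := (h.dvd_or_isUnit x).resolve_left fun hd =>
      hx (Ideal.mem_span_singleton.mpr hd)
    have := J.mul_mem_left ((u⁻¹ : Sˣ) : S) hxJ
    rwa [Units.inv_mul] at this

/-- The residual automorphism. -/
def residueAut (h : Uniformizer S ϖ) (h3 : σ ^ 3 = 1) (hS : ∀ x ∈ S, σ x ∈ S) :
    (S ⧸ Ideal.span {ϖ}) ≃+* (S ⧸ Ideal.span {ϖ}) :=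
  Ideal.quotientEquiv _ _ (restrictAut h3 hS) (by
    rw [Ideal.map_span, Set.image_singleton]
    refine le_antisymm ?_ ?_ <;> rw [Ideal.span_singleton_le_span_singleton]
    · exact restrictAut_dvd h h3 hS
    · exact dvd_restrictAut h h3 hS)

theorem residueAut_mk (h : Uniformizer S ϖ) (h3 : σ ^ 3 = 1) (hS : ∀ x ∈ S, σ x ∈ S) (x : S) :
    residueAut h h3 hS (Ideal.Quotient.mk _ x) = Ideal.Quotient.mk _ (restrictAut h3 hS x) := rfl

theorem residueAut_pow (h : Uniformizer S ϖ) (h3 : σ ^ 3 = 1) (hS : ∀ x ∈ S, σ x ∈ S) :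
    residueAut h h3 hS ^ 3 = 1 := RingEquiv.ext fun y => by
  obtain ⟨x, rfl⟩ := Ideal.Quotient.mk_surjective y
  rw [show residueAut h h3 hS ^ 3 = residueAut h h3 hS * residueAut h h3 hS * residueAut h h3 hS by
    rw [pow_three, mul_assoc], RingAut.mul_apply, RingAut.mul_apply]
  simp only [residueAut_mk]
  rw [restrictAut_three, RingAut.one_apply]

/-- An element of order three has three distinct powers. -/
theorem injective_powers_of_ne_one {G : Type*} [Group G] {g : G} (h3 : g ^ 3 = 1) (h1 : g ≠ 1) :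
    Function.Injective fun i : Fin 3 => g ^ (i : ℕ) := by
  have ho : orderOf g = 3 := orderOf_eq_prime h3 h1
  intro i j hij
  refine Fin.ext ?_
  have hij' : g ^ (i : ℕ) = g ^ (j : ℕ) := hij
  rw [pow_inj_mod, ho, Nat.mod_eq_of_lt i.2, Nat.mod_eq_of_lt j.2] at hij'
  exact hij'

/-- A nonzero linear combination of the three powers of an automorphism of exact order three. -/
theorem exists_combination_ne_zero {k : Type*} [Field k] {τ : k ≃+* k} (h3 : τ ^ 3 = 1)
    (h1 : τ ≠ 1) (a b : k) : ∃ x : k, x + a * τ x + b * τ (τ x) ≠ 0 := by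
  by_contra hall
  simp only [ne_eq, not_exists, not_not] at hall
  let χ : Fin 3 → (k →* k) := fun i => ((τ ^ (i : ℕ) : k ≃+* k) : k ≃* k).toMonoidHom
  have hχ : Function.Injective χ := fun i j hij =>
    injective_powers_of_ne_one h3 h1 (RingEquiv.ext fun x => DFunLike.congr_fun hij x)
  have hli := (linearIndependent_monoidHom k k).comp χ hχ
  rw [Fintype.linearIndependent_iff] at hli
  have hsum : ∑ i, ![1, a, b] i • ((fun f : k →* k => (f : k → k)) ∘ χ) i = 0 := by
    funext x
    simp only [Function.comp_apply, Finset.sum_apply, Pi.smul_apply, smul_eq_mul, Fin.sum_univ_three,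
      Pi.zero_apply]
    simpa [χ, pow_two, RingAut.mul_apply] using hall x
  exact one_ne_zero (hli _ hsum 0)

section Cases

variable (h : Uniformizer S ϖ) (h3 : σ ^ 3 = 1) (hS : ∀ x ∈ S, σ x ∈ S) (h1 : σ ≠ 1)
  (hu3 : IsUnit ((3 : ℕ) : S)) [IsAdicComplete (Ideal.span {ϖ}) S]

include h h1 hu3

/-- With a fixed uniformiser the residual automorphism is not trivial. -/
theorem residueAut_ne_one (ht : restrictAut h3 hS ϖ = ϖ) : residueAut h h3 hS ≠ 1 := by
  intro hres
  set τ := restrictAut h3 hS with hτ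
  have hd : ∀ x : S, ϖ ∣ τ x - x := fun x => by
    rw [← Ideal.mem_span_singleton, ← Ideal.Quotient.eq, ← residueAut_mk h h3 hS, hres]
    rfl
  have hstep : ∀ (n : ℕ) (x : S), ϖ ^ n ∣ τ x - x := by
    intro n
    induction n with
    | zero => simp
    | succ n ih =>
      intro x
      obtain ⟨y, hy⟩ := ih x
      have e2 : τ (τ x) - τ x = ϖ ^ n * τ y := by
        rw [← map_sub, hy, map_mul, map_pow, ht]
      have e3 : τ (τ (τ x)) - τ (τ x) = ϖ ^ n * τ (τ y) := by
        rw [← map_sub, e2, map_mul, map_pow, ht]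
      rw [hτ, restrictAut_three, ← hτ] at e3
      have h0 : ϖ ^ n * (y + τ y + τ (τ y)) = 0 := by linear_combination -hy - e2 - e3
      have hsum : y + τ y + τ (τ y) = 0 := by
        refine (mul_eq_zero.mp h0).resolve_left (pow_ne_zero _ fun e => h.ne_zero ?_)
        rw [e]; rfl
      have hy3 : ϖ ∣ ((3 : ℕ) : S) * y := by
        have e : ((3 : ℕ) : S) * y = -(τ y - y) - ((τ (τ y) - τ y) + (τ y - y)) := by
          push_cast
          linear_combination hsum
        rw [e]
        exact dvd_sub (dvd_neg.mpr (hd y)) (dvd_add (hd (τ y)) (hd y))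
      obtain ⟨z, rfl⟩ := (hu3.dvd_mul_left).mp hy3
      exact ⟨z, by rw [hy, pow_succ, mul_assoc]⟩
  have hfix : ∀ x : S, τ x = x := fun x => sub_eq_zero.mp
    (IsHausdorff.haus (inferInstance : IsHausdorff (Ideal.span {ϖ}) S) _ fun n => by
      rw [SModEq.zero, Ideal.smul_eq_mul, Ideal.mul_top, Ideal.span_singleton_pow,
        Ideal.mem_span_singleton]
      exact hstep n x)
  refine h1 (RingEquiv.ext fun z => ?_)
  rcases eq_or_ne z 0 with rfl | hz
  · exact map_zero σ
  obtain ⟨m, u, rfl⟩ := h.exists_eq z hz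
  rw [map_mul, map_zpow₀, ← coe_restrictAut h3 hS, ← coe_restrictAut h3 hS (u : S), hfix, hfix]
  rfl

/-- **The unramified case**: a fixed uniformiser exists. -/
theorem exists_unramifiedDatum [Finite (S ⧸ Ideal.span {ϖ})]
    (ht : restrictAut h3 hS ϖ = ϖ) :
    ∃ (k : Type u) (_ : Field k) (_ : Finite k),
      Nonempty (UnramifiedDatum (levelAutTop h3 hS).aut 3 ϖ k) := by
  have := isMaximal_span h
  let := Ideal.Quotient.field (Ideal.span {ϖ})
  refine ⟨S ⧸ Ideal.span {ϖ}, inferInstance, inferInstance, ⟨?_⟩⟩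
  exact
    { res := Ideal.Quotient.mk _
      resAut := residueAut h h3 hS
      res_comm := fun _ => rfl
      res_surjective := Ideal.Quotient.mk_surjective
      dvd_iff := fun x => Ideal.Quotient.eq_zero_iff_mem.trans Ideal.mem_span_singleton
      pos := by norm_num
      aut_pow := restrictAut_pow h3 hS
      resAut_injective := injective_powers_of_ne_one (residueAut_pow h h3 hS)
        (residueAut_ne_one h h3 hS h1 hu3 ht)
      aut_t := ht
      regular := IsLeftCancelMulZero.mul_left_cancel_of_ne_zero fun e => h.ne_zero (by rw [e]; rfl) }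

omit h1 [IsAdicComplete (Ideal.span {ϖ}) S] in
/-- **The tame case**: no uniformiser is fixed. -/
theorem tameDatum (hno : ∀ t : S, Uniformizer S t → restrictAut h3 hS t ≠ t) :
    TameDatum σ S (levelAutSpan h h3 hS).aut 3 ϖ := by
  have := isMaximal_span h
  let := Ideal.Quotient.field (Ideal.span {ϖ})
  set τ := restrictAut h3 hS with hτ
  obtain ⟨u₀, hu₀⟩ := dvd_restrictAut h h3 hS
  have hu₀u : IsUnit u₀ := by
    refine (h.dvd_or_isUnit u₀).resolve_left fun ⟨z, hz⟩ => h.not_isUnit ?_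
    obtain ⟨w, hw⟩ := restrictAut_dvd h h3 hS
    have h0 : ϖ * (ϖ * (z * w) - 1) = 0 := by
      linear_combination -hw + (-w) * hu₀ + (-ϖ * w) * hz
    exact IsUnit.of_mul_eq_one (z * w) (sub_eq_zero.mp
      ((mul_eq_zero.mp h0).resolve_left fun e => h.ne_zero (by rw [e]; rfl)))
  -- a fixed trace of a multiple of the uniformiser is divisible by its square
  have htrace : ∀ s : S, ϖ ∣ s + u₀ * τ s + u₀ * τ u₀ * τ (τ s) := fun s => by
    refine (h.dvd_or_isUnit _).resolve_right fun hu => hno _ (uniformizer_mul_unit h hu.unit) ?_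
    rw [IsUnit.unit_spec]
    have e : ϖ * (s + u₀ * τ s + u₀ * τ u₀ * τ (τ s)) = ϖ * s + τ (ϖ * s) + τ (τ (ϖ * s)) := by
      simp only [map_mul, show τ ϖ = ϖ * u₀ from hu₀]
      ring
    rw [e, map_add, map_add, restrictAut_three]
    ring
  have hres : residueAut h h3 hS = 1 := by
    by_contra hne
    obtain ⟨x, hx⟩ := exists_combination_ne_zero (residueAut_pow h h3 hS) hne
      (Ideal.Quotient.mk _ u₀) (Ideal.Quotient.mk _ (u₀ * τ u₀))
    obtain ⟨s, rfl⟩ := Ideal.Quotient.mk_surjective x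
    refine hx ?_
    simp only [residueAut_mk, ← map_mul, ← map_add]
    exact Ideal.Quotient.eq_zero_iff_mem.mpr (Ideal.mem_span_singleton.mpr (htrace s))
  have hd : ∀ x : S, ϖ ∣ τ x - x := fun x => by
    rw [← Ideal.mem_span_singleton, ← Ideal.Quotient.eq, ← residueAut_mk h h3 hS, hres]
    rfl
  -- the residue of `u₀` is a primitive cube root of unity
  set r : S ⧸ Ideal.span {ϖ} := Ideal.Quotient.mk _ u₀ with hr
  have hr2 : 1 + r + r * r = 0 := by
    have h' := Ideal.Quotient.eq_zero_iff_mem.mpr (Ideal.mem_span_singleton.mpr (htrace 1))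
    have e : Ideal.Quotient.mk (Ideal.span {ϖ}) (τ u₀) = r :=
      Ideal.Quotient.eq.mpr (Ideal.mem_span_singleton.mpr (hd u₀))
    simpa [map_add, map_mul, e, ← hr] using h'
  have hr1 : r ≠ 1 := fun e => by
    rw [e] at hr2
    have h30 : ((3 : ℕ) : S ⧸ Ideal.span {ϖ}) = 0 := by push_cast; linear_combination hr2
    have hu' := hu3.map (Ideal.Quotient.mk (Ideal.span {ϖ}))
    rw [map_natCast, h30] at hu'
    exact not_isUnit_zero hu'
  have hr3 : r ^ 3 = 1 := by linear_combination (r - 1) * hr2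
  refine ⟨by decide, hu3, hd, fun m ⟨z, hz⟩ => ?_⟩
  set U : Sˣ := hu₀u.unit
  have hσϖ : σ (ϖ : L) = (ϖ : L) * (u₀ : L) := congrArg Subtype.val hu₀
  rw [map_zpow₀, hσϖ, mul_zpow] at hz
  have hzm := mul_left_cancel₀ (zpow_ne_zero m h.ne_zero) hz
  have hUm : (((U ^ m : Sˣ) : S) : L) = (u₀ : L) ^ m :=
    (Units.coe_map S.subtype.toMonoidHom (U ^ m)).symm.trans
      (by rw [map_zpow, Units.val_zpow_eq_zpow_val]; rfl)
  have hUeq : ((U ^ m : Sˣ) : S) = 1 + ϖ * z := Subtype.ext (by
    rw [hUm, hzm]; rfl)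
  set R : (S ⧸ Ideal.span {ϖ})ˣ := Units.map (Ideal.Quotient.mk (Ideal.span {ϖ})).toMonoidHom U
  have hR : R ^ m = 1 := by
    rw [← map_zpow]
    refine Units.ext ?_
    show Ideal.Quotient.mk (Ideal.span {ϖ}) ((U ^ m : Sˣ) : S) = 1
    rw [hUeq, map_add, map_one, map_mul, Ideal.Quotient.eq_zero_iff_mem.mpr
      (Ideal.mem_span_singleton_self ϖ), zero_mul, add_zero]
  have hRo : orderOf R = 3 := by
    refine orderOf_eq_prime (Units.ext ?_) fun e => hr1 ?_
    · simpa [R, U, hr] using hr3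
    · simpa [R, U, hr] using congrArg Units.val e
  rw [← hRo]
  exact orderOf_dvd_iff_zpow_eq_one.mpr hR

end Cases

end Fermat.Agent.LT.PlaceMatching

end
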