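import Fermat.Agent.LT.PlaceMatching.Maps
import Fermat.Agent.LT.PlaceMatching.LocalRing
import Fermat.Agent.LT.PlaceMatching.Trichotomy
import Fermat.Agent.LT.Geometric.NormClasses

/-!
# The three kinds of places of a cyclic cubic extension

A place of `L` moved by `σ` has the completion of `K`. A place fixed by `σ`, prime to three, is
either unramified (`UnramifiedDatum`, valuations of `K` unchanged) or tame (`TameDatum`,
valuations of `K` multiplied by three).
-/

set_option autoImplicit false

noncomputable section

open IsDedekindDomain NumberField WithZero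

namespace Fermat.Agent.LT.PlaceMatching

open Places Matching
open Fermat.Agent.LT.Geometric (IsCubic)

universe u v

variable {K : Type u} {L : Type v} [Field K] [NumberField K] [Field L] [NumberField L]
  {ι : K →+* L} {σ : L ≃+* L}

omit [NumberField L] in
/-- `σ` has order dividing three, applied to an element. -/
theorem sigma_three (hpow : σ ^ 3 = 1) (x : L) : σ (σ (σ x)) = x := by
  rw [← RingAut.mul_apply, ← RingAut.mul_apply, show σ * σ * σ = σ ^ 3 by rw [pow_three, mul_assoc],
    hpow, RingAut.one_apply]

omit [NumberField L] in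
theorem sigma_comp_three (hpow : σ ^ 3 = 1) :
    (σ : L →+* L).comp ((σ : L →+* L).comp (σ : L →+* L)) = RingHom.id L :=
  RingHom.ext (sigma_three hpow)

/-- The action of `σ` on places has order dividing three. -/
theorem comapPlace_three (hpow : σ ^ 3 = 1) (w : FinPlace L) :
    comapPlace (σ : L →+* L) (comapPlace (σ : L →+* L) (comapPlace (σ : L →+* L) w)) = w := by
  rw [← comapPlace_comp, ← comapPlace_comp, sigma_comp_three hpow, comapPlace_id]

/-- `σ` permutes the places over a place of `K`. -/
theorem comapPlace_base (hfix : ∀ x : L, σ x = x ↔ x ∈ Set.range ι) (w : FinPlace L) :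
    comapPlace ι (comapPlace (σ : L →+* L) w) = comapPlace ι w := by
  rw [← comapPlace_comp,
    show (σ : L →+* L).comp ι = ι from RingHom.ext fun x => (hfix _).mpr ⟨x, rfl⟩]

/-- At a fixed place `placeIso` has order dividing three. -/
theorem placeIso_pow_three (hpow : σ ^ 3 = 1) {w : FinPlace L}
    (h : comapPlace (σ : L →+* L) w = w) : placeIso σ h ^ 3 = 1 := by
  refine RingEquiv.ext fun a => ?_
  rw [show placeIso σ h ^ 3 = placeIso σ h * placeIso σ h * placeIso σ h by
    rw [pow_three, mul_assoc], RingAut.mul_apply, RingAut.mul_apply, RingAut.one_apply,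
    placeIso_apply, placeIso_apply, placeIso_apply]
  have h2 : comapPlace ((σ : L →+* L).comp (σ : L →+* L)) w = w := by rw [comapPlace_comp, h, h]
  have h3 : comapPlace ((σ : L →+* L).comp ((σ : L →+* L).comp (σ : L →+* L))) w = w := by
    rw [comapPlace_comp, comapPlace_comp, h, h, h]
  rw [placeMap_comp h h h2, placeMap_comp h h2 (by rw [comapPlace_comp, h2, h])]
  rw [placeMap_congr (show ((σ : L →+* L).comp ((σ : L →+* L))).comp (σ : L →+* L) = RingHom.id L
    from RingHom.ext (sigma_three hpow)) _ (comapPlace_id w), placeMap_id]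

/-- At a fixed place `placeIso` is nontrivial. -/
theorem placeIso_ne_one (hne : σ ≠ 1) {w : FinPlace L} (h : comapPlace (σ : L →+* L) w = w) :
    placeIso σ h ≠ 1 := fun e => hne (RingEquiv.ext fun x => by
  have h1 := DFunLike.congr_fun e (algebraMap L (w.adicCompletion L) x)
  rw [placeIso_apply, placeMap_algebraMap, RingAut.one_apply] at h1
  exact (algebraMap L (w.adicCompletion L)).injective h1)

/-- `placeIso` preserves the integers. -/
theorem placeIso_mem {w : FinPlace L} (h : comapPlace (σ : L →+* L) w = w)
    {x : w.adicCompletion L} (hx : x ∈ intRing w) : placeIso σ h x ∈ intRing w := by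
  rwa [mem_intRing, valued_placeIso]

/-- Three is a unit at places prime to three. -/
theorem isUnit_three {w : FinPlace L} (h3 : (3 : 𝓞 L) ∉ w.asIdeal) :
    IsUnit ((3 : ℕ) : intRing w) := by
  rw [isUnit_iff_valued, SubringClass.coe_natCast, valued_natCast,
    ← map_natCast (algebraMap (𝓞 L) L), HeightOneSpectrum.valuation_eq_one_iff_notMem]
  exact_mod_cast h3

/-! ### Split places -/

/-- At a place moved by `σ` the completion is that of `K`. -/
theorem placeMap_bijective_of_moved (hc : IsCubic ι σ) {w : FinPlace L} {v : FinPlace K}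
    (hw : comapPlace (σ : L →+* L) w ≠ w) (hv : comapPlace ι w = v) :
    Function.Bijective (placeMap ι hv) := by
  refine ⟨RingHom.injective _, fun a => ?_⟩
  set τ := comapPlace (σ : L →+* L) with hτ
  have hτ2 : τ (τ w) ≠ w := fun e => hw (by
    conv_lhs => rw [← e]
    exact comapPlace_three hc.pow w)
  set x := single w a
  let s : FinAdele L := x + finMap (σ : L →+* L) x + finMap (σ : L →+* L) (finMap (σ : L →+* L) x)
  have hx3 : finMap (σ : L →+* L) (finMap (σ : L →+* L) (finMap (σ : L →+* L) x)) = x := by
    simp only [finMap_eq_finExtend, finExtend_finExtend]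
    have e : (σ : L →+* L).comp ((σ : L →+* L).comp (σ : L →+* L)) = RingHom.id L :=
      sigma_comp_three hc.pow
    rw [e, finExtend_id]
  have hs : finMap (σ : L →+* L) s = s := by
    simp only [s, map_add, hx3]
    abel
  obtain ⟨y, hy⟩ := exists_finExtend_eq hc.fixed hc.pow hs
  refine ⟨toPlace v y, ?_⟩
  rw [← toPlace_finExtend hv, hy]
  simp only [s, map_add]
  rw [toPlace_single_same, toPlace_finMap (w' := τ w) rfl,
    toPlace_finMap (w' := τ w) rfl, toPlace_finMap (w := τ w) (w' := τ (τ w)) rfl]
  rw [show toPlace (τ w) x = 0 from toPlace_single_ne hw a,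
    show toPlace (τ (τ w)) x = 0 from toPlace_single_ne hτ2 a]
  simp

/-- At a moved place valuations are unchanged. -/
theorem valued_placeMap_of_moved (hc : IsCubic ι σ) {w : FinPlace L} {v : FinPlace K}
    (hw : comapPlace (σ : L →+* L) w ≠ w) (hv : comapPlace ι w = v) (a : v.adicCompletion K) :
    Valued.v (placeMap ι hv a) = Valued.v a := by
  obtain ⟨e, he, -, hval⟩ := exists_valued_placeMap hv
  obtain ⟨b, hb⟩ := (placeMap_bijective_of_moved hc hw hv).2 (piLocal w : w.adicCompletion L)
  have h := hval b
  rw [hb, valued_piLocal] at h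
  rw [hval]
  suffices he1 : e = 1 by rw [he1, pow_one]
  rcases eq_or_ne (Valued.v b) 0 with h0 | h0
  · rw [h0, zero_pow he] at h; exact absurd h exp_ne_zero
  rw [← exp_log h0, ← exp_nsmul, exp_inj, nsmul_eq_mul] at h
  have hd : (e : ℤ) ∣ 1 := ⟨-log (Valued.v b), by rw [mul_neg, ← h, neg_neg]⟩
  exact Nat.eq_one_of_dvd_one (Int.natCast_dvd_natCast.1 hd)

/-! ### Fixed places -/

/-- A place fixed by `σ` with a fixed uniformiser. -/
structure IsInert (σ : L ≃+* L) (w : FinPlace L) : Prop where
  fixed : comapPlace (σ : L →+* L) w = w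
  exists_fixed : ∃ t : intRing w, Uniformizer (intRing w) t ∧
    placeIso σ fixed (t : w.adicCompletion L) = t

/-- A place fixed by `σ` where no uniformiser is fixed. -/
structure IsTame (σ : L ≃+* L) (w : FinPlace L) : Prop where
  fixed : comapPlace (σ : L →+* L) w = w
  not_fixed : ∀ t : intRing w, Uniformizer (intRing w) t →
    placeIso σ fixed (t : w.adicCompletion L) ≠ t

omit [NumberField K] in
/-- Every place is moved, inert or tame. -/
theorem moved_or_inert_or_tame (w : FinPlace L) :
    comapPlace (σ : L →+* L) w ≠ w ∨ IsInert σ w ∨ IsTame σ w := by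
  by_cases h : comapPlace (σ : L →+* L) w = w
  · refine Or.inr ?_
    by_cases ht : ∃ t : intRing w, Uniformizer (intRing w) t ∧
      placeIso σ h (t : w.adicCompletion L) = t
    · exact Or.inl ⟨h, ht⟩
    · push Not at ht
      exact Or.inr ⟨h, ht⟩
  · exact Or.inl h

/-- A uniformiser has valuation `exp (-1)`. -/
theorem valued_uniformizer {w : FinPlace L} {t : intRing w} (h : Uniformizer (intRing w) t) :
    Valued.v (t : w.adicCompletion L) = exp (-1 : ℤ) := by
  obtain ⟨m, u, hu⟩ := h.exists_eq (piLocal w : w.adicCompletion L) (piLocal w).ne_zero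
  have h1 := congrArg Valued.v hu
  rw [valued_piLocal, map_mul, map_zpow₀, isUnit_iff_valued.mp u.isUnit, mul_one] at h1
  have ht1 : Valued.v (t : w.adicCompletion L) < 1 :=
    lt_of_le_of_ne (mem_intRing.mp t.2) fun e => h.not_isUnit (isUnit_iff_valued.mpr e)
  have ht0 : Valued.v (t : w.adicCompletion L) ≠ 0 := (Valuation.ne_zero_iff _).mpr h.ne_zero
  rw [← exp_log ht0] at h1 ht1 ⊢
  rw [← exp_zsmul, exp_inj, zsmul_eq_mul, Int.cast_id] at h1
  rw [← exp_zero, exp_lt_exp] at ht1
  rw [exp_inj]
  rcases Int.eq_one_or_neg_one_of_mul_eq_neg_one' (u := m)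
    (v := log (Valued.v (t : w.adicCompletion L))) h1.symm with ⟨_, h2⟩ | ⟨_, h2⟩
  · exact h2
  · omega

variable {w : FinPlace L} {v : FinPlace K}

omit [NumberField K] in
/-- The unramified datum at an inert place prime to three. -/
theorem IsInert.exists_datum (hw : IsInert σ w) (hc : IsCubic ι σ) (h3 : (3 : 𝓞 L) ∉ w.asIdeal) :
    ∃ (t : intRing w) (_ : Uniformizer (intRing w) t)
      (_ : IsAdicComplete (Ideal.span {t}) (intRing w)) (k : Type v) (_ : Field k) (_ : Finite k),
      Nonempty (UnramifiedDatum (levelAutTop (placeIso_pow_three hc.pow hw.fixed)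
        (fun _ => placeIso_mem hw.fixed)).aut 3 t k) := by
  obtain ⟨t, ht, htfix⟩ := hw.exists_fixed
  have hspan : Ideal.span {t} = Ideal.span {piInt w} := by
    refine le_antisymm ?_ ?_ <;> rw [Ideal.span_singleton_le_span_singleton, dvd_iff_valued]
    · rw [valued_uniformizer ht, valued_piInt]
    · exact (piLocal w).ne_zero
    · rw [valued_uniformizer ht, valued_piInt]
    · exact ht.ne_zero
  have : IsAdicComplete (Ideal.span {t}) (intRing w) := hspan ▸ isAdicComplete_intRing w
  have : Finite (intRing w ⧸ Ideal.span {t}) := hspan ▸ finite_residue w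
  exact ⟨t, ht, ‹_›, exists_unramifiedDatum ht (placeIso_pow_three hc.pow hw.fixed)
    (fun _ => placeIso_mem hw.fixed) (placeIso_ne_one hc.ne_one hw.fixed) (isUnit_three h3)
    (Subtype.ext htfix)⟩

omit [NumberField K] in
/-- The tame datum at a tame place prime to three. -/
theorem IsTame.datum (hw : IsTame σ w) (hc : IsCubic ι σ) (h3 : (3 : 𝓞 L) ∉ w.asIdeal) :
    TameDatum (placeIso σ hw.fixed) (intRing w) (levelAutSpan (uniformizer_piInt w)
      (placeIso_pow_three hc.pow hw.fixed) (fun _ => placeIso_mem hw.fixed)).aut 3 (piInt w) :=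
  tameDatum (uniformizer_piInt w) (placeIso_pow_three hc.pow hw.fixed)
    (fun _ => placeIso_mem hw.fixed) (isUnit_three h3)
    fun t ht e => hw.not_fixed t ht (congrArg Subtype.val e)

end Fermat.Agent.LT.PlaceMatching

end
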