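import Fermat.Agent.LT.PlaceMatching.Transfer
import Fermat.Agent.LT.PlaceMatching.Kernels
import Fermat.Agent.LT.Whittaker.Defs

/-!
# The projection of the cosets

`Transfer.proj` takes at every place `v` of `K` the component at the chosen place above, translated
by `y v`. It is equivariant for the centraliser of `γ` on the support of the twisted terms.
-/

set_option autoImplicit false

noncomputable section

open IsDedekindDomain NumberField Matrix

namespace Fermat.Agent.LT.PlaceMatching

open Places Matching CubicDescent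
open Fermat.Agent.LT.Geometric (IsCubic IsNormalised pglBase)

universe u u'

variable {K : Type u} {L : Type u'} [Field K] [NumberField K] [Field L] [NumberField L]
  {ι : K →+* L} {σ : L ≃+* L} {I : Ideal (𝓞 L)} {J : Ideal (𝓞 K)}
  {hI : ∃ N : ℕ, 0 < N ∧ (N : 𝓞 L) ∈ I} {hJ : ∃ N : ℕ, 0 < N ∧ (N : 𝓞 K) ∈ J}
  {hm : LevelsMatch ι σ I J} {hc : IsCubic ι σ} {s : PlaceSection ι}
  {x : GL (Fin 2) L} {m : GL (Fin 2) K}

namespace Transfer

variable (T : Transfer hm hc s x m)

/-- The component at `v` has a projection. -/
def HasLift (v : FinPlace K) (c : KerFam.Cst hI) : Prop :=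
  ∃ z : LocCosets J v, baseLoc hm (s.over v) z = T.y v • comp (s.sec v) c

open Classical in
/-- The projection at `v`. -/
def projLoc (v : FinPlace K) (c : KerFam.Cst hI) : LocCosets J v :=
  if h : T.HasLift v c then h.choose else QuotientGroup.mk 1

/-- The local projection is the unique preimage. -/
theorem projLoc_eq {v : FinPlace K} {c : KerFam.Cst hI} {z : LocCosets J v}
    (h : baseLoc hm (s.over v) z = T.y v • comp (s.sec v) c) : T.projLoc v c = z := by
  have h' : T.HasLift v c := ⟨z, h⟩
  rw [projLoc, dif_pos h']
  exact baseLoc_injective hm hc (s.over v) (h'.choose_spec.trans h.symm)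

/-- The local projection is a preimage when there is one. -/
theorem baseLoc_projLoc {v : FinPlace K} {c : KerFam.Cst hI} (h : T.HasLift v c) :
    baseLoc hm (s.over v) (T.projLoc v c) = T.y v • comp (s.sec v) c := by
  obtain ⟨z, hz⟩ := h
  rw [T.projLoc_eq hz, hz]

/-- Almost all local projections are trivial. -/
theorem finite_projLoc (c : KerFam.Cst hI) :
    {v | T.projLoc v c ≠ (QuotientGroup.mk 1 : LocCosets J v)}.Finite := by
  refine (T.finite'.union ((finite_comp_ne_one c).preimage s.sec_injective.injOn)).subset
    fun v hv => ?_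
  by_contra h
  simp only [Set.mem_union, Set.mem_preimage, Set.mem_ofPred_eq, not_or, not_not] at h
  refine hv (T.projLoc_eq ?_)
  rw [baseLoc_mk, map_one, h.1, h.2, one_smul]

variable (hJ) in
/-- The projection. -/
def proj (c : KerFam.Cst hI) : KerFam.Cst hJ :=
  (exists_comp (hI := hJ) (fun v => T.projLoc v c) (T.finite_projLoc c)).choose

/-- The components of the projection. -/
theorem comp_proj (v : FinPlace K) (c : KerFam.Cst hI) :
    comp v (T.proj hJ c) = T.projLoc v c :=
  (exists_comp (hI := hJ) (fun v => T.projLoc v c) (T.finite_projLoc c)).choose_spec v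

theorem projLoc_congr {v : FinPlace K} {c c' : KerFam.Cst hI}
    (h : comp (s.sec v) c = comp (s.sec v) c') : T.projLoc v c = T.projLoc v c' := by
  by_cases hl : T.HasLift v c
  · obtain ⟨z, hz⟩ := hl
    rw [T.projLoc_eq hz, T.projLoc_eq (hz.trans (by rw [h]))]
  · have hl' : ¬ T.HasLift v c' := fun ⟨z, hz⟩ => hl ⟨z, by rw [hz, h]⟩
    rw [projLoc, projLoc, dif_neg hl, dif_neg hl']

/-- The projection sees only the chosen places. -/
theorem proj_congr {c c' : KerFam.Cst hI}
    (h : ∀ v, comp (s.sec v) c = comp (s.sec v) c') : T.proj hJ c = T.proj hJ c' := by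
  refine coset_ext fun v => ?_
  rw [comp_proj, comp_proj]
  exact T.projLoc_congr (h v)

/-- An adelic matrix trivial at the chosen places does not move the projection. -/
theorem proj_smul_of_trivial {g : GLFin L} (hg : ∀ v, glPlace (s.sec v) g = 1)
    (c : KerFam.Cst hI) : T.proj hJ (g • c) = T.proj hJ c :=
  T.proj_congr fun v => by rw [comp_smul, hg v, one_smul]

theorem hasLift_of_moved {v : FinPlace K} (h : s.Moved σ v) (c : KerFam.Cst hI) : T.HasLift v c :=
  baseLoc_surjective hm hc h (s.over v) _

/-- An adelic matrix acting at the chosen places through `K`, at moved places only. -/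
theorem proj_smul_of_moved {g : GLFin L} {g₀ : GLFin K}
    (hg : ∀ v, glPlace (s.sec v) g = baseUnit (placeMap ι (s.over v)) (glPlace v g₀))
    (hfix : ∀ v, ¬ s.Moved σ v → glPlace v g₀ = 1) (c : KerFam.Cst hI) :
    T.proj hJ (g • c) = g₀ • T.proj hJ c := by
  refine coset_ext fun v => ?_
  rw [comp_proj, comp_smul, comp_proj]
  by_cases h : s.Moved σ v
  · refine T.projLoc_eq ?_
    rw [baseLoc_smul, T.baseLoc_projLoc (T.hasLift_of_moved h c), comp_smul, hg, T.y_moved v h,
      one_smul, one_smul]
  · rw [hfix v h, one_smul]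
    have he : comp (s.sec v) (g • c) = comp (s.sec v) c := by
      rw [comp_smul, hg, hfix v h, map_one, one_smul]
    exact T.projLoc_congr he

/-- The support of the twisted terms: the fixed cosets at fixed places. -/
def OnSupport (c : KerFam.Cst hI) : Prop :=
  ∀ (v : FinPlace K) (hw : comapPlace (σ : L →+* L) (s.sec v) = s.sec v),
    glPlace (s.sec v) (glIncl L x) • isoLoc hm hc hw (comp (s.sec v) c) = comp (s.sec v) c

/-- On the support every component has a projection. -/
theorem hasLift_of_onSupport {c : KerFam.Cst hI}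
    (hs : OnSupport (hm := hm) (hc := hc) (s := s) (x := x) c) (v : FinPlace K) :
    T.HasLift v c := by
  by_cases h : s.Moved σ v
  · exact T.hasLift_of_moved h c
  · obtain ⟨z, -, hz⟩ := (T.isTransfer v (not_not.mp h) _).mp (hs v (not_not.mp h))
    exact ⟨z, hz⟩

/-- **Equivariance for the centraliser of `γ`.** -/
theorem proj_smul {z : GL (Fin 2) K}
    (hz : Commute (QuotientGroup.mk z : PGLIndex K) (QuotientGroup.mk m)) {c : KerFam.Cst hI}
    (hs : OnSupport (hm := hm) (hc := hc) (s := s) (x := x) c) :
    T.proj hJ (glIncl L (baseUnit ι z) • c) = glIncl K z • T.proj hJ c := by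
  refine coset_ext fun v => ?_
  rw [comp_proj, comp_smul, comp_proj]
  refine T.projLoc_eq ?_
  rw [baseLoc_smul, T.baseLoc_projLoc (T.hasLift_of_onSupport hs v), comp_smul,
    glPlace_glIncl_baseUnit (s.over v), ← mul_smul, ← mul_smul, (T.commute v z hz).eq]

end Transfer

/-- Unipotents at the places over a moved place `v₀`. -/
theorem unip_support {v₀ : FinPlace K} {u : FinAdele L}
    (hu : finExtend ι (idem v₀) * u = u) {w : FinPlace L} (hw : comapPlace ι w ≠ v₀) :
    toPlace w u = 0 := by
  rw [← hu, map_mul, toPlace_finExtend (v := comapPlace ι w) rfl, toPlace_idem_ne hw, map_zero,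
    zero_mul]

/-- Components of adelic unipotents. -/
theorem glPlace_unip {F : Type*} [Field F] [NumberField F] (v : FinPlace F) (u : FinAdele F) :
    glPlace v (unip u) = unip (toPlace v u) :=
  Units.ext (Matrix.ext fun i j => by
    rw [glPlace_apply]
    fin_cases i <;> fin_cases j <;> simp)

namespace Transfer

variable (T : Transfer hm hc s x m)

/-- Translations along the two other places over `v₀` disappear. -/
theorem proj_unip_other {v₀ : FinPlace K} {u : FinAdele L}
    (hu : finExtend ι (idem v₀) * u = u) (h0 : idem (s.sec v₀) * u = 0) (c : KerFam.Cst hI) :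
    T.proj hJ (unip u • c) = T.proj hJ c := by
  refine T.proj_smul_of_trivial (fun v => ?_) c
  have h : toPlace (s.sec v) u = 0 := by
    rcases eq_or_ne v v₀ with rfl | hv
    · have := congrArg (toPlace (s.sec v)) h0
      rwa [map_mul, toPlace_idem_same, one_mul, map_zero] at this
    · exact unip_support hu (by rw [s.over]; exact hv)
  rw [glPlace_unip, h]
  exact AddChar.map_zero_eq_one _

/-- Translations over a moved `v₀` act through `K`. -/
theorem proj_unip {v₀ : FinPlace K} (hv₀ : s.Moved σ v₀) {u : FinAdele L}
    (hu : finExtend ι (idem v₀) * u = u) :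
    ∃ u₀ : FinAdele K, idem v₀ * u₀ = u₀ ∧
      ∀ c : KerFam.Cst hI, T.proj hJ (unip u • c) = unip u₀ • T.proj hJ c := by
  obtain ⟨a, ha⟩ := (placeMap_bijective_of_moved hc hv₀ (s.over v₀)).2 (toPlace (s.sec v₀) u)
  refine ⟨single v₀ a, by rw [idem, ← single_mul, one_mul],
    fun c => T.proj_smul_of_moved (fun v => ?_) (fun v hv => ?_) c⟩
  · rw [glPlace_unip, glPlace_unip]
    refine Units.ext (Matrix.ext fun i j => ?_)
    have h : toPlace (s.sec v) u = placeMap ι (s.over v) (toPlace v (single v₀ a)) := by
      rcases eq_or_ne v v₀ with rfl | hv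
      · rw [toPlace_single_same, ha]
      · rw [unip_support hu (by rw [s.over]; exact hv), toPlace_single_ne hv, map_zero]
    rw [h]
    fin_cases i <;> fin_cases j <;> simp
  · rw [glPlace_unip, toPlace_single_ne (fun e : v = v₀ => hv (e.symm ▸ hv₀))]
    exact AddChar.map_zero_eq_one _

end Transfer

end Fermat.Agent.LT.PlaceMatching

end
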